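import Fermat.Agent.DR.Mod.Basic

set_option autoImplicit false

/-!
# The residue fields of the two reductions of `X₀(Mq)` are `F̄_M`

`redOne`, `redTwo : RedDatum L F_{Mq} k F̄_M A π` and their basic properties.
-/

noncomputable section

open AlgebraicCurve ModularCurve IntermediateField
open Fermat.Agent.JRED Fermat.Agent.DR.PairOrtho Fermat.Agent.DR.PairDegree
  Fermat.Agent.DR.PairShift

namespace Fermat.Agent.DR.Mod

/-- Degree input at level `Mq`: `[F_{Mq} : L(j)] ≤ (q+1) [F̄_M : k(j)]`. -/
def DegInput (L k : Type*) [Field L] [Algebra ℚ L] [Field k] (M q : ℕ) [NeZero M] [NeZero q] :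
    Prop :=
  FiniteDimensional L⟮Fermat.Agent.JRED.jL L (M * q)⟯
    (laurentBaseChange L (modularFunctionFieldFull (M * q))) ∧
  Module.finrank L⟮Fermat.Agent.JRED.jL L (M * q)⟯
    (laurentBaseChange L (modularFunctionFieldFull (M * q))) ≤
      (q + 1) * Module.finrank k⟮jRed k M⟯ (modularFunctionFieldFullC k M)

section

variable {L : Type*} [Field L] [Algebra ℚ L] {k : Type*} [Field k] {A : ValuationSubring L}
  {π : A →+* k} {M q : ℕ} [NeZero M] [NeZero q] [ExpChar k q]
  {w : laurentBaseChange L (modularFunctionFieldFull (M * q)) ≃ₐ[L]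
      laurentBaseChange L (modularFunctionFieldFull (M * q))}

/-- Hypotheses of the modular instantiation. -/
structure Setup (π : A →+* k) (w : laurentBaseChange L (modularFunctionFieldFull (M * q)) ≃ₐ[L]
      laurentBaseChange L (modularFunctionFieldFull (M * q))) : Prop where
  surj : Function.Surjective π
  sq : ∀ c : L, ∃ s : L, s * s = c
  two_le : 2 ≤ q
  al : IsAL w
  deg : DegInput L k M q

theorem jpow_mem (k : Type*) [Field k] (M q : ℕ) :
    jqModC k ^ q ∈ modularFunctionFieldFullC k M := pow_mem (jqModC_mem_full k M) q

theorem transcendental_jpow (k : Type*) [Field k] (q : ℕ) [NeZero q] :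
    Transcendental k (jqModC k ^ q) :=
  (transcendental_jqModC k).pow (Nat.pos_of_ne_zero (NeZero.ne q))

variable (S : Setup π w)
include S

theorem Setup.separated : Separated (R1L π M q) (R2L π w) := separatedL S.surj S.two_le S.al

theorem Setup.finiteDimensional_jRed :
    FiniteDimensional k⟮jRed k M⟯ (modularFunctionFieldFullC k M) := by
  have := S.deg.1
  exact finiteDimensional_left S.surj S.sq S.separated red1_j (red2_j S.al)
    (transcendental_jqModC k) (jqModC_mem_full k M) (fun u hu => exists_red1 S.surj hu)

theorem Setup.finiteDimensional_jRed_pow :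
    FiniteDimensional k⟮jRed k M ^ q⟯ (modularFunctionFieldFullC k M) := by
  have := S.deg.1
  exact finiteDimensional_left S.surj S.sq S.separated.symm (red2_j S.al) red1_j
    (transcendental_jpow k q) (jpow_mem k M q) (fun u hu => exists_red2 S.surj S.al hu)

/-- The two degrees in characteristic `q` bound the degree in characteristic zero. -/
theorem Setup.finrank_le :
    Module.finrank L⟮Fermat.Agent.JRED.jL L (M * q)⟯
      (laurentBaseChange L (modularFunctionFieldFull (M * q))) ≤
    Module.finrank k⟮jRed k M⟯ (modularFunctionFieldFullC k M) +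
      Module.finrank k⟮jRed k M ^ q⟯ (modularFunctionFieldFullC k M) := by
  have := S.finiteDimensional_jRed
  have := S.finiteDimensional_jRed_pow
  have h1 := mul_finrank_le (jRed_transcendental k M) q
  have h2 := S.deg.2
  calc _ ≤ _ := h2
    _ = Module.finrank k⟮jRed k M⟯ (modularFunctionFieldFullC k M) +
      q * Module.finrank k⟮jRed k M⟯ (modularFunctionFieldFullC k M) := by ring
    _ ≤ _ := Nat.add_le_add_left h1 _

theorem Setup.mem_full_of_red1
    {f : laurentBaseChange L (modularFunctionFieldFull (M * q))} {u : LaurentSeries k}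
    (h : (R1L π M q).Red f u) : u ∈ modularFunctionFieldFullC k M := by
  have := S.deg.1
  exact mem_of_red_left S.surj S.sq S.separated red1_j (red2_j S.al)
    (transcendental_jqModC k) (transcendental_jpow k q) (jqModC_mem_full k M) (jpow_mem k M q)
    (fun u hu => exists_red1 S.surj hu) (fun u hu => exists_red2 S.surj S.al hu)
    S.finrank_le h

theorem Setup.mem_full_of_red2
    {f : laurentBaseChange L (modularFunctionFieldFull (M * q))} {u : LaurentSeries k}
    (h : (R2L π w).Red f u) : u ∈ modularFunctionFieldFullC k M := by
  have := S.deg.1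
  exact mem_of_red_left S.surj S.sq S.separated.symm (red2_j S.al) red1_j
    (transcendental_jpow k q) (transcendental_jqModC k) (jpow_mem k M q) (jqModC_mem_full k M)
    (fun u hu => exists_red2 S.surj S.al hu) (fun u hu => exists_red1 S.surj hu)
    ((S.finrank_le).trans (Nat.add_comm _ _).le) h

end

section

variable {L : Type*} [Field L] [Algebra ℚ L] {k : Type*} [Field k] {A : ValuationSubring L}
  {π : A →+* k} {M q : ℕ} [NeZero M] [NeZero q] [ExpChar k q]
  {w : laurentBaseChange L (modularFunctionFieldFull (M * q)) ≃ₐ[L]
      laurentBaseChange L (modularFunctionFieldFull (M * q))}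

/-- The reduction at the component of `∞`. -/
def redOne (S : Setup π w) : RedDatum L (laurentBaseChange L (modularFunctionFieldFull (M * q))) k
    (modularFunctionFieldFullC k M) A π :=
  restrictRed (R1L π M q) (modularFunctionFieldFullC k M) (fun h => S.mem_full_of_red1 h)

/-- The reduction at the component of `0`. -/
def redTwo (S : Setup π w) : RedDatum L (laurentBaseChange L (modularFunctionFieldFull (M * q))) k
    (modularFunctionFieldFullC k M) A π :=
  restrictRed (R2L π w) (modularFunctionFieldFullC k M) (fun h => S.mem_full_of_red2 h)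

variable (S : Setup π w)

theorem redOne_red {f : laurentBaseChange L (modularFunctionFieldFull (M * q))}
    {u : modularFunctionFieldFullC k M} :
    (redOne S).Red f u ↔ GRed π (f : LaurentSeries L) (u : LaurentSeries k) := Iff.rfl

theorem redTwo_red {f : laurentBaseChange L (modularFunctionFieldFull (M * q))}
    {u : modularFunctionFieldFullC k M} :
    (redTwo S).Red f u ↔ GRed π (w f : LaurentSeries L) (u : LaurentSeries k) := Iff.rfl

theorem redTwo_iff_redOne {f : laurentBaseChange L (modularFunctionFieldFull (M * q))}
    {u : modularFunctionFieldFullC k M} :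
    (redTwo S).Red f u ↔ (redOne S).Red (w f) u := Iff.rfl

theorem redOne_surjective (u : modularFunctionFieldFullC k M) : ∃ f, (redOne S).Red f u :=
  exists_red1 S.surj u.2

theorem redTwo_surjective (u : modularFunctionFieldFullC k M) : ∃ f, (redTwo S).Red f u :=
  exists_red2 S.surj S.al u.2

theorem red_separated : Separated (redOne S) (redTwo S) := by
  obtain ⟨e, h1, h2⟩ := S.separated
  exact ⟨e, h1, h2⟩

theorem redOne_j : (redOne S).Red (Fermat.Agent.JRED.jL L (M * q)) (jRed k M) := red1_j

theorem redTwo_j : (redTwo S).Red (Fermat.Agent.JRED.jL L (M * q)) (jRed k M ^ q) :=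
  red2_j S.al

include S in
/-- **Degree equality** for `x = j`. -/
theorem finrank_eq :
    Module.finrank L⟮Fermat.Agent.JRED.jL L (M * q)⟯
      (laurentBaseChange L (modularFunctionFieldFull (M * q))) =
    Module.finrank k⟮jRed k M⟯ (modularFunctionFieldFullC k M) +
      Module.finrank k⟮jRed k M ^ q⟯ (modularFunctionFieldFullC k M) := by
  have := S.deg.1
  apply le_antisymm S.finrank_le
  exact finrank_add_finrank_le S.surj S.sq (red_separated S) (redOne_surjective S)
    (redTwo_surjective S) (redOne_j S) (redTwo_j S) (jRed_transcendental k M)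
    ((jRed_transcendental k M).pow (Nat.pos_of_ne_zero (NeZero.ne q)))

theorem hasOrthoPair_red (W : Submodule L (laurentBaseChange L (modularFunctionFieldFull (M * q))))
    (hW : Module.Finite L W) : HasOrthoPair (redOne S) (redTwo S) W := by
  have := S.deg.1
  exact hasOrthoPair_of_finrank S.surj S.sq (red_separated S) (redOne_surjective S)
    (redTwo_surjective S) (redOne_j S) (redTwo_j S) (jRed_transcendental k M)
    ((jRed_transcendental k M).pow (Nat.pos_of_ne_zero (NeZero.ne q))) S.finrank_le W hW

theorem approx_red (u : modularFunctionFieldFullC k M × modularFunctionFieldFullC k M) :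
    ∃ f, Red₂ (redOne S) (redTwo S) f u :=
  exists_red₂ S.surj S.sq (red_separated S) (redOne_surjective S) (redTwo_surjective S) u

theorem shift_red (hr : RankOne A) (d : L) (hd : d ≠ 0) :
    ∃ f, (redOne S).Red f 1 ∧ (redTwo S).Red (algebraMap L _ d * f) 1 :=
  exists_shift S.surj S.sq hr (red_separated S) (redOne_surjective S) (redTwo_surjective S) d hd

end

end Fermat.Agent.DR.Mod
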