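import Mathlib
import Fermat.Agent.DR.Mod.Residue
import Fermat.Agent.JRED.ESSemi
import Fermat.Agent.DR.Nodes.RegAlg

set_option autoImplicit false

/-!
# Frobenius-fixed functions generate

`k` an algebraic closure of `F_q`.  The functions in `regAlg k x` (`x` with coefficients in `F_q`)
which are fixed by the coefficientwise Frobenius span `regAlg k x` over `k`.
-/

noncomputable section

open AlgebraicCurve ModularCurve Polynomial
open Fermat.Agent.JRED Fermat.Agent.DR.Nodes

namespace Fermat.Agent.DR.Mod

section Abstract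

variable {k V : Type*} [Field k] [AddCommGroup V] [Module k V] (q : ℕ)

/-- Roots of `X^{q^n} - X` in an algebraically closed field of characteristic `q`. -/
theorem exists_finset_roots [IsAlgClosed k] [hq : Fact q.Prime] [CharP k q] {n : ℕ} (hn : n ≠ 0) :
    ∃ s : Finset k, s.card = q ^ n ∧ ∀ c ∈ s, c ^ q ^ n = c := by
  classical
  have h1 : 1 < q ^ n := Nat.one_lt_pow hn hq.out.one_lt
  have hdeg : (X ^ q ^ n - X : k[X]).natDegree = q ^ n :=
    FiniteField.X_pow_card_sub_X_natDegree_eq k h1
  have hsep : (X ^ q ^ n - X : k[X]).Separable :=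
    galois_poly_separable q (q ^ n) (dvd_pow_self q hn)
  have hne : (X ^ q ^ n - X : k[X]) ≠ 0 := FiniteField.X_pow_card_sub_X_ne_zero k h1
  refine ⟨(X ^ q ^ n - X : k[X]).roots.toFinset, ?_, fun c hc => ?_⟩
  · rw [Multiset.toFinset_card_of_nodup (nodup_roots hsep),
      ← (IsAlgClosed.splits (X ^ q ^ n - X : k[X])).natDegree_eq_card_roots, hdeg]
  · rw [Multiset.mem_toFinset, mem_roots hne] at hc
    have h2 := hc
    rw [IsRoot.def, eval_sub, eval_pow, eval_X] at h2
    exact sub_eq_zero.mp h2

variable {q} (σ : V →+ V) (hσ : ∀ (c : k) (v : V), σ (c • v) = c ^ q • σ v)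

include hσ in
theorem iterate_smul (n : ℕ) (c : k) (v : V) : σ^[n] (c • v) = c ^ q ^ n • σ^[n] v := by
  induction n with
  | zero => simp
  | succ n ih =>
    rw [Function.iterate_succ_apply', ih, hσ, Function.iterate_succ_apply', ← pow_mul, ← pow_succ]

include hσ in
/-- Descent: elements fixed by a power of a Frobenius-semilinear map are combinations of fixed
elements. -/
theorem mem_span_fixed [IsAlgClosed k] [hq : Fact q.Prime] [CharP k q] (B : Submodule k V)
    (hB : ∀ v ∈ B, σ v ∈ B) {u : V} (hu : u ∈ B) {n : ℕ} (hn : n ≠ 0) (hun : σ^[n] u = u) :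
    u ∈ Submodule.span k {t | t ∈ B ∧ σ t = t} := by
  classical
  by_contra hcon
  obtain ⟨f, hf, hW⟩ := Submodule.exists_le_ker_of_notMem hcon
  obtain ⟨s, hs, hroot⟩ := exists_finset_roots (k := k) q hn
  -- the trace of `λ u`
  have htr : ∀ c ∈ s, ∑ i ∈ Finset.range n, c ^ q ^ i * f (σ^[i] u) = 0 := by
    intro c hc
    set t : V := ∑ i ∈ Finset.range n, σ^[i] (c • u) with ht
    have hBi : ∀ i, ∀ v ∈ B, σ^[i] v ∈ B := by
      intro i v hv
      induction i with
      | zero => exact hv
      | succ i ih => rw [Function.iterate_succ_apply']; exact hB _ ih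
    have htB : t ∈ B := B.sum_mem fun i _ => hBi i _ (B.smul_mem c hu)
    have hfix : σ t = t := by
      have h1 : σ t = ∑ i ∈ Finset.range n, σ^[i + 1] (c • u) := by
        rw [ht, map_sum]
        exact Finset.sum_congr rfl fun i _ => (Function.iterate_succ_apply' σ i _).symm
      have h2 := Finset.sum_range_succ' (fun i => σ^[i] (c • u)) n
      have h3 := Finset.sum_range_succ (fun i => σ^[i] (c • u)) n
      rw [h3] at h2
      have h4 : σ^[n] (c • u) = c • u := by
        rw [iterate_smul σ hσ, hroot c hc, hun]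
      rw [h4] at h2
      simp only [Function.iterate_zero, id_eq] at h2
      rw [h1, ht]
      exact (add_right_cancel h2).symm
    have h5 : f t = 0 := hW (Submodule.subset_span ⟨htB, hfix⟩)
    rw [ht, map_sum] at h5
    rw [← h5]
    refine Finset.sum_congr rfl fun i _ => ?_
    rw [iterate_smul σ hσ, map_smul, smul_eq_mul]
  -- the polynomial
  set P : k[X] := ∑ i ∈ Finset.range n, C (f (σ^[i] u)) * X ^ q ^ i with hP
  have hdeg : P.natDegree < s.card := by
    rw [hs]
    have h1 : P.natDegree ≤ q ^ (n - 1) := by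
      refine natDegree_sum_le_of_forall_le _ _ fun i hi => ?_
      refine (natDegree_C_mul_X_pow_le _ _).trans ?_
      have := Finset.mem_range.mp hi
      exact Nat.pow_le_pow_right hq.out.pos (by omega)
    exact h1.trans_lt (Nat.pow_lt_pow_right hq.out.one_lt (by omega))
  have h0 : P = 0 := by
    refine eq_zero_of_natDegree_lt_card_of_eval_eq_zero' P s (fun c hc => ?_) hdeg
    rw [hP, eval_finsetSum, ← htr c hc]
    refine Finset.sum_congr rfl fun i _ => ?_
    rw [eval_mul, eval_C, eval_pow, eval_X, mul_comm]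
  have h1 := congrArg (fun p => Polynomial.coeff p 1) h0
  simp only [hP, finsetSum_coeff, coeff_C_mul, coeff_X_pow, coeff_zero] at h1
  rw [Finset.sum_eq_single_of_mem 0 (Finset.mem_range.mpr (Nat.pos_of_ne_zero hn))] at h1
  · simp only [pow_zero, if_true, mul_one, Function.iterate_zero, id_eq] at h1
    exact hf h1
  · intro i hi hi0
    have h2 : (1 : ℕ) < q ^ i := Nat.one_lt_pow hi0 hq.out.one_lt
    rw [if_neg (by omega), mul_zero]

end Abstract

section RegAlg

variable {k F : Type*} [Field k] [Field F] [Algebra k F]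

theorem smul_mem_regAlg (g : SemilinearAut k F) {x f : F} (hx : g • x = x)
    (hf : f ∈ regAlg k x) : g • f ∈ regAlg k x := by
  intro P hP
  have h1 : x ∈ (g⁻¹ • P).toValuationSubring := by
    rw [SemilinearAut.smul_toValuationSubring, ValuationSubring.mem_pointwise_smul_iff_inv_smul_mem,
      inv_inv, hx]
    exact hP
  have h2 := hf _ h1
  rw [SemilinearAut.smul_toValuationSubring, ValuationSubring.mem_pointwise_smul_iff_inv_smul_mem,
    inv_inv] at h2
  exact h2

/-- Abstract form: `g` a Frobenius-semilinear automorphism all of whose orbits are finite. -/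
theorem adjoin_fixed_eq_of_semilinear {q : ℕ} [IsAlgClosed k] [hq : Fact q.Prime] [CharP k q]
    (g : SemilinearAut k F) (hg : ∀ c, SemilinearAut.baseAut g c = c ^ q)
    {x : F} (hx : g • x = x)
    (hper : ∀ u ∈ regAlg k x, ∃ n : ℕ, n ≠ 0 ∧ (fun v : F => g • v)^[n] u = u) :
    Algebra.adjoin k {t | t ∈ regAlg k x ∧ g • t = t} = regAlg k x := by
  apply le_antisymm
  · rw [Algebra.adjoin_le_iff]
    rintro t ⟨ht, -⟩
    exact ht
  · intro u hu
    obtain ⟨n, hn, hnu⟩ := hper u hu
    have h1 := mem_span_fixed (k := k) (q := q) (DistribSMul.toAddMonoidHom F g)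
      (fun c v => by
        show g • (c • v) = c ^ q • (g • v)
        rw [Algebra.smul_def, Algebra.smul_def, smul_mul', SemilinearAut.smul_algebraMap, ← hg])
      (Subalgebra.toSubmodule (regAlg k x)) (fun v hv => smul_mem_regAlg g hx hv) hu hn hnu
    have h2 : Submodule.span k {t : F |
        t ∈ Subalgebra.toSubmodule (regAlg k x) ∧ (DistribSMul.toAddMonoidHom F g) t = t} ≤
        Subalgebra.toSubmodule (Algebra.adjoin k {t | t ∈ regAlg k x ∧ g • t = t}) := by
      rw [Submodule.span_le]
      intro t ht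
      exact Algebra.subset_adjoin ht
    exact h2 h1

end RegAlg

section Modular

variable {k : Type*} [Field k] {q : ℕ} (M : ℕ)

/-- Every element of `F̄_M` is fixed by a power of Frobenius if `k` is algebraic over `F_q`. -/
theorem exists_iterate_eq (τ : k ≃+* k) (halg : ∀ c : k, ∃ n : ℕ, n ≠ 0 ∧ (τ : k → k)^[n] c = c)
    (u : modularFunctionFieldFullC k M) :
    ∃ n : ℕ, n ≠ 0 ∧ (fun v : modularFunctionFieldFullC k M => ESSemi.coeffSemi M τ • v)^[n] u = u := by
  set σ : LaurentSeries k →+* LaurentSeries k := coeffMap (τ : k →+* k) with hσ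
  suffices h : ∀ x ∈ modularFunctionFieldFullC k M, ∃ n : ℕ, n ≠ 0 ∧ σ^[n] x = x by
    obtain ⟨n, hn, h1⟩ := h u u.2
    refine ⟨n, hn, Subtype.ext ?_⟩
    rw [← h1]
    clear h1
    induction n with
    | zero => exact absurd rfl hn
    | succ n ih =>
      rcases eq_or_ne n 0 with rfl | hn0
      · simp [hσ]
      · rw [Function.iterate_succ_apply', Function.iterate_succ_apply', ESSemi.coe_coeffSemi_smul,
          ih hn0]
  intro x hx
  have hx' : x ∈ Subfield.closure
      (Set.range (algebraMap k (LaurentSeries k)) ∪ divisorExpansionsC k M) := hx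
  clear hx
  have hper : ∀ {y : LaurentSeries k} {n : ℕ} (m : ℕ), σ^[n] y = y → σ^[n * m] y = y := by
    intro y n m h
    exact Function.IsPeriodicPt.mul_const (f := σ) (x := y) h m
  have hper' : ∀ {y : LaurentSeries k} {n : ℕ} (m : ℕ), σ^[n] y = y → σ^[m * n] y = y := by
    intro y n m h
    rw [mul_comm]
    exact hper m h
  induction hx' using Subfield.closure_induction with
  | mem y hy =>
      rcases hy with ⟨a, rfl⟩ | ⟨d, hd, hdN, rfl⟩
      · obtain ⟨n, hn, hna⟩ := halg a
        refine ⟨n, hn, ?_⟩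
        have h1 : ∀ n : ℕ, σ^[n] (algebraMap k (LaurentSeries k) a) =
            algebraMap k (LaurentSeries k) ((τ : k → k)^[n] a) := by
          intro n
          induction n with
          | zero => rfl
          | succ n ih =>
            rw [Function.iterate_succ_apply', ih, Function.iterate_succ_apply', hσ,
              algebraMap_laurentSeries_eq_single, coeffMap_single,
              ← algebraMap_laurentSeries_eq_single]
            rfl
        rw [h1, hna]
      · refine ⟨1, one_ne_zero, ?_⟩
        rw [Function.iterate_one, hσ, coeffMap_qExpand, coeffMap_jqModC]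
  | one => exact ⟨1, one_ne_zero, by rw [Function.iterate_one, map_one]⟩
  | add x y _ _ hx hy =>
      obtain ⟨n, hn, h1⟩ := hx
      obtain ⟨m, hm, h2⟩ := hy
      exact ⟨n * m, mul_ne_zero hn hm, by rw [iterate_map_add, hper m h1, hper' n h2]⟩
  | neg x _ hx =>
      obtain ⟨n, hn, h1⟩ := hx
      exact ⟨n, hn, by rw [iterate_map_neg, h1]⟩
  | inv x _ hx =>
      obtain ⟨n, hn, h1⟩ := hx
      refine ⟨n, hn, ?_⟩
      have h2 : ∀ n : ℕ, σ^[n] x⁻¹ = (σ^[n] x)⁻¹ := by
        intro n
        induction n with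
        | zero => rfl
        | succ n ih => rw [Function.iterate_succ_apply', ih, map_inv₀, Function.iterate_succ_apply']
      rw [h2, h1]
  | mul x y _ _ hx hy =>
      obtain ⟨n, hn, h1⟩ := hx
      obtain ⟨m, hm, h2⟩ := hy
      exact ⟨n * m, mul_ne_zero hn hm, by rw [iterate_map_mul, hper m h1, hper' n h2]⟩

variable {M}

/-- The Frobenius-fixed elements of `regAlg k x` generate it, `x` Frobenius-fixed. -/
theorem adjoin_fixed_eq [IsAlgClosed k] [hq : Fact q.Prime] [CharP k q] (τ : k ≃+* k)
    (hτ : ∀ c, τ c = c ^ q)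
    (halg : ∀ c : k, ∃ n : ℕ, n ≠ 0 ∧ (τ : k → k)^[n] c = c)
    {x : modularFunctionFieldFullC k M} (hx : ESSemi.coeffSemi M τ • x = x) :
    Algebra.adjoin k {t | t ∈ regAlg k x ∧ ESSemi.coeffSemi M τ • t = t} = regAlg k x :=
  adjoin_fixed_eq_of_semilinear (ESSemi.coeffSemi M τ) hτ hx
    (fun u _ => exists_iterate_eq M τ halg u)

end Modular

end Fermat.Agent.DR.Mod
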