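import Fermat.Agent.DR.Mod.Residue
import Fermat.Agent.JRED.AtkinLehnerMain
import Fermat.Agent.JRED.Degree
import Fermat.Agent.Jan.DegreeWiring

set_option autoImplicit false

/-!
# Existence of the modular `Setup`, degrees along the degeneracy maps

* `degInput`: `[F_{Mq} : L(j)] = (q+1) [F̄_M : k(j)]`;
* `exists_setup`;
* `finrankAlong_alphaC`, `finrankAlong_heckeAlphaBar`: degrees along `α` in all characteristics.
-/

noncomputable section

open AlgebraicCurve ModularCurve IntermediateField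
open Fermat.Agent.JRED Fermat.Agent.JRED.AL

namespace Fermat.Agent.DR.Mod

section Degree

/-- `[F' : K(φ x)] = [F : K(x)] [F' : φ F]`. -/
theorem finrank_adjoin_map {K F F' : Type*} [Field K] [Field F] [Field F'] [Algebra K F]
    [Algebra K F'] (φ : F →ₐ[K] F') (x : F) :
    Module.finrank K⟮φ x⟯ F' = Module.finrank K⟮x⟯ F * finrankAlong K φ := by
  have h1 : finrankAlong K (φ.comp K⟮x⟯.val) = Module.finrank K⟮φ x⟯ F' := by
    rw [Fermat.Agent.Jan.DegreeWiring.finrankAlong_eq_finrank_fieldRange]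
    have h2 : (φ.comp K⟮x⟯.val).fieldRange = K⟮φ x⟯ := by
      rw [← Set.image_singleton, ← IntermediateField.adjoin_map]
      ext y
      simp only [AlgHom.mem_fieldRange, IntermediateField.mem_map, AlgHom.comp_apply]
      constructor
      · rintro ⟨z, rfl⟩
        exact ⟨z, z.2, rfl⟩
      · rintro ⟨z, hz, rfl⟩
        exact ⟨⟨z, hz⟩, rfl⟩
    rw [h2]
  have h3 : finrankAlong K K⟮x⟯.val = Module.finrank K⟮x⟯ F := by
    rw [Fermat.Agent.Jan.DegreeWiring.finrankAlong_eq_finrank_fieldRange,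
      IntermediateField.fieldRange_val]
  rw [← h1, Fermat.Agent.Jan.HeckeCommute.finrankAlong_comp, h3]

theorem finrankAlong_alphaC_mul {k : Type} [Field k] (M ℓ : ℕ) [NeZero M] [NeZero ℓ]
    (h : ((M * ℓ : ℕ) : k) ≠ 0) :
    dedekindPsi M * finrankAlong k (alphaC k M ℓ) = dedekindPsi (M * ℓ) := by
  have hM : (M : k) ≠ 0 := fun h0 => h (by rw [Nat.cast_mul, h0, zero_mul])
  have h1 := finrank_adjoin_map (alphaC k M ℓ) (jRed k M)
  have h2 : alphaC k M ℓ (jRed k M) = jRed k (M * ℓ) := Subtype.ext (coe_alphaC _ _ _ _)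
  rw [h2, finrank_full_jRed h, finrank_full_jRed hM] at h1
  exact h1.symm

variable (L : Type) [Field L] [Algebra ℚ L]

theorem finrank_jL (N : ℕ) [NeZero N] :
    FiniteDimensional L⟮Fermat.Agent.JRED.jL L N⟯ (laurentBaseChange L (modularFunctionFieldFull N)) ∧
    Module.finrank L⟮Fermat.Agent.JRED.jL L N⟯
      (laurentBaseChange L (modularFunctionFieldFull N)) = dedekindPsi N := by
  have : CharZero L := algebraRat.charZero L
  refine finrank_of_eq (Fermat.Agent.MFF.laurentBaseChange_full L N)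
    (Nat.cast_ne_zero.mpr (NeZero.ne N)) (Fermat.Agent.JRED.jL L N) ?_
  change coeffMap _ (jqModC ℚ) = _
  rw [coeffMap_jqModC]

theorem finrankAlong_heckeAlphaBar_mul (N ℓ : ℕ) [NeZero N] [NeZero ℓ] :
    dedekindPsi N * finrankAlong L (heckeAlphaBar L N ℓ) = dedekindPsi (N * ℓ) := by
  have h1 := finrank_adjoin_map (heckeAlphaBar L N ℓ) (Fermat.Agent.JRED.jL L N)
  rw [alpha_jL, (finrank_jL L (N * ℓ)).2, (finrank_jL L N).2] at h1
  exact h1.symm

end Degree

section Setup

variable {L : Type} [Field L] [Algebra ℚ L] {k : Type} [Field k] {A : ValuationSubring L}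
  {π : A →+* k}

theorem degInput (L k : Type) [Field L] [Algebra ℚ L] [Field k] (M q : ℕ) [NeZero M] [NeZero q]
    (hq : q.Prime) (hqM : ¬ q ∣ M) (hk : (M : k) ≠ 0) : DegInput L k M q := by
  refine ⟨(finrank_jL L (M * q)).1, ?_⟩
  rw [(finrank_jL L (M * q)).2, finrank_full_jRed hk,
    Fermat.Agent.Jan.HeckeCommute.dedekindPsi_mul_prime M q (NeZero.ne M) hq, if_neg hqM, mul_comm]

theorem natCast_ne_zero_of_not_dvd (k : Type) [Field k] (q M : ℕ) [CharP k q] (h : ¬ q ∣ M) :
    (M : k) ≠ 0 := fun h0 => h ((CharP.cast_eq_zero_iff k q M).mp h0)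

/-- **The modular setup exists** for `q ∤ M`. -/
theorem exists_setup [IsAlgClosed L] (hπ : Function.Surjective π) (M q : ℕ) [NeZero M] [NeZero q]
    [CharP k q] [ExpChar k q] (hq : q.Prime) (hqM : ¬ q ∣ M) :
    ∃ w : laurentBaseChange L (modularFunctionFieldFull (M * q)) ≃ₐ[L]
      laurentBaseChange L (modularFunctionFieldFull (M * q)),
      (∀ x, w (w x) = x) ∧ Setup π w := by
  have : Fact q.Prime := ⟨hq⟩
  obtain ⟨w, hww, h1, h2⟩ := exists_wBar L M q hqM
  refine ⟨w, hww, hπ, fun c => ?_, hq.two_le, ⟨h1, h2⟩,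
    degInput L k M q hq hqM (natCast_ne_zero_of_not_dvd k q M hqM)⟩
  obtain ⟨s, hs⟩ := IsAlgClosed.exists_pow_nat_eq c two_pos
  exact ⟨s, by rw [← hs, sq]⟩

end Setup

end Fermat.Agent.DR.Mod
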