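import Fermat.Agent.DR.Mod.HeckeSpec
import Fermat.Agent.JAN.PsiDegree

set_option autoImplicit false

/-!
# `T_ℓ` (`ℓ ≠ q`) and the good reduction of `X₀(M)`; polynomials in Hecke operators

* `redPic_hecke`: `red (T_ℓ x) = T̄_ℓ (red x)` at level `M`;
* `redPic_surjective`;
* `exists_hecke_poly`: for `t` a polynomial in the `T_ℓ`, `ℓ ≠ q`, there is an endomorphism `t̄` of
  `Pic⁰ F̄_M` with `red (t x) = t̄ (red x)` and `Spec x y₁ y₂ → Spec (t x) (t̄ y₁) (t̄ y₂)`;
* `spec_of_kills`: if `t` kills `J₀(M)` then `Spec x y₁ y₂ → Spec (t x) 0 0`.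
-/

noncomputable section

open AlgebraicCurve ModularCurve IntermediateField
open Fermat.Agent.RR Fermat.Agent.JRED Fermat.Agent.JRED.AL
open Fermat.Agent.Jan.HeckeNorm (normAlong normAlong_ne_zero nsmul_correspondence_eq_ord
  correspondence_eq_ord)

namespace Fermat.Agent.DR.Mod

section LevelM

variable {A : ValuationSubring (AlgebraicClosure ℚ)} {k : Type} [Field k] {π : A →+* k}
  {M ℓ : ℕ} [NeZero M] [NeZero ℓ]

theorem finrankAlong_alpha_eq' (h : ((M * ℓ : ℕ) : k) ≠ 0) :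
    finrankAlong (AlgebraicClosure ℚ) (heckeAlphaBar (AlgebraicClosure ℚ) M ℓ) =
      finrankAlong k (alphaC k M ℓ) := by
  have h1 := finrankAlong_heckeAlphaBar_mul (AlgebraicClosure ℚ) M ℓ
  have h2 := finrankAlong_alphaC_mul M ℓ h
  rw [← h2] at h1
  exact Nat.eq_of_mul_eq_mul_left (Fermat.Agent.Jan.HeckeCommute.dedekindPsi_pos M) h1

/-- `T_ℓ` on the good reduction of `X₀(M)`. -/
theorem corrRed_level (hπ : Function.Surjective π) (h : ((M * ℓ : ℕ) : k) ≠ 0)
    (hD : DegreeInput M k) :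
    CorrRed (hD.redDatum hπ) (hD.redDatum hπ) ((degreeInput (M * ℓ) k h).redDatum hπ)
      (heckeBetaBar (AlgebraicClosure ℚ) M ℓ) (heckeAlphaBar (AlgebraicClosure ℚ) M ℓ)
      (betaC k M ℓ) (alphaC k M ℓ) where
  surj := (degreeInput (M * ℓ) k h).redDatum_surjective hπ
  along_fst := by
    intro f u hf
    rw [DegreeInput.redDatum_iff, coe_heckeBetaBar, coe_betaC]
    exact GRed.qExpand hf ℓ
  along_snd := by
    intro f u hf
    rw [DegreeInput.redDatum_iff, coe_heckeAlphaBar, coe_alphaC]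
    exact hf
  fin := Fermat.Agent.Jan.DegreeWiring.finiteAlong_heckeAlphaBar' (AlgebraicClosure ℚ) M ℓ
  fin₁ := finiteAlong_alphaC h
  finrank := finrankAlong_alpha_eq' h

variable [IsAlgClosed k] [FunctionField (AlgebraicClosure ℚ) (modularFunctionFieldBar M)]
  [FunctionField k (modularFunctionFieldFullC k M)]

/-- `red (T_ℓ x) = T̄_ℓ (red x)`. -/
theorem redPic_hecke (hπ : Function.Surjective π) (h : ((M * ℓ : ℕ) : k) ≠ 0)
    (hD : DegreeInput M k)
    {r : Place (AlgebraicClosure ℚ) (modularFunctionFieldBar M) →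
      Place k (modularFunctionFieldFullC k M)}
    (hr : PlaceRed (hD.redDatum hπ) r) (hdeg : ∀ P, (r P).deg = P.deg) (x : JZero M) :
    redPic hr hdeg (heckeOperatorAlong (AlgebraicClosure ℚ) M ℓ x) =
      heckeC k M ℓ h (redPic hr hdeg x) := by
  have i1 := hasPrincipalDivisors_fullC h
  have H := corrRed_level hπ h hD
  obtain ⟨hα, hβ, hP, hfin, hFI, hN⟩ :=
    Fermat.Agent.Jan.DegreeWiring.heckeInputsAlong' (AlgebraicClosure ℚ) M ℓ
  rw [heckeOperatorAlong_eq hα hβ hFI hfin hN]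
  obtain ⟨D, rfl⟩ := Pic0.mk_surjective x
  rw [heckePic0Bar, Pic0.correspondence_mk, redPic_mk, redPic_mk, heckeC_mk]
  congr 1
  apply Subtype.ext
  exact H.mapDomain_correspondence hπ hr hβ hα hN (isIntegral_betaC h) (isIntegral_alphaC h)
    (fundamentalIdentity_betaC h) (normFormula_alphaC h) (Divisor.mem_degZero.mp D.2)

end LevelM

section Surj

variable {K G k Gb : Type*} [Field K] [Field G] [Algebra K G] [Field k] [Field Gb] [Algebra k Gb]
  {A : ValuationSubring K} {π : A →+* k} {R : RedDatum K G k Gb A π}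
  {r : Place K G → Place k Gb}

theorem redPic_surjective (hr : PlaceRed R r) (hdeg : ∀ P, (r P).deg = P.deg)
    (hs : Function.Surjective r) : Function.Surjective (redPic hr hdeg) := by
  intro y
  obtain ⟨⟨D, hD⟩, rfl⟩ := Pic0.mk_surjective y
  obtain ⟨E, hE⟩ := Finsupp.mapDomain_surjective hs D
  have hdE : E ∈ Divisor.degZero (K := K) (F := G) := by
    rw [Divisor.mem_degZero, ← degree_mapDomain hdeg, hE]
    exact Divisor.mem_degZero.mp hD
  refine ⟨Pic0.mk ⟨E, hdE⟩, ?_⟩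
  rw [redPic_mk]
  congr 1
  exact Subtype.ext hE

end Surj

section Poly

variable {A : ValuationSubring (AlgebraicClosure ℚ)} {k : Type} [Field k] {π : A →+* k}
  {M q : ℕ} [NeZero M] [NeZero q] [CharP k q] [ExpChar k q]
  {w : laurentBaseChange (AlgebraicClosure ℚ) (modularFunctionFieldFull (M * q)) ≃ₐ[AlgebraicClosure ℚ]
      laurentBaseChange (AlgebraicClosure ℚ) (modularFunctionFieldFull (M * q))}
  [IsAlgClosed k]
  [FunctionField (AlgebraicClosure ℚ) (modularFunctionFieldBar (M * q))]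
  [FunctionField (AlgebraicClosure ℚ) (modularFunctionFieldBar M)]
  [FunctionField k (modularFunctionFieldFullC k M)]
  {X : NodalDatum (AlgebraicClosure ℚ) (modularFunctionFieldBar (M * q)) k
    (modularFunctionFieldFullC k M) (modularFunctionFieldFullC k M) A π}

/-- The subring of the abstract Hecke algebra generated by the `T_ℓ`, `ℓ ≠ q`. -/
def heckeAway (q : ℕ) : Subalgebra ℤ HeckeAlg :=
  Algebra.adjoin ℤ {t | ∃ ℓ : Nat.Primes, (ℓ : ℕ) ≠ q ∧ t = heckeGen ℓ}

theorem heckeGen_mem_heckeAway {q : ℕ} {ℓ : Nat.Primes} (h : (ℓ : ℕ) ≠ q) :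
    heckeGen ℓ ∈ heckeAway q := Algebra.subset_adjoin ⟨ℓ, h, rfl⟩

/-- **Hecke polynomials away from `q` act on specialisations.** -/
theorem exists_hecke_poly (hq : q.Prime) (hqM : ¬ q ∣ M) (S : Setup π w)
    (h₁ : X.R₁ = redOne S) (h₂ : X.R₂ = redTwo S) (hD : DegreeInput M k)
    {r : Place (AlgebraicClosure ℚ) (modularFunctionFieldBar M) →
      Place k (modularFunctionFieldFullC k M)}
    (hr : PlaceRed (hD.redDatum S.surj) r) (hdeg : ∀ P, (r P).deg = P.deg)
    {t : HeckeAlg} (ht : t ∈ heckeAway q) :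
    letI := heckeModuleBar M
    letI := heckeModuleBar (M * q)
    ∃ tb : Pic0 k (modularFunctionFieldFullC k M) →+ Pic0 k (modularFunctionFieldFullC k M),
      (∀ x : JZero M, redPic hr hdeg (t • x) = tb (redPic hr hdeg x)) ∧
      ∀ (m : ℕ) (x : JZero (M * q)) (y₁ y₂ : Pic0 k (modularFunctionFieldFullC k M)), 0 < m →
        Spec X m x y₁ y₂ → Spec X m (t • x) (tb y₁) (tb y₂) := by
  letI := heckeModuleBar M
  letI := heckeModuleBar (M * q)
  induction ht using Algebra.adjoin_induction with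
  | mem t ht =>
    obtain ⟨ℓ, hℓ, rfl⟩ := ht
    haveI : NeZero (ℓ : ℕ) := ⟨ℓ.2.ne_zero⟩
    have hqMℓ : ¬ q ∣ M * ℓ := by
      rw [hq.dvd_mul]
      rintro (h | h)
      · exact hqM h
      · exact hℓ ((Nat.prime_dvd_prime_iff_eq hq ℓ.2).mp h).symm
    have h := natCast_ne_zero_of_not_dvd k q (M * ℓ) hqMℓ
    refine ⟨heckeC k M ℓ h, fun x => ?_, fun m x y₁ y₂ hm hs => ?_⟩
    · rw [heckeModuleBar_heckeGen_smul
        (Fermat.Agent.JAN.PsiDegree.heckeOperatorsCommuteBar M), heckeOperatorBar_apply]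
      exact redPic_hecke S.surj h hD hr hdeg x
    · rw [heckeModuleBar_heckeGen_smul
        (Fermat.Agent.JAN.PsiDegree.heckeOperatorsCommuteBar (M * q)), heckeOperatorBar_apply]
      exact spec_hecke hq hqMℓ h S h₁ h₂ hs
  | algebraMap n =>
    refine ⟨zsmulAddGroupHom n, fun x => ?_, fun m x y₁ y₂ hm hs => ?_⟩
    · rw [algebraMap_smul, map_zsmul]
      rfl
    · rw [algebraMap_smul]
      show Spec X m (n • x) (n • y₁) (n • y₂)
      obtain ⟨a, rfl | rfl⟩ := n.eq_nat_or_neg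
      · rw [natCast_zsmul, natCast_zsmul, natCast_zsmul]
        exact hs.nsmul hm a
      · rw [neg_zsmul, neg_zsmul, neg_zsmul, natCast_zsmul, natCast_zsmul, natCast_zsmul]
        exact (hs.nsmul hm a).neg S.surj
  | add t t' _ _ ih ih' =>
    obtain ⟨tb, h1, h2⟩ := ih
    obtain ⟨tb', h1', h2'⟩ := ih'
    refine ⟨tb + tb', fun x => ?_, fun m x y₁ y₂ hm hs => ?_⟩
    · rw [add_smul, map_add, h1, h1', AddMonoidHom.add_apply]
    · rw [add_smul, AddMonoidHom.add_apply, AddMonoidHom.add_apply]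
      exact (h2 m x y₁ y₂ hm hs).add (h2' m x y₁ y₂ hm hs)
  | mul t t' _ _ ih ih' =>
    obtain ⟨tb, h1, h2⟩ := ih
    obtain ⟨tb', h1', h2'⟩ := ih'
    refine ⟨tb.comp tb', fun x => ?_, fun m x y₁ y₂ hm hs => ?_⟩
    · rw [mul_smul, h1, h1', AddMonoidHom.comp_apply]
    · rw [mul_smul, AddMonoidHom.comp_apply, AddMonoidHom.comp_apply]
      exact h2 m _ _ _ hm (h2' m x y₁ y₂ hm hs)

/-- **If `t` kills `J₀(M)`, then `t x` specialises to `0`** as soon as `x` has a specialisation. -/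
theorem spec_of_kills (hq : q.Prime) (hqM : ¬ q ∣ M) (S : Setup π w)
    (h₁ : X.R₁ = redOne S) (h₂ : X.R₂ = redTwo S) (hD : DegreeInput M k)
    {r : Place (AlgebraicClosure ℚ) (modularFunctionFieldBar M) →
      Place k (modularFunctionFieldFullC k M)}
    (hr : PlaceRed (hD.redDatum S.surj) r) (hdeg : ∀ P, (r P).deg = P.deg)
    (hsurj : Function.Surjective r) {t : HeckeAlg} (ht : t ∈ heckeAway q)
    (hkill : letI := heckeModuleBar M; ∀ x : JZero M, t • x = 0) {m : ℕ} (hm : 0 < m)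
    {x : JZero (M * q)} {y₁ y₂ : Pic0 k (modularFunctionFieldFullC k M)}
    (hs : Spec X m x y₁ y₂) :
    letI := heckeModuleBar (M * q)
    Spec X m (t • x) 0 0 := by
  letI := heckeModuleBar M
  letI := heckeModuleBar (M * q)
  obtain ⟨tb, h1, h2⟩ := exists_hecke_poly hq hqM S h₁ h₂ hD hr hdeg ht
  have h3 : ∀ y, tb y = 0 := by
    intro y
    obtain ⟨x, rfl⟩ := redPic_surjective hr hdeg hsurj y
    rw [← h1, hkill, map_zero]
  have h4 := h2 m x y₁ y₂ hm hs
  rwa [h3, h3] at h4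

end Poly

end Fermat.Agent.DR.Mod
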