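import Mathlib
import Fermat.Prelude.Def_ModularCurve_GenusNumerics
import Fermat.Agent.Jan.HeckeCommute

set_option autoImplicit false

/-!
# `2 g(M) < g(Mq) + 1` from the genus formula (`q ∤ M`)
-/

noncomputable section

open ModularCurve

namespace Fermat.Agent.DR.Mod

theorem nuTwo_mul {m n : ℕ} (h : m.Coprime n) : nuTwo (m * n) = nuTwo m * nuTwo n := by
  rw [nuTwo, nuTwo, nuTwo, ← Nat.card_prod]
  refine Nat.card_congr ?_
  let e := ZMod.chineseRemainder h
  refine (Equiv.subtypeEquiv (q := fun y : ZMod m × ZMod n => y.1 ^ 2 + 1 = 0 ∧ y.2 ^ 2 + 1 = 0)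
    e.toEquiv fun x => ?_).trans (Equiv.subtypeProdEquivProd
      (p := fun a : ZMod m => a ^ 2 + 1 = 0) (q := fun b : ZMod n => b ^ 2 + 1 = 0))
  rw [← (map_eq_zero_iff e e.injective), map_add, map_pow, map_one, Prod.ext_iff]
  exact Iff.rfl

theorem nuThree_mul {m n : ℕ} (h : m.Coprime n) : nuThree (m * n) = nuThree m * nuThree n := by
  rw [nuThree, nuThree, nuThree, ← Nat.card_prod]
  refine Nat.card_congr ?_
  let e := ZMod.chineseRemainder h
  refine (Equiv.subtypeEquiv
    (q := fun y : ZMod m × ZMod n => y.1 ^ 2 + y.1 + 1 = 0 ∧ y.2 ^ 2 + y.2 + 1 = 0)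
    e.toEquiv fun x => ?_).trans (Equiv.subtypeProdEquivProd
      (p := fun a : ZMod m => a ^ 2 + a + 1 = 0) (q := fun b : ZMod n => b ^ 2 + b + 1 = 0))
  rw [← (map_eq_zero_iff e e.injective), map_add, map_add, map_pow, map_one, Prod.ext_iff]
  exact Iff.rfl

theorem nuTwo_prime_le {q : ℕ} (hq : q.Prime) : nuTwo q ≤ 2 := by
  have := Fact.mk hq
  classical
  have hp : (Polynomial.X ^ 2 + 1 : Polynomial (ZMod q)) ≠ 0 := by
    intro h
    have h1 := congrArg (fun p => Polynomial.coeff p 2) h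
    simp [Polynomial.coeff_one] at h1
  have hdeg : (Polynomial.X ^ 2 + 1 : Polynomial (ZMod q)).natDegree ≤ 2 := by
    compute_degree
  rw [nuTwo]
  have h1 : Nat.card {x : ZMod q // x ^ 2 + 1 = 0} =
      ((Polynomial.X ^ 2 + 1 : Polynomial (ZMod q)).roots.toFinset).card := by
    rw [← Nat.card_eq_finsetCard]
    refine Nat.card_congr (Equiv.subtypeEquivRight fun x => ?_)
    rw [Multiset.mem_toFinset, Polynomial.mem_roots hp]
    simp [Polynomial.IsRoot]
  rw [h1]
  exact (Multiset.toFinset_card_le _).trans ((Polynomial.card_roots' _).trans hdeg)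

theorem nuThree_prime_le {q : ℕ} (hq : q.Prime) : nuThree q ≤ 2 := by
  have := Fact.mk hq
  classical
  have hp : (Polynomial.X ^ 2 + Polynomial.X + 1 : Polynomial (ZMod q)) ≠ 0 := by
    intro h
    have h1 := congrArg (fun p => Polynomial.coeff p 2) h
    simp [Polynomial.coeff_one, Polynomial.coeff_X] at h1
  have hdeg : (Polynomial.X ^ 2 + Polynomial.X + 1 : Polynomial (ZMod q)).natDegree ≤ 2 := by
    compute_degree
  rw [nuThree]
  have h1 : Nat.card {x : ZMod q // x ^ 2 + x + 1 = 0} =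
      ((Polynomial.X ^ 2 + Polynomial.X + 1 : Polynomial (ZMod q)).roots.toFinset).card := by
    rw [← Nat.card_eq_finsetCard]
    refine Nat.card_congr (Equiv.subtypeEquivRight fun x => ?_)
    rw [Multiset.mem_toFinset, Polynomial.mem_roots hp]
    simp [Polynomial.IsRoot]
  rw [h1]
  exact (Multiset.toFinset_card_le _).trans ((Polynomial.card_roots' _).trans hdeg)

theorem cuspCount_mul_prime {M q : ℕ} (hM : M ≠ 0) (hq : q.Prime) (hqM : ¬ q ∣ M) :
    cuspCount (M * q) = 2 * cuspCount M := by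
  have hq0 : 0 < q := hq.pos
  have hdiv : (M * q).divisors = M.divisors ∪ M.divisors.image (· * q) := by
    ext d
    simp only [Finset.mem_union, Finset.mem_image, Nat.mem_divisors]
    constructor
    · rintro ⟨hd, -⟩
      by_cases hqd : q ∣ d
      · obtain ⟨e, rfl⟩ := hqd
        right
        refine ⟨e, ⟨?_, hM⟩, mul_comm _ _⟩
        rw [mul_comm M q] at hd
        exact (Nat.mul_dvd_mul_iff_left hq0).mp hd
      · left
        exact ⟨((Nat.Prime.coprime_iff_not_dvd hq).mpr hqd).symm.dvd_of_dvd_mul_right hd, hM⟩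
    · rintro (⟨hd, -⟩ | ⟨e, ⟨he, -⟩, rfl⟩)
      · exact ⟨hd.mul_right q, mul_ne_zero hM hq.ne_zero⟩
      · exact ⟨Nat.mul_dvd_mul_right he q, mul_ne_zero hM hq.ne_zero⟩
  have hdisj : Disjoint M.divisors (M.divisors.image (· * q)) := by
    rw [Finset.disjoint_left]
    intro d hd hd'
    obtain ⟨e, -, rfl⟩ := Finset.mem_image.mp hd'
    exact hqM ((Dvd.intro_left e rfl).trans (Nat.dvd_of_mem_divisors hd))
  rw [cuspCount, hdiv, Finset.sum_union hdisj, Finset.sum_image (fun a _ b _ h =>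
    Nat.eq_of_mul_eq_mul_right hq0 h), two_mul]
  congr 1
  · refine Finset.sum_congr rfl fun d hd => ?_
    have hdM := Nat.dvd_of_mem_divisors hd
    have hcop : d.Coprime q := (Nat.Coprime.symm ((Nat.Prime.coprime_iff_not_dvd hq).mpr
      fun h => hqM (h.trans hdM)))
    rw [Nat.mul_div_right_comm hdM, Nat.Coprime.gcd_mul_right_cancel_right _ hcop.symm]
  · refine Finset.sum_congr rfl fun d hd => ?_
    have hdM := Nat.dvd_of_mem_divisors hd
    have hcop : (M / d).Coprime q := (Nat.Coprime.symm ((Nat.Prime.coprime_iff_not_dvd hq).mpr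
      fun h => hqM (h.trans (Nat.div_dvd_of_dvd hdM))))
    rw [Nat.mul_div_mul_right _ _ hq0, Nat.Coprime.gcd_mul_right_cancel _ hcop.symm]

/-- The number of nodes is positive. -/
theorem genusFormula_lt {M q : ℕ} (hM : M ≠ 0) (hq : q.Prime) (hqM : ¬ q ∣ M) :
    2 * genusFormula M < genusFormula (M * q) + 1 := by
  have hcop : M.Coprime q := ((Nat.Prime.coprime_iff_not_dvd hq).mpr hqM).symm
  have h1 := Fermat.Agent.Jan.HeckeCommute.dedekindPsi_mul_prime M q hM hq
  rw [if_neg hqM] at h1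
  have h2 := nuTwo_mul hcop
  have h3 := nuThree_mul hcop
  have h4 := cuspCount_mul_prime hM hq hqM
  have h5 : (nuTwo q : ℚ) ≤ 2 := by exact_mod_cast nuTwo_prime_le hq
  have h6 : (nuThree q : ℚ) ≤ 2 := by exact_mod_cast nuThree_prime_le hq
  have hpos : (0 : ℚ) < dedekindPsi M := by
    have : NeZero M := ⟨hM⟩
    exact_mod_cast Fermat.Agent.Jan.HeckeCommute.dedekindPsi_pos M
  have hq2 : (2 : ℚ) ≤ q := by exact_mod_cast hq.two_le
  rw [genusFormula, genusFormula, h1, h2, h3, h4]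
  push_cast
  have h7 : (nuTwo M : ℚ) * nuTwo q ≤ nuTwo M * 2 := by gcongr
  have h8 : (nuThree M : ℚ) * nuThree q ≤ nuThree M * 2 := by gcongr
  have h9 : (dedekindPsi M : ℚ) * 2 ≤ dedekindPsi M * q := by gcongr
  linarith

end Fermat.Agent.DR.Mod
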