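import Fermat.Agent.DR.Mod.Main
import Fermat.Agent.DR.Mod.GenusIneq
import Fermat.Agent.DR.Mod.SetupExists
import Fermat.Agent.DR.Mod2.Glue
import Fermat.Agent.JRED.AtkinLehnerMain
import Fermat.Agent.JRED.Degree
import Fermat.Agent.JRED.CharZeroGenus
import Fermat.Agent.JRED.GoodReductionFinal
import Fermat.Agent.Flat.LiftInv
import Fermat.Agent.DR.ModGal.NodeFrob
import Fermat.Agent.DR.ModGal.Compat

set_option autoImplicit false

/-!
# The nodal model of `X₀(Mq)` at `q ∤ M`
-/

noncomputable section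

open AlgebraicCurve Fermat.Agent.RR Fermat.Agent.JRED ModularCurve IntermediateField
open Fermat.Agent.JRED.AL Fermat.Agent.DR.PairDegree Fermat.Agent.DR.PairOrtho Fermat.Agent.DR.PairShift
  Fermat.Agent.DR.Nodes Fermat.Agent.DR.Mod2

namespace Fermat.Agent.DR.Mod

section Inputs

variable {A : ValuationSubring (AlgebraicClosure ℚ)} {k : Type} [Field k] {π : A →+* k}

/-- The residue map kills exactly the maximal ideal. -/
theorem ker_eq_maximalIdeal (hπ : Function.Surjective π) :
    RingHom.ker π = IsLocalRing.maximalIdeal A :=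
  IsLocalRing.eq_maximalIdeal (RingHom.ker_isMaximal_of_surjective π hπ)

theorem charP_of_liesOverPrime (hπ : Function.Surjective π) {q : ℕ} (hq : q.Prime)
    (hA : A.LiesOverPrime q) : CharP k q := by
  refine (CharP.charP_iff_prime_eq_zero hq).mpr ?_
  have h : ((q : ℕ) : A) ∈ RingHom.ker π := by
    rw [ker_eq_maximalIdeal hπ, ← ValuationSubring.coe_mem_nonunits_iff]
    simpa using! hA
  rw [RingHom.mem_ker] at h
  rwa [map_natCast] at h

/-- Elements of the residue field are fixed by powers of Frobenius. -/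
theorem exists_frob_iterate_eq (hπ : Function.Surjective π) {q : ℕ} (hq : q.Prime)
    (hA : A.LiesOverPrime q) {τ : k ≃+* k} (hτ : ∀ c, τ c = c ^ q) (c : k) :
    ∃ n : ℕ, n ≠ 0 ∧ (τ : k → k)^[n] c = c := by
  have hit : ∀ (n : ℕ) (c : k), (τ : k → k)^[n] c = c ^ q ^ n := by
    intro n
    induction n with
    | zero => intro c; simp
    | succ n ih => intro c; rw [Function.iterate_succ_apply', ih, hτ, ← pow_mul, pow_succ]
  by_cases hc : c = 0
  · refine ⟨1, one_ne_zero, ?_⟩
    rw [hc, hit, pow_one, zero_pow hq.ne_zero]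
  · obtain ⟨m, hm0, hm, hcm⟩ := Fermat.Agent.Flat.LiftInv.exists_pow_eq_one hq hA hπ
      (ker_eq_maximalIdeal hπ) c hc
    refine ⟨m.totient, (Nat.totient_pos.mpr hm0).ne', ?_⟩
    rw [hit]
    have hcop : q.Coprime m := (Nat.Prime.coprime_iff_not_dvd hq).mpr hm
    have h1 := Nat.ModEq.pow_totient hcop
    have h2 : q ^ m.totient % m = 1 % m := h1
    rw [← Nat.div_add_mod (q ^ m.totient) m, h2, pow_add, pow_mul, hcm, one_pow, one_mul]
    rcases Nat.lt_or_ge 1 m with h | h
    · rw [Nat.mod_eq_of_lt h, pow_one]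
    · have : m = 1 := by omega
      subst this
      rw [pow_one] at hcm
      rw [hcm, one_pow]

end Inputs

section Frob

variable (k : Type) [Field k] [IsAlgClosed k] (M q : ℕ) [Fact q.Prime] [CharP k q]

/-- The `q`-power Frobenius of `k` acting coefficientwise on `F̄_M`. -/
def frobSemi : SemilinearAut k (modularFunctionFieldFullC k M) :=
  ESSemi.coeffSemi M (frobeniusEquiv k q)

theorem baseAut_frobSemi (c : k) : SemilinearAut.baseAut (frobSemi k M q) c = c ^ q :=
  frobenius_def q c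

theorem frobSemi_jRed : frobSemi k M q • jRed k M = jRed k M :=
  Subtype.ext (coeffMap_jqModC _)

theorem PhiFull_frobSemi [NeZero q] (u : modularFunctionFieldFullC k M) :
    PhiFull k q M (frobSemi k M q • u) = u ^ q :=
  Subtype.ext (Fermat.Agent.JRED.ES.laurent_pow_char q (u : LaurentSeries k)).symm

theorem frobSemi_iterate {A : ValuationSubring (AlgebraicClosure ℚ)} {π : A →+* k}
    (hπ : Function.Surjective π) (hA : A.LiesOverPrime q) (u : modularFunctionFieldFullC k M) :
    ∃ n : ℕ, n ≠ 0 ∧ (fun v : modularFunctionFieldFullC k M => frobSemi k M q • v)^[n] u = u :=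
  exists_iterate_eq _ (frobeniusEquiv k q)
    (fun c => exists_frob_iterate_eq hπ Fact.out hA (fun c => frobenius_def q c) c) u

end Frob

section Setup

variable {A : ValuationSubring (AlgebraicClosure ℚ)} {k : Type} [Field k] {π : A →+* k}
  {M q : ℕ} [NeZero M] [hq : Fact q.Prime]

theorem exists_setup_bar (hπ : Function.Surjective π) (hqM : ¬ q ∣ M) [hchar : CharP k q] :
    ∃ w : laurentBaseChange (AlgebraicClosure ℚ) (modularFunctionFieldFull (M * q))
      ≃ₐ[AlgebraicClosure ℚ]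
      laurentBaseChange (AlgebraicClosure ℚ) (modularFunctionFieldFull (M * q)),
      (∀ x, w (w x) = x) ∧ Setup (k := k) π w :=
  exists_setup hπ M q hq.out hqM

end Setup

section Genus

variable {k : Type} [Field k] {M q : ℕ} [NeZero M] [hq : Fact q.Prime]

/-- `2 g(X₀(M) mod q) < g(X₀(Mq)) + 1`. -/
theorem genusFF_add_lt (hqM : ¬ q ∣ M) (hgood : GoodReduction M k) :
    genusFF k (modularFunctionFieldFullC k M) + genusFF k (modularFunctionFieldFullC k M) <
      genusFF (AlgebraicClosure ℚ) (modularFunctionFieldBar (M * q)) + 1 := by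
  have h1 := genusFF_bar_eq_genusFormula M
  have h2 := genusFF_bar_eq_genusFormula (M * q)
  have h3 := genusFormula_lt (NeZero.ne M) hq.out hqM
  rw [← h1, ← h2] at h3
  rw [← show genusFF (AlgebraicClosure ℚ) (modularFunctionFieldBar M) =
    genusFF k (modularFunctionFieldFullC k M) from hgood, ← two_mul]
  exact_mod_cast h3

end Genus

section AbstractNodal

variable {K F G k Gb : Type*} [Field K] [Field F] [Algebra K F] [Field G] [Algebra K G] [Field k]
  [Field Gb] [Algebra k Gb] [FunctionField K F] [FunctionField K G]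
  [FunctionField k Gb] {A : ValuationSubring K} {π : A →+* k} [IsAlgClosed K] [IsAlgClosed k]

/-- `DegPair.exists_nodal`, repackaged. -/
theorem DegPair.exists_nodal' (D : DegPair K F G k Gb A π) (hπ : Function.Surjective π)
    (hrk : RankOne A) (hsep : Separated D.R₁ D.R₂)
    (hs1 : ∀ u : Gb, ∃ w, D.R₁.Red w u) (hs2 : ∀ u : Gb, ∃ w, D.R₂.Red w u)
    (htr : Transcendental k D.xb) (hfin : FiniteDimensional K⟮D.α D.x⟯ F)
    (hdeg : Module.finrank K⟮D.α D.x⟯ F =
      Module.finrank k⟮D.xb⟯ Gb + Module.finrank k⟮D.xb ^ D.q⟯ Gb)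
    (hq : D.q.Prime) (hchar : CharP k D.q)
    (g : SemilinearAut k Gb) (hg : ∀ c, SemilinearAut.baseAut g c = c ^ D.q)
    (hgx : g • D.xb = D.xb) (hΦ : ∀ u, D.Φ (g • u) = u ^ D.q)
    (hper : ∀ u : Gb, ∃ n : ℕ, n ≠ 0 ∧ (fun v : Gb => g • v)^[n] u = u)
    (hgen : genusFF k Gb + genusFF k Gb < genusFF K F + 1) :
    ∃ X : NodalDatum K F k Gb Gb A π, ModGal.Adapted D X ∧ ModGal.NodalComplete X ∧
      (X.nodes.card : ℤ) = genusFF K F + 1 - genusFF k Gb - genusFF k Gb ∧
      ∀ s ∈ X.nodes, s.1 = g • s.2 ∧ s.2 = g • s.1 := by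
  have : Fact D.q.Prime := ⟨hq⟩
  obtain ⟨X, h1, h2, ⟨a, ha, ha1, ha2⟩, h4, n₀, h5⟩ :=
    DegPair.exists_nodal D hπ hrk hsep hs1 hs2 htr hdeg g hg hgx hΦ hper hgen
  have hAd : ModGal.Adapted D X := ⟨h1, h2, htr, a, ha, ha1, ha2⟩
  refine ⟨X, hAd, ⟨n₀, fun n hn v hv1 hv2 hv => ?_⟩, h4, fun s hs =>
    ⟨hAd.node_fst hg hgx hΦ hs, hAd.node_snd hg hgx hΦ hs⟩⟩
  have hp1 : polesOf (K := k) X.x₁ = polesOf (K := k) D.xb := by
    rw [ha1, polesOf_sub_algebraMap]
  have hp2 : polesOf (K := k) X.x₂ = polesOf (K := k) (D.xb ^ D.q) := by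
    rw [ha2, polesOf_sub_algebraMap]
  rw [hp1] at hv1
  rw [hp2] at hv2
  obtain ⟨h, hh, hr⟩ := mem_redV.mp (h5 n hn v (mem_WW.mpr ⟨hv1, hv2⟩) hv)
  refine ⟨h, ?_, ?_⟩
  · rw [hAd.poles]; exact hh
  · rw [h1, h2]; exact hr

end AbstractNodal

section Nodal

variable {A : ValuationSubring (AlgebraicClosure ℚ)} {k : Type} [Field k] {π : A →+* k}
  {M q : ℕ} [NeZero M] [hq : Fact q.Prime]
  {w : laurentBaseChange (AlgebraicClosure ℚ) (modularFunctionFieldFull (M * q)) ≃ₐ[AlgebraicClosure ℚ]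
      laurentBaseChange (AlgebraicClosure ℚ) (modularFunctionFieldFull (M * q))}
  [FunctionField (AlgebraicClosure ℚ) (modularFunctionFieldBar (M * q))]
  [FunctionField (AlgebraicClosure ℚ) (modularFunctionFieldBar M)]
  [FunctionField k (modularFunctionFieldFullC k M)] [IsAlgClosed k] [CharP k q]

/-- **The nodal model of `X₀(Mq)` at `q`.** -/
theorem exists_modular_nodal_aux (hA : A.LiesOverPrime q) (hqM : ¬ q ∣ M) (S : Setup π w)
    (hgood : GoodReduction M k)
    (D : DegPair (AlgebraicClosure ℚ) (modularFunctionFieldBar (M * q)) (modularFunctionFieldBar M) k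
      (modularFunctionFieldFullC k M) A π)
    (h1 : D.R₁ = redOne S) (h2 : D.R₂ = redTwo S) (hx : D.α D.x = Fermat.Agent.JRED.jL
      (AlgebraicClosure ℚ) (M * q)) (hxb : D.xb = jRed k M) (hDq : D.q = q)
    (hΦ : D.Φ = PhiFull k q M) :
    ∃ X : NodalDatum (AlgebraicClosure ℚ) (modularFunctionFieldBar (M * q)) k
      (modularFunctionFieldFullC k M) (modularFunctionFieldFullC k M) A π,
      ModGal.Adapted D X ∧ ModGal.NodalComplete X ∧
      (X.nodes.card : ℤ) = genusFF (AlgebraicClosure ℚ) (modularFunctionFieldBar (M * q)) + 1 -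
        genusFF k (modularFunctionFieldFullC k M) - genusFF k (modularFunctionFieldFullC k M) ∧
      ∀ s ∈ X.nodes, s.1 = frobSemi k M q • s.2 ∧ s.2 = frobSemi k M q • s.1 := by
  refine DegPair.exists_nodal' D S.surj (rankOne_of_liesOverPrime A hq.out hA) ?_ ?_ ?_ ?_ ?_ ?_ ?_
    ?_ (frobSemi k M q) ?_ ?_ ?_ (frobSemi_iterate k M q S.surj hA) (genusFF_add_lt hqM hgood)
  · rw [h1, h2]; exact red_separated S
  · rw [h1]; exact redOne_surjective S
  · rw [h2]; exact redTwo_surjective S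
  · rw [hxb]; exact jRed_transcendental k M
  · rw [hx]; exact S.deg.1
  · rw [hx, hxb, hDq]; exact finrank_eq S
  · rw [hDq]; exact hq.out
  · rw [hDq]; infer_instance
  · rw [hDq]; exact baseAut_frobSemi k M q
  · rw [hxb]; exact frobSemi_jRed k M q
  · rw [hDq, hΦ]; exact PhiFull_frobSemi k M q

/-- The characteristic properties of the nodal model of `X₀(Mq)`. -/
structure IsModularNodal (S : Setup π w)
    (X : NodalDatum (AlgebraicClosure ℚ) (modularFunctionFieldBar (M * q)) k
      (modularFunctionFieldFullC k M) (modularFunctionFieldFullC k M) A π) : Prop where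
  eq₁ : X.R₁ = redOne S
  eq₂ : X.R₂ = redTwo S
  shift : ∃ a : A, X.x = Fermat.Agent.JRED.jL (AlgebraicClosure ℚ) (M * q) -
          algebraMap (AlgebraicClosure ℚ) _ (a : AlgebraicClosure ℚ) ∧
        X.x₁ = jRed k M - algebraMap k _ (π a) ∧ X.x₂ = jRed k M ^ q - algebraMap k _ (π a)
  complete : ModGal.NodalComplete X
  card : (X.nodes.card : ℤ) =
    genusFF (AlgebraicClosure ℚ) (modularFunctionFieldBar (M * q)) + 1 -
        genusFF k (modularFunctionFieldFullC k M) - genusFF k (modularFunctionFieldFullC k M)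
  node : ∀ s ∈ X.nodes, s.1 = frobSemi k M q • s.2 ∧ s.2 = frobSemi k M q • s.1

/-- **The nodal model of `X₀(Mq)` at `q`.** -/
theorem exists_modular_nodalDatum (hA : A.LiesOverPrime q) (hqM : ¬ q ∣ M) (S : Setup π w)
    (hdeg : DegreeInput M k) (hgood : GoodReduction M k) :
    ∃ X : NodalDatum (AlgebraicClosure ℚ) (modularFunctionFieldBar (M * q)) k
      (modularFunctionFieldFullC k M) (modularFunctionFieldFullC k M) A π,
      IsModularNodal S X ∧ ModGal.Adapted (modularDegPair S hdeg hgood) X := by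
  obtain ⟨X, h1, h2, h3, h4⟩ := exists_modular_nodal_aux hA hqM S hgood
    (modularDegPair S hdeg hgood) rfl rfl alpha_jBar rfl rfl rfl
  refine ⟨X, ⟨h1.eq₁, h1.eq₂, ?_, h2, h3, h4⟩, h1⟩
  obtain ⟨a, ha, ha1, ha2⟩ := h1.shift
  refine ⟨a, ?_, ha1, ha2⟩
  rw [ha]
  congr 1

end Nodal

end Fermat.Agent.DR.Mod
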