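import Fermat.Agent.DR.Mod.ModMono
import Fermat.Agent.DR.S36.LLift
import Fermat.Agent.DR.S36.UnitRed
import Fermat.Agent.DR.Mono.Inert
import Fermat.Agent.DR.Mono.Formula
import Fermat.Agent.DR.ModGal.Unipotent
import Fermat.Agent.Jan.GaloisHecke

set_option autoImplicit false
set_option linter.unusedSectionVars false

/-!
# Node data of `X₀(Mq)` at `q ∤ M` over the inertia field

* `modMono_lifts`: `Lifts (F0 L M)` for the modular `MonoPair`.
* `modNodeData`: the `NodeData` at every supersingular place `s` of `X₀(M)_k`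
  (`j(s) ≠ ∞`, `P_ss(j)(s) = 0`).
* `inertiaAut_modular`: inertia acts by `InertiaAut`.
* `mem_Ann_smul`: the annuli are stable under inertia.
* `node_ss`, `ss_node`: the nodes of the `NodalDatum` are exactly the supersingular places.
-/

noncomputable section

open AlgebraicCurve Fermat.Agent.RR Fermat.Agent.JRED ModularCurve IntermediateField
open Fermat.Agent.DR.Mono Fermat.Agent.Jan.HeckeNorm Fermat.Agent.Jan.HeckeInputs
  Fermat.Agent.DR.Mod2 Fermat.Agent.DR.Nodes Fermat.Agent.DR.S36.L Fermat.Agent.DR.S36.Unit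
  Fermat.Agent.JRED.ESGalois Fermat.Agent.JRED.ESSemi Fermat.Agent.JAN.AnFun
  Fermat.Agent.Q2.Ord

namespace Fermat.Agent.DR.Mod

/-! ### The subfield of `L`-rational functions -/

section F0

variable {A : ValuationSubring (AlgebraicClosure ℚ)} {L : Type} [Field L]
  [Algebra L (AlgebraicClosure ℚ)] {M q : ℕ} [NeZero M] [NeZero q]

variable (A) in
theorem alpha_mem_F0 [IsInertiaField A L] {z : modularFunctionFieldBar M} (hz : z ∈ F0 L M) :
    heckeAlphaBar (AlgebraicClosure ℚ) M q z ∈ F0 L (M * q) := by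
  rw [mem_F0_iff (A := A)] at hz ⊢
  intro σ hσ
  rw [← ModGal.galois_alpha, hz σ hσ]

variable (A) in
theorem beta_mem_F0 [IsInertiaField A L] {z : modularFunctionFieldBar M} (hz : z ∈ F0 L M) :
    heckeBetaBar (AlgebraicClosure ℚ) M q z ∈ F0 L (M * q) := by
  rw [mem_F0_iff (A := A)] at hz ⊢
  intro σ hσ
  rw [← ModGal.galois_beta, hz σ hσ]

theorem galois_uF (σ : AlgebraicClosure ℚ ≃ₐ[ℚ] AlgebraicClosure ℚ) :
    arithmeticGalois (modularFunctionFieldFull (M * q)) σ • uF (AlgebraicClosure ℚ) M q =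
      uF (AlgebraicClosure ℚ) M q := by
  refine Subtype.ext ?_
  rw [coe_arithmeticGalois_smul, coe_uF]
  exact coeffMap_uL _ _

variable (A) in
theorem uF_mem_F0 [IsInertiaField A L] :
    (uF (AlgebraicClosure ℚ) M q : modularFunctionFieldBar (M * q)) ∈ F0 L (M * q) := by
  rw [mem_F0_iff (A := A)]
  intro σ _
  exact galois_uF σ

end F0

section Equivariant

variable {K F k Fk : Type*} [Field K] [Field F] [Algebra K F] [Field k] [Field Fk] [Algebra k Fk]
  {A : ValuationSubring K} {π : A →+* k} {R : RedDatum K F k Fk A π} {gen : ℤ}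

/-- Equivariance of the place reduction. -/
theorem placeRed_equivariant (h : DeuringHyp R gen) {r : Place K F → Place k Fk}
    (hr : PlaceRed R r) (g : SemilinearAut K F) (γ : SemilinearAut k Fk)
    (hred : ∀ w u, R.Red w u → R.Red (g • w) (γ • u)) (P : Place K F) :
    r (g • P) = γ • r P := by
  have h1 : PlaceRed R (fun P => γ⁻¹ • r (g • P)) := by
    intro w u hwu hu D hD Q
    have hgw := hred w u hwu
    have hγu : γ • u ≠ 0 := (smul_ne_zero_iff_ne γ).mpr hu
    have h3 := hr (g • w) (γ • u) hgw hγu (g • D) (fun P => by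
      rw [SemilinearAut.divisor_smul_apply, hD]
      have h4 := SemilinearAut.ord_smul g (g⁻¹ • P) w
      rw [smul_inv_smul] at h4
      exact h4.symm) (γ • Q)
    rw [SemilinearAut.ord_smul] at h3
    rw [← h3]
    have h5 : Finsupp.mapDomain (fun P => γ⁻¹ • r (g • P)) D =
        Finsupp.mapDomain (fun Q => γ⁻¹ • Q) (Finsupp.mapDomain r (g • D)) := by
      have h6 : g • D = Finsupp.mapDomain (fun P => g • P) D := by
        ext P
        rw [SemilinearAut.divisor_smul_apply]
        have h7 := Finsupp.mapDomain_apply (MulAction.injective g) D (g⁻¹ • P)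
        rw [smul_inv_smul] at h7
        exact h7.symm
      rw [h6, ← Finsupp.mapDomain_comp, ← Finsupp.mapDomain_comp]
      rfl
    rw [h5]
    have h8 := Finsupp.mapDomain_apply (MulAction.injective γ⁻¹) (Finsupp.mapDomain r (g • D))
      (γ • Q)
    rw [inv_smul_smul] at h8
    exact h8
  have h2 := h.placeRed_unique h1
  have h3 := h.placeRed_unique hr
  have h4 : γ⁻¹ • r (g • P) = r P := congrFun (h2.trans h3.symm) P
  rw [← h4, smul_inv_smul]

end Equivariant

section Modular

variable {A : ValuationSubring (AlgebraicClosure ℚ)} {k : Type} [Field k] {π : A →+* k}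
  {M q : ℕ} [NeZero M] [hq : Fact q.Prime] [IsAlgClosed k] [hchar : CharP k q]
  {w : laurentBaseChange (AlgebraicClosure ℚ) (modularFunctionFieldFull (M * q)) ≃ₐ[AlgebraicClosure ℚ]
      laurentBaseChange (AlgebraicClosure ℚ) (modularFunctionFieldFull (M * q))}
  [FunctionField (AlgebraicClosure ℚ) (modularFunctionFieldBar (M * q))]
  [FunctionField (AlgebraicClosure ℚ) (modularFunctionFieldBar M)]
  [FunctionField k (modularFunctionFieldFullC k M)]
  {r : Place (AlgebraicClosure ℚ) (modularFunctionFieldBar M) →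
    Place k (modularFunctionFieldFullC k M)}
  (S : Setup π w) (hqM : ¬ q ∣ M) (hdeg : DegreeInput M k)
  (hgood : GoodReduction M k) (hr : PlaceRed (hdeg.redDatum S.surj) r)

/-- Lifting over the inertia field. -/
theorem modMono_lifts (hA : A.LiesOverPrime q) (L : Type) [Field L]
    [Algebra L (AlgebraicClosure ℚ)] [IsInertiaField A L] :
    (modMono S hqM hdeg hgood hr).Lifts (F0 L M) := by
  intro u hu
  have hx : (hdeg.redDatum S.surj).Red (inc L M (jRed L M)) (jRed k M) := by
    rw [inc_jRed]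
    exact redL_j π M
  obtain ⟨f, hf, hfu⟩ := exists_lift_regAlg (L := L) hq.out hA hdeg S.surj hgood hx
    (jRed_transcendental k M) hu
  refine ⟨inc L M f, ?_, inc_mem_F0 f, hfu⟩
  rw [inc_jRed] at hf
  exact hf

/-- The modular unit has no zeros and poles on the annuli. -/
theorem uF_inv_ann {s : Place k (modularFunctionFieldFullC k M)}
    (hs : jRed k M ∈ s.toValuationSubring) :
    Mono.Inv ((modMono S hqM hdeg hgood hr).Ann s)
      (uF (AlgebraicClosure ℚ) M q : modularFunctionFieldBar (M * q)) := by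
  refine ⟨uF_ne_zero _ _ _, fun P hP => ?_⟩
  have h4 := (modMono S hqM hdeg hgood hr).αx_mem hs hP
  rw [show (modMono S hqM hdeg hgood hr).α (modMono S hqM hdeg hgood hr).x =
      Fermat.Agent.JRED.jL (AlgebraicClosure ℚ) (M * q) from alpha_jBar] at h4
  exact ord_uF (AlgebraicClosure ℚ) M q P h4

/-- second reduction of the modular unit, in the normalisation of `NodeData` -/
theorem redTwo_uF' (S : Setup π w) : (redTwo S).Red
    (algebraMap (AlgebraicClosure ℚ) (modularFunctionFieldBar (M * q))
      ((q : AlgebraicClosure ℚ) ^ ((12 : ℕ) : ℤ))⁻¹ * uF (AlgebraicClosure ℚ) M q)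
    (ssj k q M)⁻¹ := by
  have h := redTwo_uF (M := M) (q := q) S
  have e : algebraMap (AlgebraicClosure ℚ) (modularFunctionFieldBar (M * q))
      ((q : AlgebraicClosure ℚ) ^ ((12 : ℕ) : ℤ))⁻¹ * uF (AlgebraicClosure ℚ) M q =
      uF (AlgebraicClosure ℚ) M q * ((q : modularFunctionFieldBar (M * q)) ^ 12)⁻¹ := by
    rw [map_inv₀, zpow_natCast, map_pow, map_natCast]
    exact mul_comm _ _
  rw [e]
  exact h

theorem arch_modular (hA : A.LiesOverPrime q) (hπ : Function.Surjective π) : Mono.Arch π :=
  Mono.arch (q := q) hA hπ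

/-- **The node data** of `X₀(Mq)` at a supersingular place. -/
def modNodeData (hA : A.LiesOverPrime q) (L : Type) [Field L]
    [Algebra L (AlgebraicClosure ℚ)] [IsInertiaField A L]
    {s : Place k (modularFunctionFieldFullC k M)}
    (hs : jRed k M ∈ s.toValuationSubring) (hord : 0 < s.ord (ssj k q M)) :
    Mono.NodeData (redOne S) (redTwo S) q (F0 L (M * q)) (q : AlgebraicClosure ℚ) 12 :=
  haveI : Fact (modMono S hqM hdeg hgood hr).q.Prime := hq
  haveI : CharP k (modMono S hqM hdeg hgood hr).q := hchar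
  (modMono S hqM hdeg hgood hr).nodeData (s := s) hs
    (g := uF (AlgebraicClosure ℚ) M q) (g₁ := ssj k q M)
    (uF_inv_ann S hqM hdeg hgood hr hs) (redOne_uF S) ssj_ne_zero hord
    (arch_modular hA S.surj) (G₀ := F0 L M) (F₀ := F0 L (M * q))
    (modMono_lifts S hqM hdeg hgood hr hA L) (fun _ hz => alpha_mem_F0 A hz)
    (fun _ hz => beta_mem_F0 A hz) (ϖ := (q : AlgebraicClosure ℚ)) (E := 12)
    (uF_mem_F0 A) (g₂ := (ssj k q M)⁻¹) (inv_ne_zero ssj_ne_zero) (redTwo_uF' S)

section Data

variable (hA : A.LiesOverPrime q) (L : Type) [Field L]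
    [Algebra L (AlgebraicClosure ℚ)] [IsInertiaField A L]
    {s : Place k (modularFunctionFieldFullC k M)}
    (hs : jRed k M ∈ s.toValuationSubring) (hord : 0 < s.ord (ssj k q M))

@[simp] theorem modNodeData_s₁ :
    (modNodeData S hqM hdeg hgood hr hA L hs hord).s₁ = s := rfl

@[simp] theorem modNodeData_s₂ :
    (modNodeData S hqM hdeg hgood hr hA L hs hord).s₂ = (frobSemi k M q)⁻¹ • s := rfl

theorem modNodeData_Ann :
    (modNodeData S hqM hdeg hgood hr hA L hs hord).Ann =
      (modMono S hqM hdeg hgood hr).Ann s := rfl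

theorem modNodeData_pair :
    (modNodeData S hqM hdeg hgood hr hA L hs hord).toPlacePair =
      (modMono S hqM hdeg hgood hr).pair s := rfl

theorem modNodeData_g :
    (modNodeData S hqM hdeg hgood hr hA L hs hord).g = uF (AlgebraicClosure ℚ) M q := rfl

theorem modNodeData_g₁ :
    (modNodeData S hqM hdeg hgood hr hA L hs hord).g₁ = ssj k q M := rfl

include hA hs hord in
/-- **A coordinate on every supersingular annulus**, defined over the inertia field. -/
theorem exists_modCoord :
    ∃ C : Coord ((modMono S hqM hdeg hgood hr).pair s) (q : AlgebraicClosure ℚ),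
      C.y ∈ F0 L (M * q) ∧ s.ord (ssj k q M) * C.w = 12 := by
  have hFF : Fermat.FF.IsFF1 k (modularFunctionFieldFullC k M) :=
    Descent.isFF1_of_functionField (K := k) (F := modularFunctionFieldFullC k M)
  have hExp : ExpChar k q := ExpChar.prime hq.out
  exact exists_coord (modNodeData S hqM hdeg hgood hr hA L hs hord) S.surj
    (arch_modular hA S.surj) (discData_two S hq.out hA)

end Data

/-! ### Inertia -/

/-- Inertia elements are `InertiaAut`. -/
theorem inertiaAut_modular (S : Setup π w) {σ : AlgebraicClosure ℚ ≃ₐ[ℚ] AlgebraicClosure ℚ}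
    (hσ : σ ∈ A.inertiaSubgroupIn ℚ) :
    InertiaAut (redOne S) (redTwo S) (arithmeticGalois (modularFunctionFieldFull (M * q)) σ) where
  unit c hc := unit_of_smul_eq S.surj (smul_eq_of_inertia hσ) hc
  red₁ {w u} h := by
    have h1 := ModGal.redOne_galois S (isResidual_one_of_inertia S.surj hσ) h
    rwa [map_one, one_smul] at h1
  red₂ {w u} h := by
    have h1 := ModGal.redTwo_galois hq.out S (isResidual_one_of_inertia S.surj hσ) h
    rwa [map_one, one_smul] at h1

omit [FunctionField (AlgebraicClosure ℚ) (modularFunctionFieldBar (M * q))]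
  [FunctionField (AlgebraicClosure ℚ) (modularFunctionFieldBar M)]
  [FunctionField k (modularFunctionFieldFullC k M)] [IsAlgClosed k] [NeZero M] hq hchar in
theorem redDatum_smul (hπ : Function.Surjective π) (hdeg : DegreeInput M k)
    {σ : AlgebraicClosure ℚ ≃ₐ[ℚ] AlgebraicClosure ℚ} {τ : k ≃+* k} (hτ : IsResidual π σ τ)
    (f : modularFunctionFieldBar M) (u : modularFunctionFieldFullC k M)
    (h : (hdeg.redDatum hπ).Red f u) :
    (hdeg.redDatum hπ).Red (arithmeticGalois (modularFunctionFieldFull M) σ • f)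
      (coeffSemi M τ • u) := by
  rw [DegreeInput.redDatum_iff] at h ⊢
  exact ModGal.gred_galois hτ h

/-- Equivariance of the place reduction of `X₀(M)`. -/
theorem placeRed_smul (hπ : Function.Surjective π) (hdeg : DegreeInput M k)
    (hgood : GoodReduction M k) (hr : PlaceRed (hdeg.redDatum hπ) r)
    {σ : AlgebraicClosure ℚ ≃ₐ[ℚ] AlgebraicClosure ℚ} {τ : k ≃+* k} (hτ : IsResidual π σ τ)
    (P : Place (AlgebraicClosure ℚ) (modularFunctionFieldBar M)) :
    r (arithmeticGalois (modularFunctionFieldFull M) σ • P) = coeffSemi M τ • r P :=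
  placeRed_equivariant (deuringHyp_modular hπ hdeg hgood) hr
    (arithmeticGalois (modularFunctionFieldFull M) σ) (coeffSemi M τ)
    (redDatum_smul hπ hdeg hτ) P

theorem pα_smul (σ : AlgebraicClosure ℚ ≃ₐ[ℚ] AlgebraicClosure ℚ)
    (P : Place (AlgebraicClosure ℚ) (modularFunctionFieldBar (M * q))) :
    (modMono S hqM hdeg hgood hr).pα (arithmeticGalois (modularFunctionFieldFull (M * q)) σ • P) =
      arithmeticGalois (modularFunctionFieldFull M) σ • (modMono S hqM hdeg hgood hr).pα P :=
  Fermat.Agent.Jan.GaloisHecke.restrictAlong_smul _ _ (fun x => (ModGal.galois_alpha σ x).symm) P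

theorem pβ_smul (σ : AlgebraicClosure ℚ ≃ₐ[ℚ] AlgebraicClosure ℚ)
    (P : Place (AlgebraicClosure ℚ) (modularFunctionFieldBar (M * q))) :
    (modMono S hqM hdeg hgood hr).pβ (arithmeticGalois (modularFunctionFieldFull (M * q)) σ • P) =
      arithmeticGalois (modularFunctionFieldFull M) σ • (modMono S hqM hdeg hgood hr).pβ P :=
  Fermat.Agent.Jan.GaloisHecke.restrictAlong_smul _ _ (fun x => (ModGal.galois_beta σ x).symm) P

/-- The annuli are permuted by the decomposition group. -/
theorem mem_Ann_smul_iff {σ : AlgebraicClosure ℚ ≃ₐ[ℚ] AlgebraicClosure ℚ} {τ : k ≃+* k}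
    (hτ : IsResidual π σ τ) {s : Place k (modularFunctionFieldFullC k M)}
    {P : Place (AlgebraicClosure ℚ) (modularFunctionFieldBar (M * q))} :
    arithmeticGalois (modularFunctionFieldFull (M * q)) σ • P ∈
      (modMono S hqM hdeg hgood hr).Ann (coeffSemi M τ • s) ↔
      P ∈ (modMono S hqM hdeg hgood hr).Ann s := by
  rw [MonoPair.mem_Ann, MonoPair.mem_Ann, pα_smul S hqM hdeg hgood hr]
  have h := placeRed_smul S.surj hdeg hgood hr hτ ((modMono S hqM hdeg hgood hr).pα P)
  have h' : (modMono S hqM hdeg hgood hr).r (arithmeticGalois (modularFunctionFieldFull M) σ •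
      (modMono S hqM hdeg hgood hr).pα P) =
      coeffSemi M τ • (modMono S hqM hdeg hgood hr).r ((modMono S hqM hdeg hgood hr).pα P) := h
  rw [h']
  exact (MulAction.injective (coeffSemi M τ)).eq_iff

/-- The annuli are stable under inertia. -/
theorem mem_Ann_smul_inertia {σ : AlgebraicClosure ℚ ≃ₐ[ℚ] AlgebraicClosure ℚ}
    (hσ : σ ∈ A.inertiaSubgroupIn ℚ) {s : Place k (modularFunctionFieldFullC k M)}
    {P : Place (AlgebraicClosure ℚ) (modularFunctionFieldBar (M * q))} :
    arithmeticGalois (modularFunctionFieldFull (M * q)) σ • P ∈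
      (modMono S hqM hdeg hgood hr).Ann s ↔ P ∈ (modMono S hqM hdeg hgood hr).Ann s := by
  have h := mem_Ann_smul_iff S hqM hdeg hgood hr (isResidual_one_of_inertia S.surj hσ)
    (s := s) (P := P)
  rwa [map_one, one_smul] at h

/-! ### The nodes are the supersingular places -/

variable {S} {X : NodalDatum (AlgebraicClosure ℚ) (modularFunctionFieldBar (M * q)) k
      (modularFunctionFieldFullC k M) (modularFunctionFieldFullC k M) A π}

theorem jRed_mem_of_node (hX : IsModularNodal S X) {s : Place k (modularFunctionFieldFullC k M) ×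
      Place k (modularFunctionFieldFullC k M)} (hs : s ∈ X.nodes) :
    jRed k M ∈ s.1.toValuationSubring := by
  obtain ⟨a, -, ha1, -⟩ := hX.shift
  have h1 := X.ord_x₁ s hs
  have h0 : X.x₁ ≠ 0 := fun h0 => X.transcendental₁ (h0 ▸ isAlgebraic_zero)
  have h2 : X.x₁ ∈ s.1.toValuationSubring := (Fermat.FF.mem_iff_ord s.1 h0).mpr h1.ge
  rw [ha1, Nodes.mem_sub_algebraMap_iff] at h2
  exact h2

/-- The modular unit is regular off the poles of `j`. -/
theorem uF_mem_regAlg : (uF (AlgebraicClosure ℚ) M q : modularFunctionFieldBar (M * q)) ∈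
    regAlg (AlgebraicClosure ℚ) (Fermat.Agent.JRED.jL (AlgebraicClosure ℚ) (M * q)) := by
  rw [mem_regAlg]
  intro P hP
  exact (Fermat.FF.mem_iff_ord P (uF_ne_zero _ _ _)).mpr (ord_uF _ M q P hP).ge

theorem redTwo_uF_zero (hA : A.LiesOverPrime q) (S : Setup π w) :
    (redTwo S).Red (uF (AlgebraicClosure ℚ) M q : modularFunctionFieldBar (M * q)) 0 := by
  have h0 : (q : AlgebraicClosure ℚ) ≠ 0 := by exact_mod_cast hq.out.ne_zero
  have hm : (q : AlgebraicClosure ℚ) ∈ A := natCast_mem A q
  have hm0 : π ⟨(q : AlgebraicClosure ℚ), hm⟩ = 0 :=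
    (map_natCast π q).trans (map_natCast_eq_zero π hA S.surj)
  have h := Mono.red_zero_of_mem (zpow_mem_of_nonneg hm (by norm_num : (0 : ℤ) ≤ ((12 : ℕ) : ℤ)))
    (res_zpow_of_pos hm hm0 (by norm_num)) (redTwo_uF' (M := M) (q := q) S)
  rwa [← mul_assoc, ← map_mul, mul_inv_cancel₀ (zpow_ne_zero _ h0), map_one, one_mul] at h

/-- **The nodes are supersingular.** -/
theorem ss_of_node (hA : A.LiesOverPrime q) (hX : IsModularNodal S X)
    {s : Place k (modularFunctionFieldFullC k M) × Place k (modularFunctionFieldFullC k M)}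
    (hs : s ∈ X.nodes) : 0 < s.1.ord (ssj k q M) := by
  obtain ⟨n, hn⟩ := exists_mem_of_mem_regAlg (uF_mem_regAlg (M := M) (q := q))
  exact hX.ord_pos hn (redOne_uF S) ssj_ne_zero (redTwo_uF_zero hA S) hs

include hqM hdeg hgood hr in
/-- **The supersingular places are nodes.** -/
theorem node_of_ss (hA : A.LiesOverPrime q) (hX : IsModularNodal S X)
    {s : Place k (modularFunctionFieldFullC k M)}
    (hs : jRed k M ∈ s.toValuationSubring) (hord : 0 < s.ord (ssj k q M)) :
    (s, (frobSemi k M q)⁻¹ • s) ∈ X.nodes :=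
  hX.mem_nodes hqM hdeg hgood hr (arch_modular hA S.surj) hs
    (uF_inv_ann S hqM hdeg hgood hr hs) (redOne_uF S) ssj_ne_zero hord

end Modular

end Fermat.Agent.DR.Mod
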