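import Fermat.Agent.DR.Mod.Kronecker
import Fermat.Agent.DR.Nodal.Spec
import Fermat.Agent.JRED.ESSemi
import Fermat.Agent.Jan.RelFundamental

set_option autoImplicit false
set_option linter.unusedSectionVars false
set_option linter.style.haveILetI false

/-!
# Push-forwards and specialisation: the Kronecker congruence on divisor classes

* `Kron R R₁ R₂ ψ φ q`: the congruence for norms along `ψ : G → F` in terms of reduction data.
* `Kron.mapDomain`, `Kron.mapDomain_of_nsmul`: `r_* ψ_* D = D₁ + φ D₂`.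
* `redPic`: the reduction map `Pic⁰ G → Pic⁰ Gb` of a place map; `pushPic`: push-forward of classes.
* `Kron.spec`: `Spec X m x y₁ y₂` implies `red (ψ_* x) = y₁ + φ y₂`.
* `kron_alpha`, `kron_beta`: the modular instances.
-/

noncomputable section

open AlgebraicCurve ModularCurve Polynomial
open Fermat.Agent.JRED Fermat.Agent.RR
open Fermat.Agent.Jan.HeckeNorm (normAlong normAlong_ne_zero pushforwardAlong_eq_ord)

namespace Fermat.Agent.DR.Mod

section Push

variable {K G F : Type*} [Field K] [Field G] [Field F] [Algebra K G] [Algebra K F]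

/-- Push-forward of divisor classes of degree zero along `ψ : G → F`. -/
def pushPic (ψ : G →ₐ[K] F) (hψ : ψ.toRingHom.IsIntegral) (hfin : FiniteAlong K ψ)
    (hN : NormFormulaAlong K ψ hfin) : Pic0 K F →+ Pic0 K G :=
  QuotientAddGroup.map _ _
    (((Divisor.pushforwardAlong ψ hψ).domRestrict (Divisor.degZero (K := K) (F := F))).codRestrict
      (Divisor.degZero (K := K) (F := G))
      (fun D => Divisor.pushforwardAlong_mem_degZero ψ hψ D.2)) (by
    rintro ⟨D, hD0⟩ hD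
    simp only [AddSubgroup.mem_addSubgroupOf] at hD ⊢
    exact Divisor.isPrincipal_pushforwardAlong ψ hψ hfin hN hD)

theorem pushPic_mk (ψ : G →ₐ[K] F) (hψ : ψ.toRingHom.IsIntegral) (hfin : FiniteAlong K ψ)
    (hN : NormFormulaAlong K ψ hfin) (D : Divisor.degZero (K := K) (F := F)) :
    pushPic ψ hψ hfin hN (Pic0.mk D) =
      Pic0.mk ⟨Divisor.pushforwardAlong ψ hψ (D : Divisor K F),
        Divisor.pushforwardAlong_mem_degZero ψ hψ D.2⟩ := rfl

end Push

section RedPic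

variable {K G k Gb : Type*} [Field K] [Field G] [Algebra K G] [Field k] [Field Gb] [Algebra k Gb]
  {A : ValuationSubring K} {π : A →+* k} {R : RedDatum K G k Gb A π}
  {r : Place K G → Place k Gb}

theorem degree_mapDomain (hdeg : ∀ P, (r P).deg = P.deg) (D : Divisor K G) :
    Divisor.degree (Finsupp.mapDomain r D) = Divisor.degree D := by
  induction D using Finsupp.induction_linear with
  | zero => simp
  | add D E hD hE => rw [Finsupp.mapDomain_add, map_add, map_add, hD, hE]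
  | single P n => rw [Finsupp.mapDomain_single, Divisor.degree_single, Divisor.degree_single, hdeg]

theorem mapDomain_principal (hr : PlaceRed R r) {D : Divisor K G}
    (hD : D ∈ Divisor.principal (K := K) (F := G)) :
    Finsupp.mapDomain r D ∈ Divisor.principal (K := k) (F := Gb) := by
  obtain ⟨f, hf, hD⟩ := hD
  obtain ⟨c, hc, u, hu, h⟩ := R.normalize f hf
  refine ⟨u, hu, hr _ u h hu D fun P => ?_⟩
  rw [hD, P.ord_mul (by simpa using hc) hf, Fermat.FF.ord_algebraMap, zero_add]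

/-- The reduction map on divisor classes of degree zero attached to a place map. -/
def redPic (hr : PlaceRed R r) (hdeg : ∀ P, (r P).deg = P.deg) : Pic0 K G →+ Pic0 k Gb :=
  QuotientAddGroup.map _ _
    (((Finsupp.mapDomain.addMonoidHom r).domRestrict
      (Divisor.degZero (K := K) (F := G))).codRestrict (Divisor.degZero (K := k) (F := Gb))
      (fun D => Divisor.mem_degZero.mpr
        ((degree_mapDomain hdeg (D : Divisor K G)).trans (Divisor.mem_degZero.mp D.2)))) (by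
    rintro ⟨D, hD0⟩ hD
    simp only [AddSubgroup.mem_addSubgroupOf] at hD ⊢
    exact mapDomain_principal hr hD)

theorem redPic_mk (hr : PlaceRed R r) (hdeg : ∀ P, (r P).deg = P.deg)
    (D : Divisor.degZero (K := K) (F := G)) :
    redPic hr hdeg (Pic0.mk D) = Pic0.mk ⟨Finsupp.mapDomain r (D : Divisor K G),
      Divisor.mem_degZero.mpr
        ((degree_mapDomain hdeg (D : Divisor K G)).trans (Divisor.mem_degZero.mp D.2))⟩ := rfl

end RedPic

section Kron

variable {K F G k Gb : Type*} [Field K] [Field F] [Algebra K F] [Field G] [Algebra K G] [Field k]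
  [Field Gb] [Algebra k Gb] {A : ValuationSubring K} {π : A →+* k}

/-- The Kronecker congruence for norms along `ψ : G → F`. -/
def Kron (R : RedDatum K G k Gb A π) (R₁ R₂ : RedDatum K F k Gb A π) (ψ : G →ₐ[K] F)
    (φ : SemilinearAut k Gb) (q : ℕ) : Prop :=
  ∀ (f : F) (c₁ c₂ : K) (u₁ u₂ : Gb), R₁.Red (algebraMap K F c₁ * f) u₁ →
    R₂.Red (algebraMap K F c₂ * f) u₂ →
      R.Red (algebraMap K G (c₁ * c₂ ^ q) * normAlong ψ f) (u₁ * φ • u₂)

variable {R : RedDatum K G k Gb A π} {R₁ R₂ : RedDatum K F k Gb A π} {ψ : G →ₐ[K] F}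
  {φ : SemilinearAut k Gb} {q : ℕ} {r : Place K G → Place k Gb}

/-- `r_* ψ_* (div f) = div u₁ + φ (div u₂)`. -/
theorem Kron.mapDomain (H : Kron R R₁ R₂ ψ φ q) (hr : PlaceRed R r)
    (hψ : ψ.toRingHom.IsIntegral) (hfin : FiniteAlong K ψ) (hN : NormFormulaAlong K ψ hfin)
    {f : F} (hf : f ≠ 0) {c₁ c₂ : K} (hc₁ : c₁ ≠ 0) (hc₂ : c₂ ≠ 0) {u₁ u₂ : Gb} (hu₁ : u₁ ≠ 0)
    (hu₂ : u₂ ≠ 0) (h1 : R₁.Red (algebraMap K F c₁ * f) u₁)
    (h2 : R₂.Red (algebraMap K F c₂ * f) u₂) {D : Divisor K F} (hD : ∀ P, D P = P.ord f)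
    (Q : Place k Gb) :
    Finsupp.mapDomain r (Divisor.pushforwardAlong ψ hψ D) Q = Q.ord u₁ + (φ⁻¹ • Q).ord u₂ := by
  have hu₂' : φ • u₂ ≠ 0 := (smul_ne_zero_iff_ne φ).mpr hu₂
  have hne : u₁ * φ • u₂ ≠ 0 := mul_ne_zero hu₁ hu₂'
  have hNf : normAlong ψ f ≠ 0 := normAlong_ne_zero ψ hfin hf
  rw [hr _ _ (H f c₁ c₂ u₁ u₂ h1 h2) hne (Divisor.pushforwardAlong ψ hψ D) ?_ Q,
    Q.ord_mul hu₁ hu₂']
  · have h3 := SemilinearAut.ord_smul φ (φ⁻¹ • Q) u₂
    rw [smul_inv_smul] at h3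
    rw [h3]
  · intro P
    rw [P.ord_mul (by simpa using ⟨hc₁, fun h => absurd h hc₂⟩) hNf,
      Fermat.FF.ord_algebraMap, zero_add]
    exact pushforwardAlong_eq_ord ψ hψ hfin hN hf hD P

/-- `r_* ψ_* D = D₁ + φ D₂` if `m D = div f`, `m D_i = div u_i`. -/
theorem Kron.mapDomain_of_nsmul (H : Kron R R₁ R₂ ψ φ q) (hr : PlaceRed R r)
    (hψ : ψ.toRingHom.IsIntegral) (hfin : FiniteAlong K ψ) (hN : NormFormulaAlong K ψ hfin)
    {m : ℕ} (hm : 0 < m) {f : F} (hf : f ≠ 0) {c₁ c₂ : K} (hc₁ : c₁ ≠ 0) (hc₂ : c₂ ≠ 0)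
    {u₁ u₂ : Gb} (hu₁ : u₁ ≠ 0)
    (hu₂ : u₂ ≠ 0) (h1 : R₁.Red (algebraMap K F c₁ * f) u₁)
    (h2 : R₂.Red (algebraMap K F c₂ * f) u₂) {D : Divisor K F}
    (hD : ∀ P, (m : ℤ) * D P = P.ord f) {D₁ D₂ : Divisor k Gb}
    (hD₁ : ∀ P, (m : ℤ) * D₁ P = P.ord u₁) (hD₂ : ∀ P, (m : ℤ) * D₂ P = P.ord u₂) :
    Finsupp.mapDomain r (Divisor.pushforwardAlong ψ hψ D) = D₁ + φ • D₂ := by
  ext Q
  have h3 := H.mapDomain hr hψ hfin hN hf hc₁ hc₂ hu₁ hu₂ h1 h2 (D := m • D)
    (fun P => by rw [Finsupp.smul_apply, nsmul_eq_mul, hD]) Q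
  rw [map_nsmul, ← hD₁, ← hD₂] at h3
  have h4 : Finsupp.mapDomain r (m • Divisor.pushforwardAlong ψ hψ D) =
      m • Finsupp.mapDomain r (Divisor.pushforwardAlong ψ hψ D) :=
    map_nsmul (Finsupp.mapDomain.addMonoidHom r) m _
  rw [h4, Finsupp.smul_apply, nsmul_eq_mul, ← mul_add] at h3
  have hm' : (m : ℤ) ≠ 0 := by exact_mod_cast hm.ne'
  rw [mul_left_cancel₀ hm' h3, Finsupp.add_apply, SemilinearAut.divisor_smul_apply]

end Kron

section Spec

variable {K F G k Gb : Type*} [Field K] [Field F] [Algebra K F] [Field G] [Algebra K G] [Field k]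
  [Field Gb] [Algebra k Gb] [IsAlgClosed K] [IsAlgClosed k] [FunctionField K F]
  [FunctionField k Gb] {A : ValuationSubring K} {π : A →+* k}
  {X : NodalDatum K F k Gb Gb A π} {R : RedDatum K G k Gb A π} {ψ : G →ₐ[K] F}
  {φ : SemilinearAut k Gb} {q : ℕ} {r : Place K G → Place k Gb}
  {m : ℕ} {x : Pic0 K F} {y₁ y₂ : Pic0 k Gb}

/-- **Specialisation and push-forward**: `red (ψ_* x) = y₁ + φ y₂`. -/
theorem Kron.spec (H : Kron R X.R₁ X.R₂ ψ φ q) (hr : PlaceRed R r)
    (hdeg : ∀ P, (r P).deg = P.deg) (hψ : ψ.toRingHom.IsIntegral) (hfin : FiniteAlong K ψ)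
    (hN : NormFormulaAlong K ψ hfin) (h : Spec X m x y₁ y₂) :
    redPic hr hdeg (pushPic ψ hψ hfin hN x) = y₁ + φ • y₂ := by
  obtain ⟨D, f, u, D₁, D₂, rfl, rfl, rfl, H', h1, h2⟩ := h
  have key := H.mapDomain_of_nsmul hr hψ hfin hN H'.pos H'.ne_zero (c₁ := 1) (c₂ := 1)
    one_ne_zero one_ne_zero H'.ne₁ H'.ne₂ (by rw [map_one, one_mul]; exact H'.red.1)
    (by rw [map_one, one_mul]; exact H'.red.2) H'.div_eq h1 h2
  rw [pushPic_mk, redPic_mk]
  have h3 : φ • Pic0.mk D₂ = Pic0.mk (SemilinearAut.degZeroSMulHom φ D₂) := rfl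
  have h4 : Pic0.mk D₁ + Pic0.mk (SemilinearAut.degZeroSMulHom φ D₂) =
    Pic0.mk (D₁ + SemilinearAut.degZeroSMulHom φ D₂) := rfl
  rw [h3, h4]
  congr 1
  exact Subtype.ext key

/-- The same with the two components exchanged: `red (ψ_* x) = y₂ + φ y₁`. -/
theorem Kron.spec_swap (H : Kron R X.R₂ X.R₁ ψ φ q) (hr : PlaceRed R r)
    (hdeg : ∀ P, (r P).deg = P.deg) (hψ : ψ.toRingHom.IsIntegral) (hfin : FiniteAlong K ψ)
    (hN : NormFormulaAlong K ψ hfin) (h : Spec X m x y₁ y₂) :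
    redPic hr hdeg (pushPic ψ hψ hfin hN x) = y₂ + φ • y₁ := by
  obtain ⟨D, f, u, D₁, D₂, rfl, rfl, rfl, H', h1, h2⟩ := h
  have key := H.mapDomain_of_nsmul hr hψ hfin hN H'.pos H'.ne_zero (c₁ := 1) (c₂ := 1)
    one_ne_zero one_ne_zero H'.ne₂ H'.ne₁ (by rw [map_one, one_mul]; exact H'.red.2)
    (by rw [map_one, one_mul]; exact H'.red.1) H'.div_eq h2 h1
  rw [pushPic_mk, redPic_mk]
  have h3 : φ • Pic0.mk D₁ = Pic0.mk (SemilinearAut.degZeroSMulHom φ D₁) := rfl
  have h4 : Pic0.mk D₂ + Pic0.mk (SemilinearAut.degZeroSMulHom φ D₁) =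
    Pic0.mk (D₂ + SemilinearAut.degZeroSMulHom φ D₁) := rfl
  rw [h3, h4]
  congr 1
  exact Subtype.ext key

end Spec

section Modular

variable {A : ValuationSubring (AlgebraicClosure ℚ)} {k : Type} [Field k] {π : A →+* k}
  {M q : ℕ} [NeZero M] [NeZero q] [ExpChar k q] [PerfectRing k q]
  {w : laurentBaseChange (AlgebraicClosure ℚ) (modularFunctionFieldFull (M * q)) ≃ₐ[AlgebraicClosure ℚ]
      laurentBaseChange (AlgebraicClosure ℚ) (modularFunctionFieldFull (M * q))}

theorem coe_frob_smul (u : modularFunctionFieldFullC k M) :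
    ((ESSemi.coeffSemi M (frobeniusEquiv k q) • u : modularFunctionFieldFullC k M) :
      LaurentSeries k) = coeffMap (frobenius k q) (u : LaurentSeries k) := by
  rw [ESSemi.coe_coeffSemi_smul]
  exact coeffMap_congr (RingHom.ext fun x => by simp [frobeniusEquiv_apply]) _

theorem coe_mul_frob_smul (u v : modularFunctionFieldFullC k M) :
    ((u * ESSemi.coeffSemi M (frobeniusEquiv k q) • v : modularFunctionFieldFullC k M) :
      LaurentSeries k) = (u : LaurentSeries k) * coeffMap (frobenius k q) (v : LaurentSeries k) := by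
  rw [← coe_frob_smul]
  rfl

/-- **Kronecker along `α`**, values in `F̄_M`. -/
theorem kron_alpha (S : Setup π w) (H : KHyp π w) (hD : DegreeInput M k) :
    Kron (hD.redDatum S.surj) (redOne S) (redTwo S) (heckeAlphaBar (AlgebraicClosure ℚ) M q)
      (ESSemi.coeffSemi M (frobeniusEquiv k q)) q := by
  intro f c₁ c₂ u₁ u₂ h1 h2
  have h3 := H.red_norm_alpha (u₁ := (u₁ : LaurentSeries k)) (u₂ := (u₂ : LaurentSeries k)) h1 h2
  rw [← coe_mul_frob_smul] at h3
  exact (hD.redDatum_iff S.surj).mpr h3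

/-- **Kronecker along `β`**, values in `F̄_M`. -/
theorem kron_beta (S : Setup π w) (H : KHyp π w) (hD : DegreeInput M k) :
    Kron (hD.redDatum S.surj) (redTwo S) (redOne S) (heckeBetaBar (AlgebraicClosure ℚ) M q)
      (ESSemi.coeffSemi M (frobeniusEquiv k q)) q := by
  intro f c₂ c₁ u₂ u₁ h2 h1
  have h3 := H.red_norm_beta (u₁ := (u₁ : LaurentSeries k)) (u₂ := (u₂ : LaurentSeries k)) h1 h2
  rw [← coe_mul_frob_smul] at h3
  exact (hD.redDatum_iff S.surj).mpr h3

theorem coe_coeff_mul {E : IntermediateField k (LaurentSeries k)} (u v : E) (n m : ℕ) :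
    (((X - C (u : LaurentSeries k)) * (X ^ m - C (v : LaurentSeries k))).coeff n) =
      ((((X - C u) * (X ^ m - C v)).coeff n : E) : LaurentSeries k) := by
  have h5 := Polynomial.coeff_map (f := (E.val : E →+* LaurentSeries k))
    (p := (X - C u) * (X ^ m - C v)) n
  rw [Polynomial.map_mul, Polynomial.map_sub, Polynomial.map_sub, Polynomial.map_pow,
    Polynomial.map_X, Polynomial.map_C, Polynomial.map_C] at h5
  exact h5

/-- Characteristic polynomials along `α`, values in `F̄_M`. -/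
theorem red_charpoly_alpha' (S : Setup π w) (H : KHyp π w) (hD : DegreeInput M k)
    (hfin : FiniteAlong (AlgebraicClosure ℚ) (heckeAlphaBar (AlgebraicClosure ℚ) M q))
    {f : modularFunctionFieldBar (M * q)} {u₁ u₂ : modularFunctionFieldFullC k M}
    (h1 : (redOne S).Red f u₁) (h2 : (redTwo S).Red f u₂) (n : ℕ) :
    (hD.redDatum S.surj).Red
      ((charpolyAlong (heckeAlphaBar (AlgebraicClosure ℚ) M q) hfin f).coeff n)
      (((X - C u₁) * (X ^ q - C (ESSemi.coeffSemi M (frobeniusEquiv k q) • u₂))).coeff n) := by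
  have h3 := H.red_charpoly_alpha hfin (u₁ := (u₁ : LaurentSeries k))
    (u₂ := (u₂ : LaurentSeries k)) h1 h2 n
  rw [← coe_frob_smul, coe_coeff_mul] at h3
  exact (hD.redDatum_iff S.surj).mpr h3

/-- Characteristic polynomials along `β`, values in `F̄_M`. -/
theorem red_charpoly_beta' (S : Setup π w) (H : KHyp π w) (hD : DegreeInput M k)
    (hfin : FiniteAlong (AlgebraicClosure ℚ) (heckeBetaBar (AlgebraicClosure ℚ) M q))
    {f : modularFunctionFieldBar (M * q)} {u₁ u₂ : modularFunctionFieldFullC k M}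
    (h1 : (redOne S).Red f u₁) (h2 : (redTwo S).Red f u₂) (n : ℕ) :
    (hD.redDatum S.surj).Red
      ((charpolyAlong (heckeBetaBar (AlgebraicClosure ℚ) M q) hfin f).coeff n)
      (((X - C u₂) * (X ^ q - C (ESSemi.coeffSemi M (frobeniusEquiv k q) • u₁))).coeff n) := by
  have h3 := H.red_charpoly_beta hfin (u₁ := (u₁ : LaurentSeries k))
    (u₂ := (u₂ : LaurentSeries k)) h1 h2 n
  rw [← coe_frob_smul, coe_coeff_mul] at h3
  exact (hD.redDatum_iff S.surj).mpr h3

end Modular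

end Fermat.Agent.DR.Mod
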