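import Fermat.Agent.DR.Mod.HeckeAway
import Fermat.Agent.DR.Mod.KroneckerSpec
import Fermat.Agent.DR.CorrPlace

set_option autoImplicit false

/-!
# `T_ℓ` (`ℓ ≠ q`) on specialisations of classes of `X₀(Mq)` and on reductions of `X₀(M)`

* `spec_hecke`: `Spec X m x y₁ y₂ → Spec X m (T_ℓ x) (T̄_ℓ y₁) (T̄_ℓ y₂)`;
* `redOne_norm_hecke`, `redTwo_norm_hecke`: the same on functions;
* `redPic_hecke`: `red (T_ℓ x) = T̄_ℓ (red x)` at level `M`.
-/

noncomputable section

open AlgebraicCurve ModularCurve IntermediateField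
open Fermat.Agent.RR Fermat.Agent.JRED Fermat.Agent.JRED.AL
open Fermat.Agent.Jan.HeckeNorm (normAlong normAlong_ne_zero nsmul_correspondence_eq_ord
  correspondence_eq_ord)

namespace Fermat.Agent.DR.Mod

section LevelMq

variable {L : Type} [Field L] [Algebra ℚ L] [IsAlgClosed L] {k : Type} [Field k]
  {A : ValuationSubring L} {π : A →+* k} {M q ℓ : ℕ} [NeZero M] [NeZero q] [NeZero ℓ]
  [CharP k q] [ExpChar k q]
  {w : laurentBaseChange L (modularFunctionFieldFull (M * q)) ≃ₐ[L]
      laurentBaseChange L (modularFunctionFieldFull (M * q))}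

/-- `N_α (β f)` reduces to `N_α (β u)` on the component of `∞`. -/
theorem redOne_norm_hecke (hq : q.Prime) (hqM : ¬ q ∣ M * ℓ) (h : ((M * ℓ : ℕ) : k) ≠ 0)
    (S : Setup π w) {f : laurentBaseChange L (modularFunctionFieldFull (M * q))}
    {u : modularFunctionFieldFullC k M} (hf : (redOne S).Red f u) :
    (redOne S).Red (normAlong (heckeAlphaBar L (M * q) ℓ) (heckeBetaBar L (M * q) ℓ f))
      (normAlong (alphaC k M ℓ) (betaC k M ℓ u)) := by
  obtain ⟨w', -, S'⟩ := exists_setup (k := k) S.surj (M * ℓ) q hq hqM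
  exact (corrRed_one hq hqM h S S').red S.surj hf

/-- `N_α (β f)` reduces to `N_α (β u)` on the component of `0`. -/
theorem redTwo_norm_hecke (hq : q.Prime) (hqM : ¬ q ∣ M * ℓ) (h : ((M * ℓ : ℕ) : k) ≠ 0)
    (S : Setup π w) {f : laurentBaseChange L (modularFunctionFieldFull (M * q))}
    {u : modularFunctionFieldFullC k M} (hf : (redTwo S).Red f u) :
    (redTwo S).Red (normAlong (heckeAlphaBar L (M * q) ℓ) (heckeBetaBar L (M * q) ℓ f))
      (normAlong (alphaC k M ℓ) (betaC k M ℓ u)) := by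
  obtain ⟨w', -, S'⟩ := exists_setup (k := k) S.surj (M * ℓ) q hq hqM
  exact (corrRed_two hq hqM h S S').red S.surj hf

variable [IsAlgClosed k]
  [FunctionField L (laurentBaseChange L (modularFunctionFieldFull (M * q)))]
  [FunctionField k (modularFunctionFieldFullC k M)]
  {X : NodalDatum L (laurentBaseChange L (modularFunctionFieldFull (M * q))) k
    (modularFunctionFieldFullC k M) (modularFunctionFieldFullC k M) A π}
  {m : ℕ} {x : Pic0 L (laurentBaseChange L (modularFunctionFieldFull (M * q)))}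
  {y₁ y₂ : Pic0 k (modularFunctionFieldFullC k M)}

/-- **`T_ℓ` is compatible with specialisation** (piece A7). -/
theorem spec_hecke (hq : q.Prime) (hqM : ¬ q ∣ M * ℓ) (h : ((M * ℓ : ℕ) : k) ≠ 0)
    (S : Setup π w) (h₁ : X.R₁ = redOne S) (h₂ : X.R₂ = redTwo S) (hs : Spec X m x y₁ y₂) :
    Spec X m (heckeOperatorAlong L (M * q) ℓ x) (heckeC k M ℓ h y₁) (heckeC k M ℓ h y₂) := by
  obtain ⟨w', -, S'⟩ := exists_setup (k := k) S.surj (M * ℓ) q hq hqM
  have i1 := hasPrincipalDivisors_fullC h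
  have H₁ := corrRed_one hq hqM h S S'
  have H₂ := corrRed_two hq hqM h S S'
  rw [← h₁] at H₁
  rw [← h₂] at H₂
  obtain ⟨hα, hβ, hP, hfin, hFI, hN⟩ :=
    Fermat.Agent.Jan.DegreeWiring.heckeInputsAlong' L (M * q) ℓ
  rw [heckeOperatorAlong_eq hα hβ hFI hfin hN]
  exact Spec.correspondence S.surj H₁ H₂ hβ hα hFI hN (isIntegral_betaC h) (isIntegral_alphaC h)
    (fundamentalIdentity_betaC h) (normFormula_alphaC h) (isIntegral_betaC h)
    (isIntegral_alphaC h) (fundamentalIdentity_betaC h) (normFormula_alphaC h) hs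

end LevelMq

end Fermat.Agent.DR.Mod
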