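import Fermat.Agent.DR.Mod.KroneckerSpec
import Fermat.Agent.DR.Mod.Final
import Fermat.Agent.JRED.Torsion
import Fermat.Agent.JRED.ModularFF
import Fermat.Agent.JRED.Main

set_option autoImplicit false
set_option linter.unusedSectionVars false
set_option linter.style.haveILetI false

/-!
# The Kronecker congruences for divisor classes of `X₀(Mq)` at `q ∤ M`

* `alphaPush`, `betaPush : J₀(Mq) → J₀(M)`.
* `exists_placeRed`: the place map of `X₀(M)`; `redPic_torsion`: injectivity on torsion.
* `spec_alphaPush`: `Spec X m x y₁ y₂ → red (α_* x) = y₁ + φ y₂`, `spec_betaPush`.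
-/

noncomputable section

open AlgebraicCurve ModularCurve
open Fermat.Agent.JRED Fermat.Agent.RR
open Fermat.Agent.Jan.HeckeInputs

namespace Fermat.Agent.DR.Mod

section Push

variable (M q : ℕ) [NeZero M] [NeZero q]

/-- `α_* : J₀(Mq) → J₀(M)`. -/
def alphaPush : JZero (M * q) →+ JZero M :=
  pushPic (heckeAlphaBar (AlgebraicClosure ℚ) M q)
    (heckeAlphaBarIntegral (AlgebraicClosure ℚ) M q jAlg)
    (finiteAlong_heckeAlphaBar (AlgebraicClosure ℚ) M q jAlg)
    (haveI := isFF1_modular (AlgebraicClosure ℚ) jAlg M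
     haveI := hasPrincipalDivisors_modular (AlgebraicClosure ℚ) jAlg (M * q)
     Fermat.Agent.Jan.RelFundamental.normFormulaAlong (heckeAlphaBar (AlgebraicClosure ℚ) M q)
      (finiteAlong_heckeAlphaBar (AlgebraicClosure ℚ) M q jAlg))

/-- `β_* : J₀(Mq) → J₀(M)`. -/
def betaPush : JZero (M * q) →+ JZero M :=
  pushPic (heckeBetaBar (AlgebraicClosure ℚ) M q)
    (heckeBetaBarIntegral (AlgebraicClosure ℚ) M q jAlg)
    (finiteAlong_heckeBetaBar (AlgebraicClosure ℚ) M q jAlg)
    (haveI := isFF1_modular (AlgebraicClosure ℚ) jAlg M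
     haveI := hasPrincipalDivisors_modular (AlgebraicClosure ℚ) jAlg (M * q)
     Fermat.Agent.Jan.RelFundamental.normFormulaAlong (heckeBetaBar (AlgebraicClosure ℚ) M q)
      (finiteAlong_heckeBetaBar (AlgebraicClosure ℚ) M q jAlg))

theorem alphaPush_mk (D : Divisor.degZero (K := AlgebraicClosure ℚ)
    (F := modularFunctionFieldBar (M * q))) :
    alphaPush M q (Pic0.mk D) = Pic0.mk ⟨Divisor.pushforwardAlong
      (heckeAlphaBar (AlgebraicClosure ℚ) M q)
      (heckeAlphaBarIntegral (AlgebraicClosure ℚ) M q jAlg) (D : Divisor _ _),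
        Divisor.pushforwardAlong_mem_degZero _ _ D.2⟩ := rfl

theorem betaPush_mk (D : Divisor.degZero (K := AlgebraicClosure ℚ)
    (F := modularFunctionFieldBar (M * q))) :
    betaPush M q (Pic0.mk D) = Pic0.mk ⟨Divisor.pushforwardAlong
      (heckeBetaBar (AlgebraicClosure ℚ) M q)
      (heckeBetaBarIntegral (AlgebraicClosure ℚ) M q jAlg) (D : Divisor _ _),
        Divisor.pushforwardAlong_mem_degZero _ _ D.2⟩ := rfl

end Push

section Place

variable {A : ValuationSubring (AlgebraicClosure ℚ)} {k : Type} [Field k] {π : A →+* k}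
  {M : ℕ}

/-- A place map for the constant reduction is one for the reduction datum. -/
theorem placeRed_of_isPlaceMap (hD : DegreeInput M k) (hπ : Function.Surjective π)
    {r : Place (AlgebraicClosure ℚ) (modularFunctionFieldBar M) →
      Place k (modularFunctionFieldFullC k M)}
    (hr : (hD.constRed hπ).IsPlaceMap r) : PlaceRed (hD.redDatum hπ) r := by
  intro w u h hu D hDw Q
  have hm : w ∈ (hD.constRed hπ).O := ⟨u, h⟩
  have hres : (hD.constRed hπ).res ⟨w, hm⟩ = u :=
    (hD.redDatum hπ).unique (hD.constRed_res hπ ⟨w, hm⟩) h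
  rw [← hres]
  exact hr ⟨w, hm⟩ (by rw [hres]; exact hu) D hDw Q

theorem isPlaceMap_of_placeRed (hD : DegreeInput M k) (hπ : Function.Surjective π)
    {r : Place (AlgebraicClosure ℚ) (modularFunctionFieldBar M) →
      Place k (modularFunctionFieldFullC k M)}
    (hr : PlaceRed (hD.redDatum hπ) r) : (hD.constRed hπ).IsPlaceMap r := by
  intro f hf D hDf Q
  exact hr _ _ (hD.constRed_res hπ f) hf D hDf Q

theorem exists_placeRed (hD : DegreeInput M k) (hπ : Function.Surjective π)
    (hgood : GoodReduction M k) :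
    ∃ r : Place (AlgebraicClosure ℚ) (modularFunctionFieldBar M) →
      Place k (modularFunctionFieldFullC k M), PlaceRed (hD.redDatum hπ) r := by
  obtain ⟨r, hr⟩ := (hD.modularConstRed hπ).exists_isPlaceMap hπ hD hgood
  exact ⟨r, placeRed_of_isPlaceMap hD hπ hr⟩

variable [IsAlgClosed k] [FunctionField (AlgebraicClosure ℚ) (modularFunctionFieldBar M)]
  [FunctionField k (modularFunctionFieldFullC k M)]

/-- Degrees of places are `1`. -/
theorem deg_place_eq (r : Place (AlgebraicClosure ℚ) (modularFunctionFieldBar M) →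
      Place k (modularFunctionFieldFullC k M))
    (P : Place (AlgebraicClosure ℚ) (modularFunctionFieldBar M)) : (r P).deg = P.deg := by
  rw [deg_eq_one, deg_eq_one]

/-- Reduction is injective on torsion prime to the residue characteristic. -/
theorem redPic_torsion (hD : DegreeInput M k) (hπ : Function.Surjective π)
    (hgood : GoodReduction M k)
    {r : Place (AlgebraicClosure ℚ) (modularFunctionFieldBar M) →
      Place k (modularFunctionFieldFullC k M)}
    (hr : PlaceRed (hD.redDatum hπ) r) {m : ℕ} (hm : (m : k) ≠ 0) {x : JZero M}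
    (hmx : m • x = 0) (hx : redPic hr (deg_place_eq r) x = 0) : x = 0 := by
  obtain ⟨D, rfl⟩ := Pic0.mk_surjective x
  rw [redPic_mk] at hx
  have h1 : Divisor.IsPrincipal (Finsupp.mapDomain r (D : Divisor (AlgebraicClosure ℚ)
      (modularFunctionFieldBar M))) := pic0_mk_eq_zero_iff.mp hx
  have h2 : Divisor.IsPrincipal (m • (D : Divisor (AlgebraicClosure ℚ)
      (modularFunctionFieldBar M))) := by
    have h3 : (Pic0.mk (m • D) : JZero M) = 0 := hmx
    exact pic0_mk_eq_zero_iff.mp h3
  exact pic0_mk_eq_zero_iff.mpr ((hD.constRed hπ).isPrincipal_of_torsion hπ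
    (isPlaceMap_of_placeRed hD hπ hr) hgood hm _ (Divisor.mem_degZero.mp D.2) h2 h1)

end Place

section Spec

variable {A : ValuationSubring (AlgebraicClosure ℚ)} {k : Type} [Field k] {π : A →+* k}
  {M q : ℕ} [NeZero M] [hq : Fact q.Prime]
  {w : laurentBaseChange (AlgebraicClosure ℚ) (modularFunctionFieldFull (M * q)) ≃ₐ[AlgebraicClosure ℚ]
      laurentBaseChange (AlgebraicClosure ℚ) (modularFunctionFieldFull (M * q))}
  [FunctionField (AlgebraicClosure ℚ) (modularFunctionFieldBar (M * q))]
  [FunctionField (AlgebraicClosure ℚ) (modularFunctionFieldBar M)]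
  [FunctionField k (modularFunctionFieldFullC k M)] [IsAlgClosed k] [CharP k q]

variable {S : Setup π w}
  {X : NodalDatum (AlgebraicClosure ℚ) (modularFunctionFieldBar (M * q)) k
      (modularFunctionFieldFullC k M) (modularFunctionFieldFullC k M) A π}
  {r : Place (AlgebraicClosure ℚ) (modularFunctionFieldBar M) →
      Place k (modularFunctionFieldFullC k M)}

theorem kHyp_of_setup (S : Setup π w) (hqM : ¬ q ∣ M) : KHyp π w :=
  KHyp.of_not_dvd hq.out hqM S.al

/-- `red (α_* x) = y₁ + φ y₂`. -/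
theorem spec_alphaPush (hqM : ¬ q ∣ M) (hD : DegreeInput M k) (h1 : X.R₁ = redOne S)
    (h2 : X.R₂ = redTwo S) (hr : PlaceRed (hD.redDatum S.surj) r) {m : ℕ}
    {x : JZero (M * q)} {y₁ y₂ : JZeroC k M} (h : Spec X m x y₁ y₂) :
    redPic hr (deg_place_eq r) (alphaPush M q x) = y₁ + frobSemi k M q • y₂ := by
  have key := kron_alpha S (kHyp_of_setup S hqM) hD
  rw [← h1, ← h2] at key
  exact key.spec hr (deg_place_eq r) _ _ _ h

/-- `red (β_* x) = y₂ + φ y₁`. -/
theorem spec_betaPush (hqM : ¬ q ∣ M) (hD : DegreeInput M k) (h1 : X.R₁ = redOne S)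
    (h2 : X.R₂ = redTwo S) (hr : PlaceRed (hD.redDatum S.surj) r) {m : ℕ}
    {x : JZero (M * q)} {y₁ y₂ : JZeroC k M} (h : Spec X m x y₁ y₂) :
    redPic hr (deg_place_eq r) (betaPush M q x) = y₂ + frobSemi k M q • y₁ := by
  have key := kron_beta S (kHyp_of_setup S hqM) hD
  rw [← h1, ← h2] at key
  exact key.spec_swap hr (deg_place_eq r) _ _ _ h

end Spec

end Fermat.Agent.DR.Mod
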