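import Fermat.Agent.DR.Mod.Basic

set_option autoImplicit false
set_option linter.unusedSectionVars false

/-!
# Gauss reduction: descent along `t ↦ t^n`, twists, polynomials
-/

noncomputable section

open AlgebraicCurve ModularCurve Polynomial
open Fermat.Agent.JRED Fermat.Agent.S28

namespace Fermat.Agent.DR.Mod

section Comp

variable {R : Type*} [CommRing R] (n : ℕ) [NeZero n]

/-- The component of `a` with exponents `≡ r mod n`. -/
def compo (r : ℤ) (a : LaurentSeries R) : LaurentSeries R where
  coeff m := a.coeff (n * m + r)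
  isPWO_support' := by
    have hn : (0 : ℤ) < n := by exact_mod_cast Nat.pos_of_ne_zero (NeZero.ne n)
    intro f
    obtain ⟨i, j, hij, h⟩ := a.isPWO_support (fun k => ⟨n * (f k : ℤ) + r, (f k).2⟩)
    refine ⟨i, j, hij, ?_⟩
    have h' : (n : ℤ) * (f i : ℤ) + r ≤ n * (f j : ℤ) + r := h
    show (f i : ℤ) ≤ f j
    nlinarith

theorem compo_coeff (r : ℤ) (a : LaurentSeries R) (m : ℤ) :
    (compo n r a).coeff m = a.coeff (n * m + r) := rfl

theorem compo_mul (r : ℤ) (x b : LaurentSeries R) :
    compo n r (qExpand R n x * b) = x * compo n r b := by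
  have hn0 : (n : ℤ) ≠ 0 := by exact_mod_cast NeZero.ne n
  ext m
  rw [compo_coeff, HahnSeries.coeff_mul, HahnSeries.coeff_mul]
  symm
  refine Finset.sum_bij_ne_zero (fun p _ _ => ((n : ℤ) * p.1, (n : ℤ) * p.2 + r)) ?_ ?_ ?_ ?_
  · rintro ⟨i, j⟩ h1 h2
    rw [Finset.mem_antidiagonal] at h1 ⊢
    obtain ⟨hi, hj, hij⟩ := h1
    refine ⟨?_, hj, ?_⟩
    · show (qExpand R n x).coeff ((n : ℤ) * i) ≠ 0
      rw [qExpand_coeff_mul]
      exact hi
    · simp only at hij ⊢
      rw [← hij]; ring
  · rintro ⟨i, j⟩ h1 h2 ⟨i', j'⟩ h1' h2' h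
    simp only [Prod.mk.injEq, add_left_inj, mul_eq_mul_left_iff, hn0, or_false] at h
    exact Prod.ext h.1 h.2
  · rintro ⟨i, j⟩ h1 h2
    rw [Finset.mem_antidiagonal] at h1
    obtain ⟨hi, hj, hij⟩ := h1
    simp only at hij h2
    have hdvd : (n : ℤ) ∣ i := by
      by_contra hnd
      exact hi (qExpand_coeff_of_not_dvd _ _ hnd)
    obtain ⟨i', rfl⟩ := hdvd
    have hj' : j = n * (m - i') + r := by linear_combination hij
    subst hj'
    rw [qExpand_coeff_mul] at h2
    refine ⟨(i', m - i'), ?_, ?_, rfl⟩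
    · rw [Finset.mem_antidiagonal]
      refine ⟨?_, hj, by simp⟩
      exact fun h => h2 (by rw [h, zero_mul])
    · exact h2
  · rintro ⟨i, j⟩ h1 h2
    rw [qExpand_coeff_mul, compo_coeff]

theorem compo_coeffMap {S : Type*} [CommRing S] (f : R →+* S) (r : ℤ) (a : LaurentSeries R) :
    compo n r (coeffMap f a) = coeffMap f (compo n r a) := by
  ext m
  rw [compo_coeff, coeffMap_coeff, coeffMap_coeff, compo_coeff]

theorem exists_compo_ne_zero {a : LaurentSeries R} (ha : a ≠ 0) : ∃ r : ℤ, compo n r a ≠ 0 := by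
  by_contra hcon
  push Not at hcon
  apply ha
  ext m
  have h := congrArg (fun x => HahnSeries.coeff x 0) (hcon m)
  simpa [compo_coeff] using h

end Comp

section Gauss

variable {K k : Type*} [Field K] [Field k] {A : ValuationSubring K} {π : A →+* k}

/-- Descent of Gauss reductions along `t ↦ t ^ n`. -/
theorem GRed.of_qExpand (n : ℕ) [NeZero n] {x : LaurentSeries K} {v : LaurentSeries k}
    (h : GRed π (ModularCurve.qExpand K n x) (ModularCurve.qExpand k n v)) : GRed π x v := by
  obtain ⟨a, b, hb, h1, h2⟩ := h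
  obtain ⟨r, hr⟩ := exists_compo_ne_zero n hb
  refine ⟨compo n r a, compo n r b, ?_, ?_, ?_⟩
  · rwa [← compo_coeffMap]
  · rw [← compo_coeffMap, ← compo_mul, h1, compo_coeffMap]
  · rw [← compo_coeffMap, ← compo_mul, h2, compo_coeffMap]

theorem GRed.sub {f f' : LaurentSeries K} {u u' : LaurentSeries k} (h : GRed π f u)
    (h' : GRed π f' u') : GRed π (f - f') (u - u') := by
  rw [sub_eq_add_neg, sub_eq_add_neg]
  exact h.add h'.neg

theorem GRed.prod {ι : Type*} {s : Finset ι} {w : ι → LaurentSeries K} {u : ι → LaurentSeries k}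
    (h : ∀ i ∈ s, GRed π (w i) (u i)) : GRed π (∏ i ∈ s, w i) (∏ i ∈ s, u i) := by
  classical
  induction s using Finset.induction_on with
  | empty => simpa using GRed.one
  | insert a s ha ih =>
    rw [Finset.prod_insert ha, Finset.prod_insert ha]
    exact GRed.mul (h a (Finset.mem_insert_self a s))
      (ih fun i hi => h i (Finset.mem_insert_of_mem hi))

/-- Twisting by a unit which is `1` modulo the maximal ideal does not change the reduction. -/
theorem GRed.twist {f : LaurentSeries K} {u : LaurentSeries k} (h : GRed π f u) (z : Aˣ)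
    (hz : π z = 1) : GRed π (twist (Units.map A.subtype.toMonoidHom z) f) u := by
  have hz1 : Units.map π.toMonoidHom z = 1 := Units.ext hz
  have key : ∀ c : LaurentSeries A, coeffMap π (S28.twist z c) = coeffMap π c := by
    intro c
    rw [Fermat.Agent.JRED.ES.coeffMap_twist, hz1, twist_one]
  obtain ⟨a, b, hb, h1, h2⟩ := h
  refine ⟨S28.twist z a, S28.twist z b, ?_, ?_, ?_⟩
  · rwa [key]
  · rw [Fermat.Agent.JRED.ES.coeffMap_twist, Fermat.Agent.JRED.ES.coeffMap_twist, ← map_mul, h1]
  · rw [key, key, h2]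

variable (π) in
/-- Coefficientwise Gauss reduction of polynomials. -/
def PRed (P : (LaurentSeries K)[X]) (p : (LaurentSeries k)[X]) : Prop :=
  ∀ n, GRed π (P.coeff n) (p.coeff n)

theorem PRed.mul {P P' : (LaurentSeries K)[X]} {p p' : (LaurentSeries k)[X]} (h : PRed π P p)
    (h' : PRed π P' p') : PRed π (P * P') (p * p') := by
  intro n
  rw [Polynomial.coeff_mul, Polynomial.coeff_mul]
  exact GRed.sum fun i _ => (h i.1).mul (h' i.2)

theorem PRed.one : PRed π 1 1 := by
  intro n
  rw [Polynomial.coeff_one, Polynomial.coeff_one]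
  split_ifs
  · exact GRed.one
  · exact GRed.zero

theorem PRed.X_sub_C {f : LaurentSeries K} {u : LaurentSeries k} (h : GRed π f u) :
    PRed π (X - C f) (X - C u) := by
  intro n
  rw [Polynomial.coeff_sub, Polynomial.coeff_sub, Polynomial.coeff_X, Polynomial.coeff_X,
    Polynomial.coeff_C, Polynomial.coeff_C]
  refine GRed.sub ?_ ?_
  · split_ifs
    · exact GRed.one
    · exact GRed.zero
  · split_ifs
    · exact h
    · exact GRed.zero

theorem PRed.prod {ι : Type*} {s : Finset ι} {w : ι → (LaurentSeries K)[X]}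
    {u : ι → (LaurentSeries k)[X]} (h : ∀ i ∈ s, PRed π (w i) (u i)) :
    PRed π (∏ i ∈ s, w i) (∏ i ∈ s, u i) := by
  classical
  induction s using Finset.induction_on with
  | empty => simpa using PRed.one
  | insert a s ha ih =>
    rw [Finset.prod_insert ha, Finset.prod_insert ha]
    exact PRed.mul (h a (Finset.mem_insert_self a s))
      (ih fun i hi => h i (Finset.mem_insert_of_mem hi))

end Gauss

end Fermat.Agent.DR.Mod
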