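import Fermat.Agent.DR.Mod.KroneckerBase
import Fermat.Agent.DR.Mod.GaussPoly
import Fermat.Agent.DR.Mod.Residue
import Fermat.Agent.JRED.AtkinLehnerInput

set_option autoImplicit false
set_option linter.unusedSectionVars false
set_option linter.style.haveILetI false

/-!
# Kronecker: reduction of norms and characteristic polynomials along `α`, `β : F_M → F_{Mq}`

`q ∤ M`, `F = F_{Mq}`, `w` the Atkin–Lehner automorphism, `R1L` the reduction of `q`-expansions,
`R2L = R1L ∘ w`, `φ = coeffMap (frobenius k q)` the coefficientwise `q`-Frobenius.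

* `red_norm_alpha`: if `c₁ f ↦ u₁` under `R1L` and `c₂ f ↦ u₂` under `R2L` then
  `c₁ c₂^q N_α(f) ↦ u₁ φ(u₂)`; `red_norm_beta`: `c₂ c₁^q N_β(f) ↦ u₂ φ(u₁)`.
* `red_charpoly_alpha`: if `f ↦ u₁` under `R1L` and `f ↦ u₂` under `R2L` then the characteristic
  polynomial of `f` along `α` is Gauss-integral and reduces to `(X - u₁) (X^q - φ(u₂))`.
-/

noncomputable section

open AlgebraicCurve ModularCurve Polynomial
open Fermat.Agent.JRED Fermat.Agent.S28 Fermat.Agent.Jan.HeckeNorm Fermat.Agent.Jan.HeckeInputs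
open Fermat.Agent.JRED.ES (inclL inclL_apply)

namespace Fermat.Agent.DR.Mod

section Roots

/-- A root of unity belongs to every valuation ring. -/
theorem exists_primitiveRoot_unit {L : Type*} [Field L] [IsAlgClosed L] [CharZero L]
    (A : ValuationSubring L) (n : ℕ) [NeZero n] : ∃ ζ : Aˣ, IsPrimitiveRoot ζ n := by
  haveI : NeZero (n : L) := ⟨by exact_mod_cast NeZero.ne n⟩
  obtain ⟨ζ, hζ⟩ := HasEnoughRootsOfUnity.exists_primitiveRoot L n
  have hmem : ∀ x : L, x ^ n = 1 → x ∈ A := by
    intro x hx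
    have hx0 : x ≠ 0 := by
      rintro rfl
      rw [zero_pow (NeZero.ne n)] at hx
      exact zero_ne_one hx
    rcases A.mem_or_inv_mem x with h | h
    · exact h
    · obtain ⟨m, hm⟩ : ∃ m, n = m + 1 := ⟨n - 1, (Nat.succ_pred_eq_of_ne_zero (NeZero.ne n)).symm⟩
      have h1 : x = (x⁻¹) ^ m := by
        rw [inv_pow]
        exact eq_inv_of_mul_eq_one_left (by rw [← pow_succ', ← hm, hx])
      rw [h1]
      exact pow_mem h m
  have h1 : ζ ∈ A := hmem ζ hζ.pow_eq_one
  have h2 : ζ⁻¹ ∈ A := hmem ζ⁻¹ (by rw [inv_pow, hζ.pow_eq_one, inv_one])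
  have h0 : ζ ≠ 0 := hζ.ne_zero (NeZero.ne n)
  let u : Aˣ := ⟨⟨ζ, h1⟩, ⟨ζ⁻¹, h2⟩, Subtype.ext (mul_inv_cancel₀ h0), Subtype.ext (inv_mul_cancel₀ h0)⟩
  refine ⟨u, ?_⟩
  have hinj : Function.Injective (A.subtype.toMonoidHom.comp (Units.coeHom A)) := by
    intro x y h
    exact Units.ext (Subtype.ext h)
  exact IsPrimitiveRoot.of_map_of_injective (f := A.subtype.toMonoidHom.comp (Units.coeHom A))
    (k := n) hζ hinj

end Roots

section Generation

variable {L : Type*} [Field L] [Algebra ℚ L]

/-- A subfield containing the constants and the `j(q^d)` contains `F_N`. -/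
theorem full_le {N : ℕ} {S : Subfield (LaurentSeries L)}
    (hc : ∀ c : L, algebraMap L (LaurentSeries L) c ∈ S)
    (hd : ∀ (d : ℕ) [NeZero d], d ∣ N → coeffEmb L (ModularCurve.qExpand ℚ d jq) ∈ S)
    {x : LaurentSeries L} (hx : x ∈ laurentBaseChange L (modularFunctionFieldFull N)) : x ∈ S := by
  rw [mem_laurentBaseChange_iff] at hx
  have hle : Subfield.closure (Set.range (algebraMap L (LaurentSeries L)) ∪
      (⇑(coeffEmb L) '' (modularFunctionFieldFull N : Set (LaurentSeries ℚ)))) ≤ S := by
    rw [Subfield.closure_le]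
    rintro _ (⟨c, rfl⟩ | ⟨z, hz, rfl⟩)
    · exact hc c
    · have hle2 : Subfield.closure (Set.range (algebraMap ℚ (LaurentSeries ℚ)) ∪
          divisorExpansions N) ≤ S.comap (coeffEmb L) := by
        rw [Subfield.closure_le]
        rintro _ (⟨c, rfl⟩ | ⟨d, hd0, hdN, rfl⟩)
        · show coeffEmb L _ ∈ S
          rw [coeffEmb_algebraMap]
          exact hc _
        · exact hd d hdN
      exact hle2 hz
  exact hle hx

variable {M q : ℕ} [NeZero M] [NeZero q]
  {w : laurentBaseChange L (modularFunctionFieldFull (M * q)) ≃ₐ[L]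
      laurentBaseChange L (modularFunctionFieldFull (M * q))}

/-- The Atkin–Lehner automorphism is an involution. -/
theorem IsAL.involutive (hw : IsAL w) (hq : q.Prime)
    (x : laurentBaseChange L (modularFunctionFieldFull (M * q))) : w (w x) = x := by
  let F := laurentBaseChange L (modularFunctionFieldFull (M * q))
  let e1 : F →+* F := (w : F →+* F).comp (w : F →+* F)
  let S : Subfield (LaurentSeries L) := (e1.eqLocusField (RingHom.id F)).map (inclL L (M * q))
  have hα : ∀ y, w (w (heckeAlphaBar L M q y)) = heckeAlphaBar L M q y := by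
    intro y; rw [hw.alpha, hw.beta]
  have hβ : ∀ y, w (w (heckeBetaBar L M q y)) = heckeBetaBar L M q y := by
    intro y; rw [hw.beta, hw.alpha]
  have key : (x : LaurentSeries L) ∈ S := by
    refine full_le (N := M * q) ?_ ?_ x.2
    · intro c
      refine ⟨algebraMap L F c, ?_, rfl⟩
      show w (w (algebraMap L F c)) = algebraMap L F c
      rw [AlgEquiv.commutes, AlgEquiv.commutes]
    · intro d _ hd
      rcases Fermat.Agent.JRED.AL.dvd_cases hq hd with h | ⟨d', h, rfl⟩
      · refine ⟨heckeAlphaBar L M q ⟨coeffEmb L (ModularCurve.qExpand ℚ d jq),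
          coeffEmb_mem_laurentBaseChange _ (jqd_mem_full M h)⟩, hα _, ?_⟩
        rw [inclL_apply, coe_heckeAlphaBar]
      · haveI : NeZero d' := ⟨fun h0 => NeZero.ne (q * d') (by rw [h0, mul_zero])⟩
        refine ⟨heckeBetaBar L M q ⟨coeffEmb L (ModularCurve.qExpand ℚ d' jq),
          coeffEmb_mem_laurentBaseChange _ (jqd_mem_full M h)⟩, hβ _, ?_⟩
        rw [inclL_apply, coe_heckeBetaBar]
        simp only
        rw [coeffEmb_qExpand_jq, coeffEmb_qExpand_jq, ← coeffMap_qExpand]
        rw [jZ, jZ, qExpand_qExpand]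
  obtain ⟨y, hy, hyx⟩ := key
  have : y = x := Subtype.ext hyx
  rw [← this]
  exact hy

end Generation

section Embeddings

variable {L : Type*} [Field L] [Algebra ℚ L] {M q : ℕ} [NeZero M] [NeZero q]
  {w : laurentBaseChange L (modularFunctionFieldFull (M * q)) ≃ₐ[L]
      laurentBaseChange L (modularFunctionFieldFull (M * q))}

/-- The `q + 1` embeddings of `F_{Mq}` into `L((t))` over `f ↦ f(t^q)`, `f ∈ F_M`. -/
theorem exists_embeddings (hq : q.Prime) (hw : IsAL w)
    (hdeg : finrankAlong L (heckeAlphaBar L M q) = q + 1) {ζ : Lˣ} (hζ : IsPrimitiveRoot ζ q) :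
    ∃ ι : Option (Fin q) →
        (laurentBaseChange L (modularFunctionFieldFull (M * q)) →+* LaurentSeries L),
      (∀ i x, ι i (heckeAlphaBar L M q x) = ((ModularCurve.qExpand L q).comp (inclL L M)) x) ∧
      Function.Injective ι ∧
      Fintype.card (Option (Fin q)) = finrankAlong L (heckeAlphaBar L M q) ∧
      (∀ x, ι none x = ModularCurve.qExpand L q (x : LaurentSeries L)) ∧
      ∀ b x, ι (some b) x = twist (ζ ^ (b : ℕ)) (w x : LaurentSeries L) := by
  have hj : ∀ b : Fin q, (twist (ζ ^ (b : ℕ)) (inclL L M (ES.jB L M))).coeff (-1) =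
      (((ζ ^ (b : ℕ))⁻¹ : Lˣ) : L) := by
    intro b
    rw [twist_coeff, zpow_neg_one, inclL_apply, ES.coe_jB, ES.coeff_jL_neg_one, mul_one]
  have hj0 : (ModularCurve.qExpand L q (ModularCurve.qExpand L q
      (inclL L M (ES.jB L M)))).coeff (-1) = 0 := by
    apply qExpand_coeff_of_not_dvd
    intro h
    have h1 : (q : ℤ) ∣ 1 := by simpa using h
    have h2 : q ∣ 1 := by exact_mod_cast h1
    exact hq.one_lt.ne' (Nat.dvd_one.mp h2)
  have hts : ∀ (b : Fin q) (x : LaurentSeries L),
      twist (ζ ^ (b : ℕ)) (ModularCurve.qExpand L q x) = ModularCurve.qExpand L q x := by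
    intro b x
    apply twist_qExpand_of_pow_eq_one
    rw [← pow_mul, mul_comm, pow_mul, hζ.pow_eq_one, one_pow]
  let ι : Option (Fin q) →
      (laurentBaseChange L (modularFunctionFieldFull (M * q)) →+* LaurentSeries L) := fun o =>
    o.elim ((ModularCurve.qExpand L q).comp (inclL L (M * q)))
      (fun b => (twist (ζ ^ (b : ℕ))).comp ((inclL L (M * q)).comp (w : _ →+* _)))
  have hnone : ∀ x, ι none x = ModularCurve.qExpand L q (x : LaurentSeries L) := fun _ => rfl
  have hsome : ∀ b x, ι (some b) x = twist (ζ ^ (b : ℕ)) (w x : LaurentSeries L) := fun _ _ => rfl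
  have hnone' : ∀ x, ι none (heckeBetaBar L M q x) =
      ModularCurve.qExpand L q (ModularCurve.qExpand L q (inclL L M x)) := fun x => by
    rw [hnone, coe_heckeBetaBar]; rfl
  have hsome' : ∀ b x, ι (some b) (heckeBetaBar L M q x) =
      twist (ζ ^ (b : ℕ)) (inclL L M x) := fun b x => by
    rw [hsome, hw.beta, coe_heckeAlphaBar]; rfl
  refine ⟨ι, ?_, ?_, ?_, hnone, hsome⟩
  · rintro (_ | b) x
    · rw [hnone, coe_heckeAlphaBar]; rfl
    · rw [hsome, hw.alpha, coe_heckeBetaBar, hts]; rfl
  · rintro (_ | b) (_ | c) h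
    · rfl
    · exfalso
      have h1 := hsome' c (ES.jB L M)
      rw [← h, hnone'] at h1
      have h2 := hj c
      rw [← h1, hj0] at h2
      exact Units.ne_zero _ h2.symm
    · exfalso
      have h1 := hsome' b (ES.jB L M)
      rw [h, hnone'] at h1
      have h2 := hj b
      rw [← h1, hj0] at h2
      exact Units.ne_zero _ h2.symm
    · have h1 := hsome' b (ES.jB L M)
      rw [h, hsome'] at h1
      have h2 := hj b
      rw [← h1, hj c] at h2
      have h3 : ζ ^ (c : ℕ) = ζ ^ (b : ℕ) := inv_injective (Units.ext h2)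
      rw [Fin.ext (hζ.pow_inj c.2 b.2 h3)]
  · rw [hdeg, Fintype.card_option, Fintype.card_fin]

/-- `N_α(f)(t^q) = f(t^q) ∏_b (w f)(ζ^b t)`. -/
theorem qExpand_normAlong_alpha (hq : q.Prime) (hw : IsAL w)
    (hdeg : finrankAlong L (heckeAlphaBar L M q) = q + 1) {ζ : Lˣ} (hζ : IsPrimitiveRoot ζ q)
    (f : laurentBaseChange L (modularFunctionFieldFull (M * q))) :
    ModularCurve.qExpand L q (normAlong (heckeAlphaBar L M q) f : LaurentSeries L) =
      ModularCurve.qExpand L q (f : LaurentSeries L) *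
        ∏ b : Fin q, twist (ζ ^ (b : ℕ)) (w f : LaurentSeries L) := by
  haveI : CharZero L := charZero_of_injective_algebraMap (algebraMap ℚ L).injective
  obtain ⟨ι, hι, hinj, hcard, hnone, hsome⟩ := exists_embeddings hq hw hdeg hζ
  have key := ES.map_normAlong_eq_prod (heckeAlphaBar L M q)
    (finiteAlong_heckeAlphaBar L M q Fermat.Agent.Jan.DegreeWiring.jAlg)
    ((ModularCurve.qExpand L q).comp (inclL L M)) ι hι hinj hcard f
  rw [Fintype.prod_option, hnone] at key
  simp only [hsome] at key
  exact key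

theorem map_charpolyAlong_alpha (hq : q.Prime) (hw : IsAL w)
    (hfin : FiniteAlong L (heckeAlphaBar L M q))
    (hdeg : finrankAlong L (heckeAlphaBar L M q) = q + 1) {ζ : Lˣ} (hζ : IsPrimitiveRoot ζ q)
    (f : laurentBaseChange L (modularFunctionFieldFull (M * q))) :
    (charpolyAlong (heckeAlphaBar L M q) hfin f).map
        ((ModularCurve.qExpand L q).comp (inclL L M)) =
      (X - C (ModularCurve.qExpand L q (f : LaurentSeries L))) *
        ∏ b : Fin q, (X - C (twist (ζ ^ (b : ℕ)) (w f : LaurentSeries L))) := by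
  haveI : CharZero L := charZero_of_injective_algebraMap (algebraMap ℚ L).injective
  obtain ⟨ι, hι, hinj, hcard, hnone, hsome⟩ := exists_embeddings hq hw hdeg hζ
  have key := map_charpolyAlong_eq_prod (heckeAlphaBar L M q) hfin
    ((ModularCurve.qExpand L q).comp (inclL L M)) ι hι hinj hcard f
  rw [Fintype.prod_option, hnone] at key
  simp only [hsome] at key
  exact key

end Embeddings

section Reduction

variable {L : Type*} [Field L] [Algebra ℚ L] {k : Type*} [Field k] {A : ValuationSubring L}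
  {π : A →+* k} {M q : ℕ} [NeZero M] [NeZero q]
  {w : laurentBaseChange L (modularFunctionFieldFull (M * q)) ≃ₐ[L]
      laurentBaseChange L (modularFunctionFieldFull (M * q))}

/-- Hypotheses for the Kronecker congruences. -/
structure KHyp (π : A →+* k) (w : laurentBaseChange L (modularFunctionFieldFull (M * q)) ≃ₐ[L]
      laurentBaseChange L (modularFunctionFieldFull (M * q))) : Prop where
  prime : q.Prime
  al : IsAL w
  deg : finrankAlong L (heckeAlphaBar L M q) = q + 1
  root : ∃ ζ : Aˣ, IsPrimitiveRoot ζ q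

theorem root_red [ExpChar k q] {ζ : Aˣ} (hζ : IsPrimitiveRoot ζ q) (b : ℕ) :
    π (ζ ^ b : Aˣ) = 1 := by
  have h1 : (π ζ - 1) ^ q = 0 := by
    rw [sub_pow_expChar, one_pow, ← map_pow, ← Units.val_pow_eq_pow_val, hζ.pow_eq_one,
      Units.val_one, map_one, sub_self]
  have h2 : π ζ = 1 := sub_eq_zero.mp (pow_eq_zero_iff (NeZero.ne q) |>.mp h1)
  rw [Units.val_pow_eq_pow_val, map_pow, h2, one_pow]

theorem map_root {ζ : Aˣ} (hζ : IsPrimitiveRoot ζ q) :
    IsPrimitiveRoot (Units.map A.subtype.toMonoidHom ζ) q :=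
  hζ.map_of_injective (f := Units.map A.subtype.toMonoidHom)
    (Units.map_injective Subtype.val_injective)

variable [ExpChar k q] (H : KHyp (M := M) (q := q) π w)
include H

/-- The conjugates `(w f)(ζ^b t)` have the same reduction. -/
theorem KHyp.red_twist {x : LaurentSeries L} {u : LaurentSeries k} (h : GRed π x u)
    {ζ : Aˣ} (hζ : IsPrimitiveRoot ζ q) (b : ℕ) :
    GRed π (twist ((Units.map A.subtype.toMonoidHom ζ) ^ b) x) u := by
  have h1 := GRed.twist h (ζ ^ b) (root_red hζ b)
  rwa [map_pow] at h1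

omit H in
theorem gauss_norm {ζ : Aˣ} (hζ : IsPrimitiveRoot ζ q) {x y N : LaurentSeries L} {c₁ c₂ : L}
    {u₁ u₂ : LaurentSeries k}
    (h1 : GRed π (algebraMap L (LaurentSeries L) c₁ * x) u₁)
    (h2 : GRed π (algebraMap L (LaurentSeries L) c₂ * y) u₂)
    (hN : ModularCurve.qExpand L q N = ModularCurve.qExpand L q x *
      ∏ b : Fin q, twist ((Units.map A.subtype.toMonoidHom ζ) ^ (b : ℕ)) y) :
    GRed π (algebraMap L (LaurentSeries L) (c₁ * c₂ ^ q) * N)
      (u₁ * coeffMap (frobenius k q) u₂) := by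
  apply GRed.of_qExpand q
  rw [map_mul (ModularCurve.qExpand k q), ← ES.laurent_pow_char]
  have h4 := (GRed.qExpand h1 q).mul (GRed.prod (s := Finset.univ) (w := fun b : Fin q =>
    twist ((Units.map A.subtype.toMonoidHom ζ) ^ (b : ℕ))
      (algebraMap L (LaurentSeries L) c₂ * y)) (u := fun _ => u₂)
    fun b _ => by
      have h5 := GRed.twist h2 (ζ ^ (b : ℕ)) (root_red hζ b)
      rwa [map_pow] at h5)
  rw [Finset.prod_const, Finset.card_univ, Fintype.card_fin] at h4
  have hC : ∀ (z : Lˣ) (c : L), twist z (algebraMap L (LaurentSeries L) c) =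
      algebraMap L (LaurentSeries L) c := by
    intro z c
    rw [algebraMap_eq_C, twist_C]
  have hC' : ∀ c : L, ModularCurve.qExpand L q (algebraMap L (LaurentSeries L) c) =
      algebraMap L (LaurentSeries L) c := by
    intro c
    rw [algebraMap_laurentSeries_eq_single, qExpand_single, mul_zero]
  convert h4 using 1
  rw [map_mul (ModularCurve.qExpand L q), map_mul (ModularCurve.qExpand L q), hN, hC', hC']
  simp only [map_mul (twist _), hC, Finset.prod_mul_distrib, Finset.prod_const, Finset.card_univ,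
    Fintype.card_fin]
  rw [map_mul (algebraMap L (LaurentSeries L)), map_pow]
  ring

omit [ExpChar k q] H in
theorem red_smul_iff {N : ℕ} {f : laurentBaseChange L (modularFunctionFieldFull N)} {c : L}
    {u : LaurentSeries k} :
    (redL π N).Red (algebraMap L _ c * f) u ↔
      GRed π (algebraMap L (LaurentSeries L) c * (f : LaurentSeries L)) u := Iff.rfl

/-- **Kronecker, norms along `α`.** -/
theorem KHyp.red_norm_alpha {f : laurentBaseChange L (modularFunctionFieldFull (M * q))}
    {c₁ c₂ : L} {u₁ u₂ : LaurentSeries k}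
    (h1 : (R1L π M q).Red (algebraMap L _ c₁ * f) u₁)
    (h2 : (R2L π w).Red (algebraMap L _ c₂ * f) u₂) :
    (redL π M).Red (algebraMap L _ (c₁ * c₂ ^ q) * normAlong (heckeAlphaBar L M q) f)
      (u₁ * coeffMap (frobenius k q) u₂) := by
  obtain ⟨ζ, hζ⟩ := H.root
  have h1' : GRed π (algebraMap L (LaurentSeries L) c₁ * (f : LaurentSeries L)) u₁ := h1
  have h2' : GRed π (algebraMap L (LaurentSeries L) c₂ * (w f : LaurentSeries L)) u₂ := by
    have h3 : GRed π (w (algebraMap L _ c₂ * f) : LaurentSeries L) u₂ := h2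
    rw [map_mul, AlgEquiv.commutes] at h3
    exact h3
  rw [red_smul_iff]
  exact gauss_norm hζ h1' h2' (qExpand_normAlong_alpha H.prime H.al H.deg (map_root hζ) f)

/-- **Kronecker, norms along `β`.** -/
theorem KHyp.red_norm_beta {f : laurentBaseChange L (modularFunctionFieldFull (M * q))}
    {c₁ c₂ : L} {u₁ u₂ : LaurentSeries k}
    (h1 : (R1L π M q).Red (algebraMap L _ c₁ * f) u₁)
    (h2 : (R2L π w).Red (algebraMap L _ c₂ * f) u₂) :
    (redL π M).Red (algebraMap L _ (c₂ * c₁ ^ q) * normAlong (heckeBetaBar L M q) f)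
      (u₂ * coeffMap (frobenius k q) u₁) := by
  have h3 : normAlong (heckeBetaBar L M q) f = normAlong (heckeAlphaBar L M q) (w f) := by
    conv_lhs => rw [← H.al.involutive H.prime f]
    exact normAlong_swap _ _ w H.al.alpha (w f)
  rw [h3]
  apply H.red_norm_alpha
  · rw [R1L_red]
    rw [R2L_red, map_mul, AlgEquiv.commutes] at h2
    exact h2
  · rw [R2L_red, map_mul, AlgEquiv.commutes, H.al.involutive H.prime]
    exact h1

/-- **Kronecker, characteristic polynomials along `α`.** -/
theorem KHyp.red_charpoly_alpha (hfin : FiniteAlong L (heckeAlphaBar L M q))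
    {f : laurentBaseChange L (modularFunctionFieldFull (M * q))} {u₁ u₂ : LaurentSeries k}
    (h1 : (R1L π M q).Red f u₁) (h2 : (R2L π w).Red f u₂) (n : ℕ) :
    (redL π M).Red ((charpolyAlong (heckeAlphaBar L M q) hfin f).coeff n)
      (((X - C u₁) * (X ^ q - C (coeffMap (frobenius k q) u₂))).coeff n) := by
  obtain ⟨ζ, hζ⟩ := H.root
  apply GRed.of_qExpand q
  have h4 := PRed.mul (PRed.X_sub_C (GRed.qExpand h1 q)) (PRed.prod (s := Finset.univ)
    (w := fun b : Fin q => X - C (twist ((Units.map A.subtype.toMonoidHom ζ) ^ (b : ℕ))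
      (w f : LaurentSeries L)))
    fun b _ => PRed.X_sub_C (H.red_twist h2 hζ b))
  rw [Finset.prod_const, Finset.card_univ, Fintype.card_fin,
    ← map_charpolyAlong_alpha H.prime H.al hfin H.deg (map_root hζ)] at h4
  have h5 := h4 n
  rw [Polynomial.coeff_map] at h5
  have h6 : ((X - C (ModularCurve.qExpand k q u₁)) * (X - C u₂) ^ q : (LaurentSeries k)[X]) =
      ((X - C u₁) * (X ^ q - C (coeffMap (frobenius k q) u₂))).map
        (ModularCurve.qExpand k q) := by
    haveI : ExpChar (LaurentSeries k) q := expChar_of_injective_algebraMap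
      (algebraMap k (LaurentSeries k)).injective q
    rw [sub_pow_expChar, Polynomial.map_mul, Polynomial.map_sub, Polynomial.map_sub,
      Polynomial.map_pow, Polynomial.map_X, Polynomial.map_C, Polynomial.map_C,
      ← ES.laurent_pow_char, ← C_pow]
  rw [h6, Polynomial.coeff_map] at h5
  exact h5

/-- **Kronecker, characteristic polynomials along `β`.** -/
theorem KHyp.red_charpoly_beta (hfin : FiniteAlong L (heckeBetaBar L M q))
    {f : laurentBaseChange L (modularFunctionFieldFull (M * q))} {u₁ u₂ : LaurentSeries k}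
    (h1 : (R1L π M q).Red f u₁) (h2 : (R2L π w).Red f u₂) (n : ℕ) :
    (redL π M).Red ((charpolyAlong (heckeBetaBar L M q) hfin f).coeff n)
      (((X - C u₂) * (X ^ q - C (coeffMap (frobenius k q) u₁))).coeff n) := by
  haveI : CharZero L := charZero_of_injective_algebraMap (algebraMap ℚ L).injective
  have hfinα := finiteAlong_heckeAlphaBar L M q Fermat.Agent.Jan.DegreeWiring.jAlg
  have h3 : charpolyAlong (heckeBetaBar L M q) hfin f =
      charpolyAlong (heckeAlphaBar L M q) hfinα (w f) := by
    conv_lhs => rw [← H.al.involutive H.prime f]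
    exact charpolyAlong_swap _ _ hfinα hfin w H.al.alpha (w f)
  rw [h3]
  apply H.red_charpoly_alpha
  · exact h2
  · rw [R2L_red, H.al.involutive H.prime]
    exact h1

end Reduction

section Existence

variable {L : Type} [Field L] [Algebra ℚ L] [IsAlgClosed L] {k : Type*} [Field k]
  {A : ValuationSubring L} {π : A →+* k} {M q : ℕ} [NeZero M] [NeZero q]
  {w : laurentBaseChange L (modularFunctionFieldFull (M * q)) ≃ₐ[L]
      laurentBaseChange L (modularFunctionFieldFull (M * q))}

theorem KHyp.of_not_dvd (hq : q.Prime) (hqM : ¬ q ∣ M) (hw : IsAL w) :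
    KHyp (M := M) (q := q) π w := by
  haveI : CharZero L := charZero_of_injective_algebraMap (algebraMap ℚ L).injective
  exact ⟨hq, hw, Fermat.Agent.JRED.AL.finrankAlong_alpha_of_not_dvd L M q hq hqM,
    exists_primitiveRoot_unit A q⟩

end Existence

end Fermat.Agent.DR.Mod
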