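import Fermat.Agent.DR.Mod.PlacePairs
import Fermat.Agent.DR.Mod.Kronecker
import Fermat.Agent.DR.Mod.Final

set_option autoImplicit false

/-!
# The place pairs of `X₀(Mq)` at `q ∤ M`
-/

noncomputable section

open AlgebraicCurve Fermat.Agent.RR Fermat.Agent.JRED ModularCurve IntermediateField
open Fermat.Agent.DR.Mono Fermat.Agent.Jan.HeckeNorm Fermat.Agent.Jan.HeckeInputs
  Fermat.Agent.Jan.DegreeWiring Fermat.Agent.DR.Mod2

namespace Fermat.Agent.DR.Mod

variable {A : ValuationSubring (AlgebraicClosure ℚ)} {k : Type} [Field k] {π : A →+* k}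
  {M q : ℕ} [NeZero M] [hq : Fact q.Prime] [IsAlgClosed k] [CharP k q]
  {w : laurentBaseChange (AlgebraicClosure ℚ) (modularFunctionFieldFull (M * q)) ≃ₐ[AlgebraicClosure ℚ]
      laurentBaseChange (AlgebraicClosure ℚ) (modularFunctionFieldFull (M * q))}

/-- Kronecker's congruence for norms along `α`, with values in `F̄_M`. -/
theorem kronecker_alpha (S : Setup π w) (hdeg : DegreeInput M k) (hqM : ¬ q ∣ M)
    (c₁ c₂ : AlgebraicClosure ℚ) (f : modularFunctionFieldBar (M * q))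
    (u₁ u₂ : modularFunctionFieldFullC k M)
    (h1 : (redOne S).Red (algebraMap (AlgebraicClosure ℚ) _ c₁ * f) u₁)
    (h2 : (redTwo S).Red (algebraMap (AlgebraicClosure ℚ) _ c₂ * f) u₂) :
    (hdeg.redDatum S.surj).Red (algebraMap (AlgebraicClosure ℚ) _ (c₁ * c₂ ^ q) *
      normAlong (heckeAlphaBar (AlgebraicClosure ℚ) M q) f) (u₁ * frobSemi k M q • u₂) :=
  KHyp.red_norm_alpha (KHyp.of_not_dvd hq.out hqM S.al) h1 h2

/-- Kronecker's congruence for norms along `β`, with values in `F̄_M`. -/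
theorem kronecker_beta (S : Setup π w) (hdeg : DegreeInput M k) (hqM : ¬ q ∣ M)
    (c₁ c₂ : AlgebraicClosure ℚ) (f : modularFunctionFieldBar (M * q))
    (u₁ u₂ : modularFunctionFieldFullC k M)
    (h1 : (redOne S).Red (algebraMap (AlgebraicClosure ℚ) _ c₁ * f) u₁)
    (h2 : (redTwo S).Red (algebraMap (AlgebraicClosure ℚ) _ c₂ * f) u₂) :
    (hdeg.redDatum S.surj).Red (algebraMap (AlgebraicClosure ℚ) _ (c₂ * c₁ ^ q) *
      normAlong (heckeBetaBar (AlgebraicClosure ℚ) M q) f) (u₂ * frobSemi k M q • u₁) :=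
  KHyp.red_norm_beta (KHyp.of_not_dvd hq.out hqM S.al) h1 h2

variable [HasPrincipalDivisors (AlgebraicClosure ℚ) (modularFunctionFieldBar (M * q))]
  {r : Place (AlgebraicClosure ℚ) (modularFunctionFieldBar M) →
    Place k (modularFunctionFieldFullC k M)}

/-- The place pair `(s, φ⁻¹ s)` over a place `s` of `F̄_M`, along `α`. -/
def pairAlpha (S : Setup π w) (hdeg : DegreeInput M k) (hqM : ¬ q ∣ M)
    (hr : PlaceRed (hdeg.redDatum S.surj) r) (s : Place k (modularFunctionFieldFullC k M)) :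
    PlacePair (redOne S) (redTwo S) :=
  haveI := isFF1_modular' (AlgebraicClosure ℚ) M
  placePair S.surj (heckeAlphaBar (AlgebraicClosure ℚ) M q)
    (heckeAlphaBarIntegral (AlgebraicClosure ℚ) M q Fermat.Agent.Jan.DegreeWiring.jAlg)
    (finiteAlong_heckeAlphaBar (AlgebraicClosure ℚ) M q Fermat.Agent.Jan.DegreeWiring.jAlg) hr (frobSemi k M q) q
    (kronecker_alpha S hdeg hqM) s

/-- The place pair `(φ⁻¹ t, t)` over a place `t` of `F̄_M`, along `β`. -/
def pairBeta (S : Setup π w) (hdeg : DegreeInput M k) (hqM : ¬ q ∣ M)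
    (hr : PlaceRed (hdeg.redDatum S.surj) r) (t : Place k (modularFunctionFieldFullC k M)) :
    PlacePair (redOne S) (redTwo S) :=
  haveI := isFF1_modular' (AlgebraicClosure ℚ) M
  (placePair S.surj (heckeBetaBar (AlgebraicClosure ℚ) M q)
    (heckeBetaBarIntegral (AlgebraicClosure ℚ) M q Fermat.Agent.Jan.DegreeWiring.jAlg)
    (finiteAlong_heckeBetaBar (AlgebraicClosure ℚ) M q Fermat.Agent.Jan.DegreeWiring.jAlg) hr (frobSemi k M q) q
    (fun c₁ c₂ f u₁ u₂ h1 h2 => kronecker_beta S hdeg hqM c₂ c₁ f u₂ u₁ h2 h1) t).swap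

section

variable (S : Setup π w) (hdeg : DegreeInput M k) (hqM : ¬ q ∣ M)
    (hr : PlaceRed (hdeg.redDatum S.surj) r) (s : Place k (modularFunctionFieldFullC k M))

theorem pairAlpha_s₁ : (pairAlpha S hdeg hqM hr s).s₁ = s := rfl

theorem pairAlpha_s₂ : (pairAlpha S hdeg hqM hr s).s₂ = (frobSemi k M q)⁻¹ • s := rfl

theorem mem_pairAlpha_Ann {P : Place (AlgebraicClosure ℚ) (modularFunctionFieldBar (M * q))} :
    P ∈ (pairAlpha S hdeg hqM hr s).Ann ↔
      r (P.restrictAlong (heckeAlphaBar (AlgebraicClosure ℚ) M q)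
        (heckeAlphaBarIntegral (AlgebraicClosure ℚ) M q Fermat.Agent.Jan.DegreeWiring.jAlg)) = s := Iff.rfl

theorem pairBeta_s₁ : (pairBeta S hdeg hqM hr s).s₁ = (frobSemi k M q)⁻¹ • s := rfl

theorem pairBeta_s₂ : (pairBeta S hdeg hqM hr s).s₂ = s := rfl

theorem mem_pairBeta_Ann {P : Place (AlgebraicClosure ℚ) (modularFunctionFieldBar (M * q))} :
    P ∈ (pairBeta S hdeg hqM hr s).Ann ↔
      r (P.restrictAlong (heckeBetaBar (AlgebraicClosure ℚ) M q)
        (heckeBetaBarIntegral (AlgebraicClosure ℚ) M q Fermat.Agent.Jan.DegreeWiring.jAlg)) = s := Iff.rfl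

end

end Fermat.Agent.DR.Mod
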