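import Fermat.Agent.DR.Mono.Inst
import Fermat.Agent.DR.Mod.ModPairs
import Fermat.Agent.JRED.Main

set_option autoImplicit false
set_option linter.unusedSectionVars false

/-!
# The `MonoPair` of `X₀(Mq)` at `q ∤ M`
-/

noncomputable section

open AlgebraicCurve Fermat.Agent.RR Fermat.Agent.JRED ModularCurve IntermediateField
open Fermat.Agent.DR.Mono Fermat.Agent.Jan.HeckeNorm Fermat.Agent.Jan.HeckeInputs
  Fermat.Agent.DR.Mod2 Fermat.Agent.DR.Nodes

namespace Fermat.Agent.DR.Mod

theorem PoleBound.mem_iff {K F : Type*} [Field K] [Field F] [Algebra K F] {q : ℕ} {x y : F}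
    (h : PoleBound K q x y) (hq : q ≠ 0) (P : Place K F) :
    x ∈ P.toValuationSubring ↔ y ∈ P.toValuationSubring := by
  rw [Fermat.FF.mem_iff_val_le_one, Fermat.FF.mem_iff_val_le_one]
  refine ⟨h.small P, fun hy => ?_⟩
  by_contra hx
  rw [not_le] at hx
  rcases h.large P hx with ⟨h1, -⟩ | h1
  · rw [h1] at hy
    exact absurd hy (not_le.mpr (one_lt_pow₀ hx hq))
  · rw [h1] at hx
    exact absurd (pow_le_one' hy q) (not_le.mpr hx)

section

variable {K G k Gb : Type*} [Field K] [Field G] [Algebra K G] [Field k]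
    [Field Gb] [Algebra k Gb] {A : ValuationSubring K} {π : A →+* k} {R : RedDatum K G k Gb A π}
    {g g' : ℤ} {r : Place K G → Place k Gb}

theorem degree_mapDomain_curve (hG : CurveFacts K G g) (hGb : CurveFacts k Gb g') (D : Divisor K G) :
    Divisor.degree (Finsupp.mapDomain r D : Divisor k Gb) = Divisor.degree D := by
  rw [hG.degree_eq_sum, hGb.degree_eq_sum, Finsupp.sum_mapDomain_index]
  · exact fun _ => rfl
  · exact fun _ _ _ => rfl

/-- `r_* (x)_∞ = (x̄)_∞` if the degrees agree. -/
theorem mapDomain_polesOf [HasPrincipalDivisors K G] [HasPrincipalDivisors k Gb]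
    (hG : CurveFacts K G g) (hGb : CurveFacts k Gb g') (hr : PlaceRed R r) {x : G} {xb : Gb}
    (hx : R.Red x xb) (hxb : xb ≠ 0)
    (hdeg : Divisor.degree (polesOf (K := K) x) = Divisor.degree (polesOf (K := k) xb)) :
    Finsupp.mapDomain r (polesOf (K := K) x) = polesOf (K := k) xb := by
  symm
  refine hGb.eq_of_le_of_degree (fun Q => polesOf_le_mapDomain hr hx hxb Q) ?_
  rw [degree_mapDomain_curve hG hGb, hdeg]

end

section Modular

variable {A : ValuationSubring (AlgebraicClosure ℚ)} {k : Type} [Field k] {π : A →+* k}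
  {M q : ℕ} [NeZero M] [hq : Fact q.Prime] [IsAlgClosed k] [hchar : CharP k q]
  {w : laurentBaseChange (AlgebraicClosure ℚ) (modularFunctionFieldFull (M * q)) ≃ₐ[AlgebraicClosure ℚ]
      laurentBaseChange (AlgebraicClosure ℚ) (modularFunctionFieldFull (M * q))}
  [FunctionField (AlgebraicClosure ℚ) (modularFunctionFieldBar (M * q))]
  [FunctionField (AlgebraicClosure ℚ) (modularFunctionFieldBar M)]
  [FunctionField k (modularFunctionFieldFullC k M)]
  {r : Place (AlgebraicClosure ℚ) (modularFunctionFieldBar M) →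
    Place k (modularFunctionFieldFullC k M)}

omit [FunctionField (AlgebraicClosure ℚ) (modularFunctionFieldBar (M * q))] in
theorem map_poles_modular (S : Setup π w) (hqM : ¬ q ∣ M) (hdeg : DegreeInput M k)
    (hgood : GoodReduction M k) (hr : PlaceRed (hdeg.redDatum S.surj) r) :
    Finsupp.mapDomain r (polesOf (K := AlgebraicClosure ℚ) (jBar M)) =
      polesOf (K := k) (jRed k M) := by
  have h := deuringHyp_modular S.surj hdeg hgood
  have h0 : jRed k M ≠ 0 := fun h0 => jRed_transcendental k M (h0 ▸ isAlgebraic_zero)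
  refine mapDomain_polesOf h.curve h.curve' hr (redL_j π M) h0 ?_
  have hMk : (M : k) ≠ 0 := natCast_ne_zero_of_not_dvd k q M hqM
  have h1 := finrank_bar M
  have h2 := finrank_full_jRed (K := k) (N := M) hMk
  have := h1.1
  have := hdeg.finiteDimensional
  rw [RR.degree_polesOf (K := AlgebraicClosure ℚ) (transcendental_jBar M),
    RR.degree_polesOf (K := k) (jRed_transcendental k M), h1.2, h2]

/-- The `MonoPair` of `X₀(Mq)`. -/
def modMono (S : Setup π w) (hqM : ¬ q ∣ M) (hdeg : DegreeInput M k)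
    (hgood : GoodReduction M k) (hr : PlaceRed (hdeg.redDatum S.surj) r) :
    MonoPair (AlgebraicClosure ℚ) (modularFunctionFieldBar (M * q)) (modularFunctionFieldBar M) k
      (modularFunctionFieldFullC k M) π where
  surj := S.surj
  R := hdeg.redDatum S.surj
  R₁ := redOne S
  R₂ := redTwo S
  α := heckeAlphaBar (AlgebraicClosure ℚ) M q
  β := heckeBetaBar (AlgebraicClosure ℚ) M q
  Φ := PhiFull k q M
  φ := frobSemi k M q
  q := q
  two_le := S.two_le
  x := jBar M
  xb := jRed k M
  red_x := redL_j π M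
  transcendental := jRed_transcendental k M
  Φ_xb := PhiFull_jRed q M
  φ_xb := frobSemi_jRed k M q
  base_φ := baseAut_frobSemi k M q
  Φ_φ := PhiFull_frobSemi k M q
  integral_α := heckeAlphaBarIntegral (AlgebraicClosure ℚ) M q Fermat.Agent.Jan.DegreeWiring.jAlg
  integral_β := heckeBetaBarIntegral (AlgebraicClosure ℚ) M q Fermat.Agent.Jan.DegreeWiring.jAlg
  finite_α := finiteAlong_heckeAlphaBar (AlgebraicClosure ℚ) M q Fermat.Agent.Jan.DegreeWiring.jAlg
  finite_β := finiteAlong_heckeBetaBar (AlgebraicClosure ℚ) M q Fermat.Agent.Jan.DegreeWiring.jAlg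
  red₁_α h := red1_alpha h
  red₁_β h := red1_beta h
  red₂_α h := red2_alpha S.al h
  red₂_β h := red2_beta S.al h
  r := r
  placeRed := hr
  map_poles := map_poles_modular S hqM hdeg hgood hr
  poles := PoleBound.mem_iff (poleBound_modular M q) (NeZero.ne q)
  lift u hu := by
    obtain ⟨n₁, hn₁⟩ := exists_lift_modular S.surj hdeg hgood
    obtain ⟨n, hn⟩ := exists_mem_of_mem_regAlg hu
    obtain ⟨f, hf, hr⟩ := hn₁ (max n₁ n) (le_max_left _ _) u
      (riemannRochSpace_mono (nsmul_polesOf_mono _ (le_max_right _ _)) hn)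
    exact ⟨f, mem_regAlg_of_mem hf, hr⟩
  norm_α h1 h2 := ⟨_, kronecker_alpha S hdeg hqM _ _ _ _ _ h1 h2⟩
  norm_β h1 h2 := ⟨_, kronecker_beta S hdeg hqM _ _ _ _ _ h1 h2⟩

omit [FunctionField (AlgebraicClosure ℚ) (modularFunctionFieldBar (M * q))]
  [FunctionField (AlgebraicClosure ℚ) (modularFunctionFieldBar M)]
  [FunctionField k (modularFunctionFieldFullC k M)] [IsAlgClosed k] [NeZero M] hq hchar in
theorem exists_placeRed_modular (hπ : Function.Surjective π) (hdeg : DegreeInput M k)
    (hgood : GoodReduction M k) :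
    ∃ r : Place (AlgebraicClosure ℚ) (modularFunctionFieldBar M) →
      Place k (modularFunctionFieldFullC k M), PlaceRed (hdeg.redDatum hπ) r :=
  ⟨_, (deuringHyp_modular hπ hdeg hgood).placeRed⟩

/-! ### Nodes of the `NodalDatum` and supersingular places -/

variable {S : Setup π w} {X : NodalDatum (AlgebraicClosure ℚ) (modularFunctionFieldBar (M * q)) k
      (modularFunctionFieldFullC k M) (modularFunctionFieldFullC k M) A π}

theorem IsModularNodal.poles (hX : IsModularNodal S X) :
    polesOf (K := AlgebraicClosure ℚ) X.x = polesOf (K := AlgebraicClosure ℚ)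
      (Fermat.Agent.JRED.jL (AlgebraicClosure ℚ) (M * q)) := by
  obtain ⟨a, h, -, -⟩ := hX.shift
  rw [h, Nodes.polesOf_sub_algebraMap]

/-- A function with poles at the poles of `j` only, whose second reduction vanishes: the first
reduction vanishes at the nodes. -/
theorem IsModularNodal.ord_pos (hX : IsModularNodal S X) {n : ℕ}
    {g : modularFunctionFieldBar (M * q)}
    (hg : g ∈ riemannRochSpace (n • polesOf (K := AlgebraicClosure ℚ)
      (Fermat.Agent.JRED.jL (AlgebraicClosure ℚ) (M * q))))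
    {g₁ : modularFunctionFieldFullC k M} (h1 : (redOne S).Red g g₁) (hg₁ : g₁ ≠ 0)
    (h2 : (redTwo S).Red g 0) {s : Place k (modularFunctionFieldFullC k M) ×
      Place k (modularFunctionFieldFullC k M)} (hs : s ∈ X.nodes) : 0 < s.1.ord g₁ := by
  obtain ⟨c, hc1, hc2⟩ := X.glue n g (g₁, 0) (by rw [hX.poles]; exact hg)
    ⟨by rw [hX.eq₁]; exact h1, by rw [hX.eq₂]; exact h2⟩ s hs
  have hc : c = 0 := hc2.unique Val.zero
  rw [hc] at hc1
  exact (Mono.val_zero_iff.mp hc1).resolve_left hg₁


/-- Places where the reduction of a function invertible on the annulus vanishes are nodes. -/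
theorem IsModularNodal.mem_nodes (hX : IsModularNodal S X) (hqM : ¬ q ∣ M)
    (hdeg : DegreeInput M k) (hgood : GoodReduction M k)
    (hr : PlaceRed (hdeg.redDatum S.surj) r) (hA : Mono.Arch π)
    {s : Place k (modularFunctionFieldFullC k M)} (hs : jRed k M ∈ s.toValuationSubring)
    {g : modularFunctionFieldBar (M * q)}
    (hg : Mono.Inv ((modMono S hqM hdeg hgood hr).Ann s) g)
    {g₁ : modularFunctionFieldFullC k M} (h1 : (redOne S).Red g g₁) (hg₁ : g₁ ≠ 0)
    (hord : 0 < s.ord g₁) : (s, (frobSemi k M q)⁻¹ • s) ∈ X.nodes := by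
  obtain ⟨a, -, ha1, ha2⟩ := hX.shift
  have hFF : Fermat.FF.IsFF1 k (modularFunctionFieldFullC k M) :=
    Descent.isFF1_of_functionField (K := k) (F := modularFunctionFieldFullC k M)
  have : Fact (modMono S hqM hdeg hgood hr).q.Prime := hq
  have : CharP k (modMono S hqM hdeg hgood hr).q := hchar
  have hs2 : jRed k M ∈ ((frobSemi k M q)⁻¹ • s).toValuationSubring :=
    (modMono S hqM hdeg hgood hr).xb_mem_inv_smul hs
  refine ModGal.mem_nodes_of_glued hX.complete ?_ ?_ ?_
  · rw [ha1, Nodes.mem_sub_algebraMap_iff]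
    exact hs
  · rw [ha2, Nodes.mem_sub_algebraMap_iff]
    exact pow_mem hs2 q
  · intro n h u hh hu
    rw [hX.poles] at hh
    refine ((modMono S hqM hdeg hgood hr).node hs hg h1 hg₁ hord).regs S.surj hA
      (by have := hu.1; rwa [hX.eq₁] at this) (by have := hu.2; rwa [hX.eq₂] at this) ?_
    intro P hP
    have h3 := mem_regAlg.mp (mem_regAlg_of_mem hh) P
    refine h3 ?_
    have h4 := (modMono S hqM hdeg hgood hr).αx_mem hs hP
    rwa [show (modMono S hqM hdeg hgood hr).α (modMono S hqM hdeg hgood hr).x =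
      Fermat.Agent.JRED.jL (AlgebraicClosure ℚ) (M * q) from alpha_jBar] at h4

end Modular

end Fermat.Agent.DR.Mod
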