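import Fermat.Agent.DR.Mod.NodeMod
import Fermat.Agent.DR.Mono.SepMono
import Fermat.Agent.DR.S36.LPair
import Fermat.Agent.DR.L2.LiftPair

set_option autoImplicit false
set_option linter.unusedSectionVars false

/-!
# Separated points of `X₀(Mq)` at `q ∤ M`, over the inertia field

* `exists_sepF`: every place of `X₀(M)_k` which is not supersingular gives a separated place pair
  with separating functions over the inertia field.
* `discPair_modular`: the two reductions are discrete on the functions over the inertia field.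
-/

noncomputable section

open AlgebraicCurve Fermat.Agent.RR Fermat.Agent.JRED ModularCurve IntermediateField
open Fermat.Agent.DR.Mono Fermat.Agent.Jan.HeckeNorm Fermat.Agent.Jan.HeckeInputs
  Fermat.Agent.DR.Mod2 Fermat.Agent.DR.Nodes Fermat.Agent.DR.S36.Unit
  Fermat.Agent.JRED.ESGalois Fermat.Agent.JRED.ESSemi Fermat.Agent.JAN.AnFun
  Fermat.Agent.Q2.Ord Fermat.Agent.DR.S36.L

namespace Fermat.Agent.DR.Mod

section Modular

variable {A : ValuationSubring (AlgebraicClosure ℚ)} {k : Type} [Field k] {π : A →+* k}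
  {M q : ℕ} [NeZero M] [hq : Fact q.Prime] [IsAlgClosed k] [hchar : CharP k q]
  {w : laurentBaseChange (AlgebraicClosure ℚ) (modularFunctionFieldFull (M * q)) ≃ₐ[AlgebraicClosure ℚ]
      laurentBaseChange (AlgebraicClosure ℚ) (modularFunctionFieldFull (M * q))}
  [FunctionField (AlgebraicClosure ℚ) (modularFunctionFieldBar (M * q))]
  [FunctionField (AlgebraicClosure ℚ) (modularFunctionFieldBar M)]
  [FunctionField k (modularFunctionFieldFullC k M)]
  {r : Place (AlgebraicClosure ℚ) (modularFunctionFieldBar M) →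
    Place k (modularFunctionFieldFullC k M)}
  (S : Setup π w) (hqM : ¬ q ∣ M) (hdeg : DegreeInput M k)
  (hgood : GoodReduction M k) (hr : PlaceRed (hdeg.redDatum S.surj) r)

/-- `P_ss(j)` is fixed by coefficientwise automorphisms. -/
theorem coeffSemi_ssj (τ : k ≃+* k) : coeffSemi M τ • ssj k q M = ssj k q M := by
  apply Subtype.ext
  rw [coe_coeffSemi_smul, coe_ssj, map_pow]
  congr 1
  exact Fermat.Agent.S28.ModPoly.coeffMap_dInv _

theorem ord_ssj_smul (τ : k ≃+* k) (s : Place k (modularFunctionFieldFullC k M)) :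
    (coeffSemi M τ • s).ord (ssj k q M) = s.ord (ssj k q M) := by
  have h := SemilinearAut.ord_smul (coeffSemi M τ) s (ssj k q M)
  rwa [coeffSemi_ssj] at h

theorem ord_ssj_frob_inv (s : Place k (modularFunctionFieldFullC k M)) :
    ((frobSemi k M q)⁻¹ • s).ord (ssj k q M) = s.ord (ssj k q M) := by
  have : ExpChar k q := ExpChar.prime hq.out
  have : PerfectRing k q := inferInstance
  have h : (frobSemi k M q)⁻¹ = coeffSemi M (frobeniusEquiv k q)⁻¹ := by
    rw [map_inv]
    rfl
  rw [h]
  exact ord_ssj_smul _ s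

/-- `q^12 / u` -/
def uDual (M q : ℕ) [NeZero M] [NeZero q] : modularFunctionFieldBar (M * q) :=
  algebraMap (AlgebraicClosure ℚ) _ ((q : AlgebraicClosure ℚ) ^ ((12 : ℕ) : ℤ)) *
    (uF (AlgebraicClosure ℚ) M q)⁻¹

theorem redTwo_uDual (S : Setup π w) : (redTwo S).Red (uDual M q) (ssj k q M) := by
  have h := RedDatum.inv S.surj (redTwo_uF' (M := M) (q := q) S) (inv_ne_zero ssj_ne_zero)
  rw [inv_inv, mul_inv, ← map_inv₀, inv_inv] at h
  exact h

theorem redOne_uDual (hA : A.LiesOverPrime q) (S : Setup π w) :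
    (redOne S).Red (uDual M q) 0 := by
  have hm : (q : AlgebraicClosure ℚ) ∈ A := natCast_mem A q
  have hm0 : π ⟨(q : AlgebraicClosure ℚ), hm⟩ = 0 :=
    (map_natCast π q).trans (map_natCast_eq_zero π hA S.surj)
  exact Mono.red_zero_of_mem
    (zpow_mem_of_nonneg hm (by norm_num : (0 : ℤ) ≤ ((12 : ℕ) : ℤ)))
    (res_zpow_of_pos hm hm0 (by norm_num))
    (RedDatum.inv S.surj (redOne_uF (M := M) (q := q) S) ssj_ne_zero)

variable (A) in
theorem uDual_mem_F0 (L : Type) [Field L] [Algebra L (AlgebraicClosure ℚ)] [IsInertiaField A L] :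
    uDual M q ∈ F0 L (M * q) := by
  refine mul_mem ?_ (inv_mem (Mod.uF_mem_F0 A))
  rw [zpow_natCast, map_pow]
  exact pow_mem (natCast_mem_F0 q) 12

/-- Lifting over the inertia field, in the chart at infinity. -/
theorem modMono_liftsInv (hA : A.LiesOverPrime q) (L : Type) [Field L]
    [Algebra L (AlgebraicClosure ℚ)] [IsInertiaField A L] :
    (modMono S hqM hdeg hgood hr).LiftsInv (F0 L M) := by
  intro u hu
  obtain ⟨f, hf, hfu⟩ := exists_lift_j_inv L hq.out hA hdeg S.surj hgood (u := u) hu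
  exact ⟨inc L M f, hf, inc_mem_F0 f, hfu⟩

theorem jBar_mem_F0 (L : Type) [Field L] [Algebra L (AlgebraicClosure ℚ)] :
    jBar M ∈ F0 L M := by
  rw [← inc_jRed (L := L)]
  exact inc_mem_F0 _

/-- **Separated points**: the places of `X₀(M)_k` which are not supersingular. -/
theorem exists_sepF (hA : A.LiesOverPrime q) (L : Type) [Field L]
    [Algebra L (AlgebraicClosure ℚ)] [IsInertiaField A L]
    {s : Place k (modularFunctionFieldFullC k M)}
    (hs : ¬ (jRed k M ∈ s.toValuationSubring ∧ 0 < s.ord (ssj k q M))) :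
    ∃ N : SepF (redOne S) (redTwo S) (F0 L (M * q)),
      N.toPlacePair = (modMono S hqM hdeg hgood hr).pair s := by
  by_cases hj : jRed k M ∈ s.toValuationSubring
  · have h0 : s.ord (ssj k q M) = 0 := by
      have h1 : ¬ 0 < s.ord (ssj k q M) := fun h => hs ⟨hj, h⟩
      have h2 : jRed k M ≠ 0 := fun h0 => jRed_transcendental k M (h0 ▸ isAlgebraic_zero)
      have h3 := ord_ssj_nonneg (q := q) s ((Fermat.FF.mem_iff_ord s h2).mp hj)
      omega
    have hinv := uF_inv_ann S hqM hdeg hgood hr hj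
    have hc : (q : AlgebraicClosure ℚ) ^ ((12 : ℕ) : ℤ) ≠ 0 :=
      zpow_ne_zero _ (by exact_mod_cast hq.out.ne_zero)
    exact (modMono S hqM hdeg hgood hr).exists_sepF_fin (G₀ := F0 L M) (F₀ := F0 L (M * q))
      (modMono_lifts S hqM hdeg hgood hr hA L) (fun _ hz => Mod.alpha_mem_F0 A hz)
      (fun _ hz => Mod.beta_mem_F0 A hz) (s := s) hj (g := uF (AlgebraicClosure ℚ) M q)
      (g' := uDual M q) (g₁ := ssj k q M) (g₂ := ssj k q M) hinv.pf
      ((Mono.Inv.const hc).mul hinv.inv).pf
      (Mod.uF_mem_F0 A) (uDual_mem_F0 A L) (redOne_uF S) ssj_ne_zero h0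
      (redTwo_uF_zero hA S) (redTwo_uDual S) ssj_ne_zero
      ((ord_ssj_frob_inv s).trans h0) (redOne_uDual hA S)
  · refine (modMono S hqM hdeg hgood hr).exists_sepF_cusp (G₀ := F0 L M) (F₀ := F0 L (M * q))
      (modMono_liftsInv S hqM hdeg hgood hr hA L) (fun _ hz => Mod.alpha_mem_F0 A hz)
      (fun _ hz => Mod.beta_mem_F0 A hz) (jBar_mem_F0 L) (fun P hP => ?_) (s := s) hj
    have h1 := (poleBound_modular M q).large P (by
      rw [Fermat.FF.mem_iff_val_le_one, not_le] at hP
      exact hP)
    rcases h1 with ⟨h2, -⟩ | h2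
    · exact Or.inl h2
    · exact Or.inr h2

/-- **The inertia field is discrete for the pair of reductions.** -/
theorem discPair_modular (hA : A.LiesOverPrime q) (L : Type) [Field L]
    [Algebra L (AlgebraicClosure ℚ)] [IsInertiaField A L] :
    L2.DiscPair (redOne S) (redTwo S) (F0 L (M * q)) (q : AlgebraicClosure ℚ) := by
  have : ExpChar k q := ExpChar.prime hq.out
  exact {
    one := discData_one S hq.out hA
    two := discData_two S hq.out hA
    lift := fun c => by
      obtain ⟨a, ha⟩ := π0_surjective (L := L) π hq.out hA S.surj c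
      exact ⟨incl A L a, ha, algebraMap_mem_F0 _⟩ }

end Modular

end Fermat.Agent.DR.Mod
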