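import Fermat.Agent.DR.Mod.SpecInertia
import Fermat.Agent.DR.Mod.NodeMod
import Fermat.Agent.DR.S36.UnitHecke
import Fermat.Agent.DR.S36.UnitCount
import Fermat.Agent.DR.Mazur.OfGeo
import Fermat.Agent.P2.Mazur2k.Step

/-!
# Inertia-invariant torsion classes of `J₀(Mq)`: the specialisation theorem
-/

set_option autoImplicit false
set_option linter.unusedSectionVars false

noncomputable section

open AlgebraicCurve ModularCurve IntermediateField
open Fermat.Agent.RR Fermat.Agent.JRED Fermat.Agent.DR.Mono Fermat.Agent.DR.S36.L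
  Fermat.Agent.DR.S36.Unit Fermat.Agent.DR.Mod2 Fermat.Agent.Q2.Ord

namespace Fermat.Agent.DR.Mod

local notation "Qbar" => AlgebraicClosure ℚ

variable {A : ValuationSubring Qbar} {k : Type} [Field k] {π : A →+* k}
  {M q : ℕ} [NeZero M] [hq : Fact q.Prime] [CharP k q] [ExpChar k q] [IsAlgClosed k]
  {w : laurentBaseChange Qbar (modularFunctionFieldFull (M * q)) ≃ₐ[Qbar]
      laurentBaseChange Qbar (modularFunctionFieldFull (M * q))}
  [FunctionField Qbar (modularFunctionFieldBar (M * q))]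
  [FunctionField Qbar (modularFunctionFieldBar M)]
  [FunctionField k (modularFunctionFieldFullC k M)]
  {X : NodalDatum Qbar (modularFunctionFieldBar (M * q)) k
    (modularFunctionFieldFullC k M) (modularFunctionFieldFullC k M) A π}

/-- General form: `e D₀ = div ssj` off the cusps, `w_s = E / D₀(s)`. -/
theorem exists_spec_geo (hA : A.LiesOverPrime q) (hqM' : ¬ q ∣ M) (S : Setup π w)
    (hX : IsModularNodal S X) (hdeg : DegreeInput M k) (hgood : GoodReduction M k)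
    {m : ℕ} (hmk : (m : k) ≠ 0)
    {x : JZero (M * q)} (hx : m • x = 0) (hfix : ∀ τ ∈ A.inertiaSubgroupIn ℚ, τ • x = x)
    {ℓ : ℕ} [hℓ : Fact ℓ.Prime] (hℓM : ¬ ℓ ∣ M * q) {a : ℤ}
    (hTx : heckeOperatorAlong Qbar (M * q) ℓ x = a • x)
    {e E : ℕ} (heE : e * E = 12)
    (hdvd : ∀ P : Place k (modularFunctionFieldFullC k M), 0 ≤ P.ord (jRed k M) →
      (e : ℤ) ∣ P.ord (ssj k q M)) :
    ∃ y₁ y₂, Spec X m (((E : ℤ) * (a - (ℓ + 1))) • (x : Pic0 Qbar (modularFunctionFieldBar (M * q))))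
      y₁ y₂ := by
  have hE0 : e ≠ 0 := by rintro rfl; simp at heE
  have hqℓ : ¬ q ∣ ℓ := fun h => hℓM (by
    rw [(Nat.prime_dvd_prime_iff_eq hq.out hℓ.out).mp h]; exact dvd_mul_left _ _)
  have hqMℓ : ¬ q ∣ M * ℓ := by
    rw [hq.out.dvd_mul]
    rintro (h | h)
    · exact hqM' h
    · exact hqℓ h
  have h := natCast_ne_zero_of_not_dvd k q (M * ℓ) hqMℓ
  obtain ⟨r, hr⟩ := exists_placeRed_modular S.surj hdeg hgood
  let SS : Set (Place k (modularFunctionFieldFullC k M)) :=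
    {P | 0 ≤ P.ord (jRed k M) ∧ 0 < P.ord (ssj k q M)}
  have hj0 : jRed k M ≠ 0 := fun h0 => jRed_transcendental k M (h0 ▸ isAlgebraic_zero)
  have hmem : ∀ P : Place k (modularFunctionFieldFullC k M), 0 ≤ P.ord (jRed k M) →
      jRed k M ∈ P.toValuationSubring := fun P hP => (Fermat.FF.mem_iff_ord P hj0).mpr hP
  let D₀ : Divisor k (modularFunctionFieldFullC k M) :=
    (divOf (K := k) (ssj k q M)).mapRange (fun z : ℤ => z / e) (Int.zero_ediv _)
  have hD₀ : ∀ P, 0 ≤ P.ord (jRed k M) → (e : ℤ) * D₀ P = P.ord (ssj k q M) := by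
    intro P hP
    rw [Finsupp.mapRange_apply, divOf_apply, Int.mul_ediv_cancel' (hdvd P hP)]
  have he0 : (e : ℤ) ≠ 0 := by exact_mod_cast hE0
  refine exists_spec_modular hA S hX.eq₁ hX.eq₂ hmk hx ?_ (SS := SS) (fun P hP => hP.1) ?_
    (E := (E : ℤ)) (D₀ := D₀) ?_ ?_ hqMℓ h (a := a) (b := ℓ + 1) ?_ hTx
  · rintro _ ⟨σ, hσ, rfl⟩
    exact hfix σ hσ
  · intro s hs
    exact ⟨(Fermat.FF.mem_iff_ord s.1 hj0).mp (jRed_mem_of_node hX hs), ss_of_node hA hX hs⟩
  · rintro P ⟨hP, hP'⟩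
    obtain ⟨C, hC, hw⟩ := exists_modCoord S hqM' hdeg hgood hr hA (K0 A) (hmem P hP) hP'
    refine ⟨(modNodeData S hqM' hdeg hgood hr hA (K0 A) (hmem P hP) hP').toNode, C, rfl, ?_, ?_, ?_⟩
    · rintro _ ⟨σ, hσ, rfl⟩ Q hQ
      exact (mem_Ann_smul_inertia S hqM' hdeg hgood hr hσ).mpr hQ
    · rintro _ ⟨σ, hσ, rfl⟩
      exact (mem_F0_iff (A := A)).mp hC σ hσ
    · have h1 := hD₀ P hP
      rw [← h1] at hw
      have h2 : (e : ℤ) * (D₀ P * C.w) = e * E := by
        rw [← mul_assoc, hw]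
        exact_mod_cast heE.symm
      exact mul_left_cancel₀ he0 h2
  · intro P hP hP'
    have h1 := hD₀ P hP'
    have h2 : P.ord (ssj k q M) = 0 := by
      have h3 := ord_ssj_nonneg P hP'
      by_contra hne
      exact hP ⟨hP', lt_of_le_of_ne h3 (Ne.symm hne)⟩
    rw [h2] at h1
    exact (mul_eq_zero.mp h1).resolve_left he0
  · intro P hP
    have h1 : heckeDivC k M ℓ h (divOf (K := k) (ssj k q M)) P =
        (ℓ + 1) * P.ord (ssj k q M) :=
      heckeDivC_ssj_of S hℓM h (fun P => divOf_apply _ P) P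
    have h2 : heckeDivC k M ℓ h ((e : ℤ) • D₀ - divOf (K := k) (ssj k q M)) P = 0 :=
      heckeDivC_cusp h (fun Q hQ => by
        rw [Finsupp.sub_apply, Finsupp.smul_apply, smul_eq_mul, hD₀ Q hQ, divOf_apply,
          sub_self]) P hP
    rw [map_sub, map_zsmul, Finsupp.sub_apply, Finsupp.smul_apply, smul_eq_mul, h1,
      sub_eq_zero, ← hD₀ P hP] at h2
    apply mul_left_cancel₀ he0
    rw [h2]
    ring

/-- **GeoInput** (`E = 12`). -/
theorem exists_spec_twelve (hA : A.LiesOverPrime q) (hqM : ¬ q ∣ M) (S : Setup π w)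
    (hX : IsModularNodal S X) (hdeg : DegreeInput M k) (hgood : GoodReduction M k)
    {m : ℕ} (hmk : (m : k) ≠ 0)
    {x : JZero (M * q)} (hx : m • x = 0) (hfix : ∀ τ ∈ A.inertiaSubgroupIn ℚ, τ • x = x)
    {ℓ : ℕ} [hℓ : Fact ℓ.Prime] (hℓM : ¬ ℓ ∣ M * q) {a : ℤ}
    (hTx : heckeOperatorAlong Qbar (M * q) ℓ x = a • x) :
    ∃ y₁ y₂, Spec X m ((12 * (a - (ℓ + 1))) • (x : Pic0 Qbar (modularFunctionFieldBar (M * q))))
      y₁ y₂ :=
  exists_spec_geo hA hqM S hX hdeg hgood hmk hx hfix hℓM hTx (e := 1) (E := 12) rfl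
    (fun P _ => by simp)

/-- At a rigid level all supersingular places have width one. -/
theorem ord_ssj_of_rigid (hA : A.LiesOverPrime q) (hqM : ¬ q ∣ M) (hrig : DR.S36.Rigid M)
    (S : Setup π w) (hX : IsModularNodal S X) (hdeg : DegreeInput M k)
    (hgood : GoodReduction M k) {P : Place k (modularFunctionFieldFullC k M)}
    (hP : 0 ≤ P.ord (jRed k M)) (hP' : 0 < P.ord (ssj k q M)) : P.ord (ssj k q M) = 12 := by
  classical
  obtain ⟨r, hr⟩ := exists_placeRed_modular S.surj hdeg hgood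
  have hj0 : jRed k M ≠ 0 := fun h0 => jRed_transcendental k M (h0 ▸ isAlgebraic_zero)
  have hmem : jRed k M ∈ P.toValuationSubring := (Fermat.FF.mem_iff_ord P hj0).mpr hP
  have hc : ∀ s ∈ X.nodes, ∃ n : ℕ, 0 < n ∧ s.1.ord (ssj k q M) * n = 12 := by
    intro s hs
    obtain ⟨C, -, hw⟩ := exists_modCoord S hqM hdeg hgood hr hA (K0 A) (jRed_mem_of_node hX hs)
      (ss_of_node hA hX hs)
    exact ⟨C.w, C.w_pos, hw⟩
  choose! wd hwd hmw using hc
  have h1 := DR.S36.Unit.width_modular hqM hgood hrig S.surj (arch_modular hA S.surj) hX wd hwd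
    hmw _ (node_of_ss hqM hdeg hgood hr hA hX hmem hP')
  exact h1.2

/-- **GeoInput** at rigid levels (`E = 1`). -/
theorem exists_spec_one (hA : A.LiesOverPrime q) (hqM : ¬ q ∣ M) (hrig : DR.S36.Rigid M)
    (S : Setup π w)
    (hX : IsModularNodal S X) (hdeg : DegreeInput M k) (hgood : GoodReduction M k)
    {m : ℕ} (hmk : (m : k) ≠ 0)
    {x : JZero (M * q)} (hx : m • x = 0) (hfix : ∀ τ ∈ A.inertiaSubgroupIn ℚ, τ • x = x)
    {ℓ : ℕ} [hℓ : Fact ℓ.Prime] (hℓM : ¬ ℓ ∣ M * q) {a : ℤ}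
    (hTx : heckeOperatorAlong Qbar (M * q) ℓ x = a • x) :
    ∃ y₁ y₂, Spec X m ((1 * (a - (ℓ + 1))) • (x : Pic0 Qbar (modularFunctionFieldBar (M * q))))
      y₁ y₂ :=
  exists_spec_geo hA hqM S hX hdeg hgood hmk hx hfix hℓM hTx (e := 12) (E := 1) rfl
    (fun P hP => by
      rcases (ord_ssj_nonneg P hP).eq_or_lt with h0 | h0
      · rw [← h0]; exact dvd_zero _
      · rw [ord_ssj_of_rigid hA hqM hrig S hX hdeg hgood hP h0]; norm_num)

end Fermat.Agent.DR.Mod

namespace Fermat.Agent.DR.Mod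

/-- **The geometric input of Mazur's principle modulo `2^n`.** -/
theorem geoInput (M q : ℕ) [NeZero M] [NeZero q] : P2.Mazur2k.GeoInput M q := by
  intro hq hqM A hA k _ _ _ π w _ _ _ S' _ X hX m x ℓ a hmk hx hfix hℓ hT
  have : ExpChar k q := ExpChar.prime hq
  have hdeg : DegreeInput M k := degreeInput' (NeZero.ne M) hqM
  have hgood : GoodReduction M k := goodReduction S'.surj hq (NeZero.ne M) hqM
  have : Fact (ℓ : ℕ).Prime := ⟨ℓ.2⟩
  have h := exists_spec_twelve hA hqM S' hX hdeg hgood hmk hx hfix hℓ hT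
  rwa [← sub_sub] at h

/-- **The geometric input of Mazur's principle** at rigid levels. -/
theorem geoInputE_one (M q : ℕ) [NeZero M] [NeZero q] (hrig : DR.S36.Rigid M) :
    Mazur.GeoInputE 1 M q := by
  intro hq hqM A hA k _ _ _ π w _ _ _ S' _ X hX m x ℓ a hmk hx hfix hℓ hT
  have : ExpChar k q := ExpChar.prime hq
  have hdeg : DegreeInput M k := degreeInput' (NeZero.ne M) hqM
  have hgood : GoodReduction M k := goodReduction S'.surj hq (NeZero.ne M) hqM
  have : Fact (ℓ : ℕ).Prime := ⟨ℓ.2⟩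
  have h := exists_spec_one hA hqM hrig S' hX hdeg hgood hmk hx hfix hℓ hT
  rwa [← sub_sub] at h

end Fermat.Agent.DR.Mod
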