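import Fermat.Agent.DR.PairShift
import Fermat.Agent.JRED.ModularRedExists
import Fermat.Agent.JRED.ESNorm
import Fermat.Agent.Jan.JAlgProof

set_option autoImplicit false

/-!
# The two reductions of `X₀(Mq)` at `q` (`q ∤ M`)

`F = F_{Mq}` over `L ⊇ A → k`, `char k = q`.  `R1L` = reduction of `q`-expansions, `R2L` = `R1L ∘ w`
with `w` the Atkin–Lehner automorphism.  Under the degree input
`[F_{Mq} : L(j)] ≤ (q + 1) [F̄_M : k(j)]` both residue fields are `F̄_M`; `redOne`, `redTwo` are the
resulting reduction data.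
-/

noncomputable section

open AlgebraicCurve ModularCurve IntermediateField
open Fermat.Agent.JRED Fermat.Agent.DR.PairOrtho Fermat.Agent.DR.PairDegree

namespace Fermat.Agent.DR.Mod

section Abstract

variable {K F F' k Fk : Type*} [Field K] [Field F] [Algebra K F] [Field F'] [Algebra K F']
  [Field k] [Field Fk] [Algebra k Fk] {A : ValuationSubring K} {π : A →+* k}

/-- Pull back a reduction datum along an embedding of fields. -/
def comapRed (R : RedDatum K F k Fk A π) (φ : F' →ₐ[K] F) : RedDatum K F' k Fk A π where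
  Red w u := R.Red (φ w) u
  add h h' := by rw [map_add]; exact R.add h h'
  mul h h' := by rw [map_mul]; exact R.mul h h'
  const a := by rw [AlgHom.commutes]; exact R.const a
  unique h h' := R.unique h h'
  normalize w hw := by
    obtain ⟨c, hc, u, hu, h⟩ := R.normalize (φ w) ((_root_.map_ne_zero φ).mpr hw)
    exact ⟨c, hc, u, hu, by rw [map_mul, AlgHom.commutes]; exact h⟩

theorem comapRed_red {R : RedDatum K F k Fk A π} {φ : F' →ₐ[K] F} {w : F'} {u : Fk} :
    (comapRed R φ).Red w u ↔ R.Red (φ w) u := Iff.rfl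

/-- From `k[x]`-independence to `k[x ^ q]`-independence. -/
theorem IndepPow.pow {k E : Type*} [Field k] [Field E] [Algebra k E] {x : E} {ι : Type*}
    {e : ι → E} (h : IndepPow (k := k) x e) (q : ℕ) [NeZero q] :
    IndepPow (k := k) (x ^ q) (fun p : Fin q × ι => x ^ (p.1 : ℕ) * e p.2) := by
  have hinj : Function.Injective (fun p : ℕ × (Fin q × ι) => (q * p.1 + (p.2.1 : ℕ), p.2.2)) := by
    rintro ⟨n, i, j⟩ ⟨n', i', j'⟩ hp
    simp only [Prod.mk.injEq] at hp
    obtain ⟨h1, rfl⟩ := hp
    have hi : (i : ℕ) = i' := by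
      have := congrArg (· % q) h1
      simpa [Nat.add_mod, Nat.mod_eq_of_lt i.2, Nat.mod_eq_of_lt i'.2] using this
    have hn : n = n' := by
      rw [hi] at h1
      have h2 := Nat.add_right_cancel h1
      exact Nat.eq_of_mul_eq_mul_left (Nat.pos_of_ne_zero (NeZero.ne q)) h2
    rw [hn, Fin.ext hi]
  have h1 := LinearIndependent.comp h _ hinj
  have h2 : (fun p : ℕ × (Fin q × ι) => (x ^ q) ^ p.1 * (x ^ (p.2.1 : ℕ) * e p.2.2)) =
      (fun p : ℕ × ι => x ^ p.1 * e p.2) ∘
        (fun p : ℕ × (Fin q × ι) => (q * p.1 + (p.2.1 : ℕ), p.2.2)) := by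
    funext p
    simp only [Function.comp_apply]
    rw [pow_add, pow_mul, mul_assoc]
  unfold IndepPow
  rw [h2]
  exact h1

theorem IndepPow.adjoin {k E : Type*} [Field k] [Field E] [Algebra k E] {x : E} {ι : Type*}
    {e : ι → E} (h : IndepPow (k := k) x e) : LinearIndependent k⟮x⟯ e :=
  linearIndependent_adjoin h

theorem mul_finrank_le {k E : Type*} [Field k] [Field E] [Algebra k E] {x : E}
    (htr : Transcendental k x) (q : ℕ) [NeZero q] [FiniteDimensional k⟮x ^ q⟯ E]
    [FiniteDimensional k⟮x⟯ E] :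
    q * Module.finrank k⟮x⟯ E ≤ Module.finrank k⟮x ^ q⟯ E := by
  have h0 : IndepPow (k := k) x (Module.finBasis k⟮x⟯ E) :=
    indepPow_of htr (Module.finBasis k⟮x⟯ E).linearIndependent
  have h1 := IndepPow.adjoin (IndepPow.pow h0 q)
  have h2 := h1.fintype_card_le_finrank
  rw [Fintype.card_prod, Fintype.card_fin, Fintype.card_fin] at h2
  exact h2

end Abstract

section Frob

variable {k : Type*} [Field k]

/-- `j(q)^p = j(q^p)` in characteristic `p`. -/
theorem jqModC_pow_char (p : ℕ) [NeZero p] [ExpChar k p] :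
    jqModC k ^ p = qExpand k p (jqModC k) := by
  rw [Fermat.Agent.JRED.ES.laurent_pow_char, coeffMap_jqModC]

/-- `j(q^d)^p = j(q^{dp})` in characteristic `p`. -/
theorem qExpand_jqModC_pow_char (p d : ℕ) [NeZero p] [NeZero d] [ExpChar k p] :
    (qExpand k d (jqModC k)) ^ p = qExpand k p (qExpand k d (jqModC k)) := by
  rw [Fermat.Agent.JRED.ES.laurent_pow_char, coeffMap_qExpand, coeffMap_jqModC]

/-- `F̄_M` is stable under `x(q) ↦ x(q^p)` in characteristic `p`. -/
theorem qExpand_mem_full (p M : ℕ) [NeZero p] [ExpChar k p] {u : LaurentSeries k}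
    (hu : u ∈ modularFunctionFieldFullC k M) : qExpand k p u ∈ modularFunctionFieldFullC k M := by
  have hle : modularFunctionFieldFullC k M ≤
      (modularFunctionFieldFullC k M).comap (qExpandAlgHomC k p) := by
    rw [modularFunctionFieldFullC, IntermediateField.adjoin_le_iff]
    rintro _ ⟨d, hd0, hd, rfl⟩
    show qExpand k p (qExpand k d (jqModC k)) ∈ modularFunctionFieldFullC k M
    rw [← qExpand_jqModC_pow_char]
    exact pow_mem (jqModCd_mem_full k M hd) p
  exact hle hu

/-- The `k`-linear Frobenius `x(q) ↦ x(q^p)` of `F̄_M`, `char k = p`. -/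
def PhiFull (k : Type*) [Field k] (p M : ℕ) [NeZero p] [ExpChar k p] :
    modularFunctionFieldFullC k M →ₐ[k] modularFunctionFieldFullC k M :=
  ((qExpandAlgHomC k p).comp (modularFunctionFieldFullC k M).val).codRestrict
    (modularFunctionFieldFullC k M).toSubalgebra (fun u => qExpand_mem_full p M u.2)

theorem coe_PhiFull (p M : ℕ) [NeZero p] [ExpChar k p] (u : modularFunctionFieldFullC k M) :
    (PhiFull k p M u : LaurentSeries k) = qExpand k p (u : LaurentSeries k) := rfl

theorem PhiFull_jRed (p M : ℕ) [NeZero p] [ExpChar k p] :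
    PhiFull k p M (jRed k M) = jRed k M ^ p :=
  Subtype.ext (jqModC_pow_char (k := k) p).symm

end Frob

section Gauss

variable {K k : Type*} [Field K] [Field k] {A : ValuationSubring K} {π : A →+* k}

theorem GRed.qExpand {f : LaurentSeries K} {u : LaurentSeries k} (h : GRed π f u) (n : ℕ)
    [NeZero n] : GRed π (qExpand K n f) (qExpand k n u) := by
  obtain ⟨a, b, hb, h1, h2⟩ := h
  refine ⟨ModularCurve.qExpand A n a, ModularCurve.qExpand A n b, ?_, ?_, ?_⟩
  · rw [coeffMap_qExpand]
    exact (_root_.map_ne_zero (ModularCurve.qExpand k n)).mpr hb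
  · rw [coeffMap_qExpand, coeffMap_qExpand, ← map_mul, h1]
  · rw [coeffMap_qExpand, coeffMap_qExpand, ← map_mul, h2]

end Gauss

section Modular

/-- `w` is the Atkin–Lehner automorphism at `q` of `F_{Mq}`. -/
structure IsAL {L : Type*} [Field L] [Algebra ℚ L] {M q : ℕ} [NeZero M] [NeZero q]
    (w : laurentBaseChange L (modularFunctionFieldFull (M * q)) ≃ₐ[L]
      laurentBaseChange L (modularFunctionFieldFull (M * q))) : Prop where
  alpha : ∀ x, w (heckeAlphaBar L M q x) = heckeBetaBar L M q x
  beta : ∀ x, w (heckeBetaBar L M q x) = heckeAlphaBar L M q x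

variable {L : Type*} [Field L] [Algebra ℚ L] {k : Type*} [Field k] {A : ValuationSubring L}
  (π : A →+* k) {M q : ℕ} [NeZero M] [NeZero q]
  (w : laurentBaseChange L (modularFunctionFieldFull (M * q)) ≃ₐ[L]
      laurentBaseChange L (modularFunctionFieldFull (M * q)))

variable (M q) in
/-- Reduction of `q`-expansions. -/
def R1L : RedDatum L (laurentBaseChange L (modularFunctionFieldFull (M * q))) k
    (LaurentSeries k) A π := redL π (M * q)

/-- Reduction of `q`-expansions at the other cusp. -/
def R2L : RedDatum L (laurentBaseChange L (modularFunctionFieldFull (M * q))) k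
    (LaurentSeries k) A π := comapRed (R1L π M q) w.toAlgHom

variable {π w}

theorem R1L_red {f : laurentBaseChange L (modularFunctionFieldFull (M * q))}
    {u : LaurentSeries k} : (R1L π M q).Red f u ↔ GRed π (f : LaurentSeries L) u := Iff.rfl

theorem R2L_red {f : laurentBaseChange L (modularFunctionFieldFull (M * q))}
    {u : LaurentSeries k} : (R2L π w).Red f u ↔ GRed π (w f : LaurentSeries L) u := Iff.rfl

theorem red1_alpha {f : laurentBaseChange L (modularFunctionFieldFull M)} {u : LaurentSeries k}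
    (h : (redL π M).Red f u) : (R1L π M q).Red (heckeAlphaBar L M q f) u := by
  rw [R1L_red, coe_heckeAlphaBar]
  exact h

theorem red1_beta {f : laurentBaseChange L (modularFunctionFieldFull M)} {u : LaurentSeries k}
    (h : (redL π M).Red f u) :
    (R1L π M q).Red (heckeBetaBar L M q f) (ModularCurve.qExpand k q u) := by
  rw [R1L_red, coe_heckeBetaBar]
  exact GRed.qExpand h q

theorem red2_alpha (hw : IsAL w) {f : laurentBaseChange L (modularFunctionFieldFull M)}
    {u : LaurentSeries k} (h : (redL π M).Red f u) :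
    (R2L π w).Red (heckeAlphaBar L M q f) (ModularCurve.qExpand k q u) := by
  rw [R2L_red, hw.alpha]
  exact red1_beta h

theorem red2_beta (hw : IsAL w) {f : laurentBaseChange L (modularFunctionFieldFull M)}
    {u : LaurentSeries k} (h : (redL π M).Red f u) :
    (R2L π w).Red (heckeBetaBar L M q f) u := by
  rw [R2L_red, hw.beta]
  exact red1_alpha h

theorem alpha_jL : heckeAlphaBar L M q (Fermat.Agent.JRED.jL L M) =
    Fermat.Agent.JRED.jL L (M * q) := Subtype.ext (coe_heckeAlphaBar M q _)

/-- `(R₁, R₂)` of `u_t = t(q^q) - t(q)^q`. -/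
theorem red_nodeFun [ExpChar k q] (hw : IsAL w)
    {t : laurentBaseChange L (modularFunctionFieldFull M)} {u : LaurentSeries k}
    (h : (redL π M).Red t u) (hu : u ^ q = ModularCurve.qExpand k q u) :
    (R1L π M q).Red (heckeBetaBar L M q t - heckeAlphaBar L M q t ^ q) 0 ∧
      (R2L π w).Red (heckeBetaBar L M q t - heckeAlphaBar L M q t ^ q) (u - u ^ (q * q)) := by
  constructor
  · have h1 := RedDatum.sub (red1_beta (q := q) h) (RedDatum.pow (red1_alpha (q := q) h) q)
    rwa [hu, sub_self] at h1
  · have h1 := RedDatum.sub (red2_beta hw h) (RedDatum.pow (red2_alpha hw h) q)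
    rwa [← hu, ← pow_mul] at h1

/-- The second function, with residues `(u - u^{q²}, 0)`. -/
theorem red_nodeFun' [ExpChar k q] (hw : IsAL w)
    {t : laurentBaseChange L (modularFunctionFieldFull M)} {u : LaurentSeries k}
    (h : (redL π M).Red t u) (hu : u ^ q = ModularCurve.qExpand k q u) :
    (R1L π M q).Red (heckeAlphaBar L M q t - heckeBetaBar L M q t ^ q) (u - u ^ (q * q)) ∧
      (R2L π w).Red (heckeAlphaBar L M q t - heckeBetaBar L M q t ^ q) 0 := by
  constructor
  · have h1 := RedDatum.sub (red1_alpha (q := q) h) (RedDatum.pow (red1_beta (q := q) h) q)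
    rwa [← hu, ← pow_mul] at h1
  · have h1 := RedDatum.sub (red2_alpha hw h) (RedDatum.pow (red2_beta hw h) q)
    rwa [hu, sub_self] at h1

theorem jqModC_sub_pow_ne_zero (k : Type*) [Field k] {n : ℕ} (hn : 2 ≤ n) :
    jqModC k - jqModC k ^ n ≠ 0 := by
  intro h
  have h1 := transcendental_jqModC k
  rw [transcendental_iff] at h1
  have h2 := h1 (Polynomial.X - Polynomial.X ^ n) (by simpa using h)
  have h3 := congrArg (fun p => Polynomial.coeff p 1) h2
  simp only [Polynomial.coeff_sub, Polynomial.coeff_X_one, Polynomial.coeff_X_pow,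
    Polynomial.coeff_zero] at h3
  rw [if_neg (by omega), sub_zero] at h3
  exact one_ne_zero h3

theorem separatedL (hπ : Function.Surjective π) [ExpChar k q] (hq : 2 ≤ q) (hw : IsAL w) :
    Separated (R1L π M q) (R2L π w) := by
  have h1 := red_nodeFun hw (redL_j π M) (jqModC_pow_char (k := k) q)
  have h2 := red_nodeFun' hw (redL_j π M) (jqModC_pow_char (k := k) q)
  have hne : jqModC k - jqModC k ^ (q * q) ≠ 0 := jqModC_sub_pow_ne_zero k (by nlinarith)
  exact separated_of hπ h1.1 h1.2 h2.1 h2.2 hne hne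

theorem exists_red1 (hπ : Function.Surjective π) {u : LaurentSeries k}
    (hu : u ∈ modularFunctionFieldFullC k M) : ∃ f, (R1L π M q).Red f u := by
  obtain ⟨f, hf⟩ := exists_red_of_mem_full M hπ hu
  exact ⟨_, red1_alpha hf⟩

theorem exists_red2 (hπ : Function.Surjective π) (hw : IsAL w) {u : LaurentSeries k}
    (hu : u ∈ modularFunctionFieldFullC k M) : ∃ f, (R2L π w).Red f u := by
  obtain ⟨f, hf⟩ := exists_red_of_mem_full M hπ hu
  exact ⟨_, red2_beta hw hf⟩

theorem red1_j : (R1L π M q).Red (Fermat.Agent.JRED.jL L (M * q)) (jqModC k) := by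
  rw [← alpha_jL]
  exact red1_alpha (redL_j π M)

theorem red2_j [ExpChar k q] (hw : IsAL w) :
    (R2L π w).Red (Fermat.Agent.JRED.jL L (M * q)) (jqModC k ^ q) := by
  rw [jqModC_pow_char (k := k) q, ← alpha_jL]
  exact red2_alpha hw (redL_j π M)

end Modular

end Fermat.Agent.DR.Mod
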