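import Fermat.Agent.DR.Mod.HeckeC

set_option autoImplicit false

/-!
# `T_ℓ` (`ℓ ≠ q`) and the two reductions of `X₀(Mq)` at `q` (piece A7, modular part)

`spec_hecke`: `Spec x y₁ y₂ → Spec (T_ℓ x) (T_ℓ y₁) (T_ℓ y₂)`.
-/

noncomputable section

open AlgebraicCurve ModularCurve IntermediateField Fermat.FF
open Fermat.Agent.JRED Fermat.Agent.JRED.AL Fermat.Agent.S28
open Fermat.Agent.Jan.HeckeNorm (normAlong normAlong_ne_zero nsmul_correspondence_eq_ord
  correspondence_eq_ord)

namespace Fermat.Agent.DR.Mod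

section Ext

variable {L : Type} [Field L] [Algebra ℚ L] {M q : ℕ} [NeZero M] [NeZero q]

/-- `F_{Mq}` is generated by the images of `F_M` under the two degeneracy maps. -/
theorem algHom_ext_alpha_beta (hq : q.Prime) {R : Type*} [Field R] [Algebra L R]
    {f g : laurentBaseChange L (modularFunctionFieldFull (M * q)) →ₐ[L] R}
    (h1 : ∀ x, f (heckeAlphaBar L M q x) = g (heckeAlphaBar L M q x))
    (h2 : ∀ x, f (heckeBetaBar L M q x) = g (heckeBetaBar L M q x)) : f = g := by
  have key : f.comp (barEquiv L (M * q)).symm.toAlgHom =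
      g.comp (barEquiv L (M * q)).symm.toAlgHom := by
    apply full_algHom_ext
    intro d hd hd0 hdM
    rcases dvd_cases hq hdM with h | ⟨d', h, rfl⟩
    · have hmem : jt (1 : Lˣ) d ∈ modularFunctionFieldFullC L M := jt_mem_full L (NeZero.ne M) h
      have e : (barEquiv L (M * q)).symm ⟨jt 1 d, hd⟩ =
          heckeAlphaBar L M q ((barEquiv L M).symm ⟨jt 1 d, hmem⟩) := by
        apply Subtype.ext
        rw [coe_barEquiv_symm, coe_heckeAlphaBar, coe_barEquiv_symm]
      have := h1 ((barEquiv L M).symm ⟨jt 1 d, hmem⟩)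
      rw [← e] at this
      exact this
    · have hmem : jt (1 : Lˣ) d' ∈ modularFunctionFieldFullC L M := jt_mem_full L (NeZero.ne M) h
      have e : (barEquiv L (M * q)).symm ⟨jt 1 (q * d'), hd⟩ =
          heckeBetaBar L M q ((barEquiv L M).symm ⟨jt 1 d', hmem⟩) := by
        apply Subtype.ext
        rw [coe_barEquiv_symm, coe_heckeBetaBar, coe_barEquiv_symm, qExpand_jt]
      have := h2 ((barEquiv L M).symm ⟨jt 1 d', hmem⟩)
      rw [← e] at this
      exact this
  ext x
  have h3 := congrArg (fun φ : modularFunctionFieldFullC L (M * q) →ₐ[L] R =>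
    φ (barEquiv L (M * q) x)) key
  simpa using h3

end Ext

theorem toAlgHom_apply' {R A B : Type*} [CommSemiring R] [Semiring A] [Semiring B] [Algebra R A]
    [Algebra R B] (e : A ≃ₐ[R] B) (x : A) : e.toAlgHom x = e x := rfl

section Levels

variable {L : Type} [Field L] [Algebra ℚ L] {M q ℓ : ℕ} [NeZero M] [NeZero q] [NeZero ℓ]

variable (L M q ℓ) in
/-- `F_{(Mq)ℓ} = F_{(Mℓ)q}`. -/
def swapEquiv : laurentBaseChange L (modularFunctionFieldFull (M * q * ℓ)) ≃ₐ[L]
    laurentBaseChange L (modularFunctionFieldFull (M * ℓ * q)) :=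
  IntermediateField.equivOfEq (by rw [mul_right_comm])

@[simp] theorem coe_swapEquiv (x : laurentBaseChange L (modularFunctionFieldFull (M * q * ℓ))) :
    (swapEquiv L M q ℓ x : LaurentSeries L) = x := coe_equivOfEq _ x

theorem swap_alpha_alpha (x : laurentBaseChange L (modularFunctionFieldFull M)) :
    swapEquiv L M q ℓ (heckeAlphaBar L (M * q) ℓ (heckeAlphaBar L M q x)) =
      heckeAlphaBar L (M * ℓ) q (heckeAlphaBar L M ℓ x) := by
  apply Subtype.ext
  simp only [coe_swapEquiv, coe_heckeAlphaBar]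

theorem swap_alpha_beta (x : laurentBaseChange L (modularFunctionFieldFull M)) :
    swapEquiv L M q ℓ (heckeAlphaBar L (M * q) ℓ (heckeBetaBar L M q x)) =
      heckeBetaBar L (M * ℓ) q (heckeAlphaBar L M ℓ x) := by
  apply Subtype.ext
  simp only [coe_swapEquiv, coe_heckeAlphaBar, coe_heckeBetaBar]

theorem swap_beta_alpha (x : laurentBaseChange L (modularFunctionFieldFull M)) :
    swapEquiv L M q ℓ (heckeBetaBar L (M * q) ℓ (heckeAlphaBar L M q x)) =
      heckeAlphaBar L (M * ℓ) q (heckeBetaBar L M ℓ x) := by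
  apply Subtype.ext
  simp only [coe_swapEquiv, coe_heckeAlphaBar, coe_heckeBetaBar]

theorem swap_beta_beta (x : laurentBaseChange L (modularFunctionFieldFull M)) :
    swapEquiv L M q ℓ (heckeBetaBar L (M * q) ℓ (heckeBetaBar L M q x)) =
      heckeBetaBar L (M * ℓ) q (heckeBetaBar L M ℓ x) := by
  apply Subtype.ext
  simp only [coe_swapEquiv, coe_heckeBetaBar]
  rw [ModularCurve.qExpand_qExpand, ModularCurve.qExpand_qExpand]
  have : ∀ {a b : ℕ} [NeZero a] [NeZero b] (_ : a = b) (f : LaurentSeries L),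
      qExpand L a f = qExpand L b f := by
    intro a b _ _ hab f
    subst hab
    rfl
  exact this (mul_comm _ _) _

variable {w : laurentBaseChange L (modularFunctionFieldFull (M * q)) ≃ₐ[L]
      laurentBaseChange L (modularFunctionFieldFull (M * q))}
  {w' : laurentBaseChange L (modularFunctionFieldFull (M * ℓ * q)) ≃ₐ[L]
      laurentBaseChange L (modularFunctionFieldFull (M * ℓ * q))}

/-- `w_q` commutes with `α_ℓ`. -/
theorem al_alpha (hq : q.Prime) (hw : IsAL w) (hw' : IsAL w')
    (x : laurentBaseChange L (modularFunctionFieldFull (M * q))) :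
    w' (swapEquiv L M q ℓ (heckeAlphaBar L (M * q) ℓ x)) =
      swapEquiv L M q ℓ (heckeAlphaBar L (M * q) ℓ (w x)) := by
  have key : (w'.toAlgHom.comp (swapEquiv L M q ℓ).toAlgHom).comp (heckeAlphaBar L (M * q) ℓ) =
      ((swapEquiv L M q ℓ).toAlgHom.comp (heckeAlphaBar L (M * q) ℓ)).comp w.toAlgHom := by
    apply algHom_ext_alpha_beta hq
    · intro x
      show w' (swapEquiv L M q ℓ (heckeAlphaBar L (M * q) ℓ (heckeAlphaBar L M q x))) =
        swapEquiv L M q ℓ (heckeAlphaBar L (M * q) ℓ (w (heckeAlphaBar L M q x)))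
      rw [swap_alpha_alpha, hw'.alpha, hw.alpha, swap_alpha_beta]
    · intro x
      show w' (swapEquiv L M q ℓ (heckeAlphaBar L (M * q) ℓ (heckeBetaBar L M q x))) =
        swapEquiv L M q ℓ (heckeAlphaBar L (M * q) ℓ (w (heckeBetaBar L M q x)))
      rw [swap_alpha_beta, hw'.beta, hw.beta, swap_alpha_alpha]
  exact congrArg (fun φ : laurentBaseChange L (modularFunctionFieldFull (M * q)) →ₐ[L]
    laurentBaseChange L (modularFunctionFieldFull (M * ℓ * q)) => φ x) key

/-- `w_q` commutes with `β_ℓ`. -/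
theorem al_beta (hq : q.Prime) (hw : IsAL w) (hw' : IsAL w')
    (x : laurentBaseChange L (modularFunctionFieldFull (M * q))) :
    w' (swapEquiv L M q ℓ (heckeBetaBar L (M * q) ℓ x)) =
      swapEquiv L M q ℓ (heckeBetaBar L (M * q) ℓ (w x)) := by
  have key : (w'.toAlgHom.comp (swapEquiv L M q ℓ).toAlgHom).comp (heckeBetaBar L (M * q) ℓ) =
      ((swapEquiv L M q ℓ).toAlgHom.comp (heckeBetaBar L (M * q) ℓ)).comp w.toAlgHom := by
    apply algHom_ext_alpha_beta hq
    · intro x
      show w' (swapEquiv L M q ℓ (heckeBetaBar L (M * q) ℓ (heckeAlphaBar L M q x))) =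
        swapEquiv L M q ℓ (heckeBetaBar L (M * q) ℓ (w (heckeAlphaBar L M q x)))
      rw [swap_beta_alpha, hw'.alpha, hw.alpha, swap_beta_beta]
    · intro x
      show w' (swapEquiv L M q ℓ (heckeBetaBar L (M * q) ℓ (heckeBetaBar L M q x))) =
        swapEquiv L M q ℓ (heckeBetaBar L (M * q) ℓ (w (heckeBetaBar L M q x)))
      rw [swap_beta_beta, hw'.beta, hw.beta, swap_beta_alpha]
  exact congrArg (fun φ : laurentBaseChange L (modularFunctionFieldFull (M * q)) →ₐ[L]
    laurentBaseChange L (modularFunctionFieldFull (M * ℓ * q)) => φ x) key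

end Levels

section Corr

variable {L : Type} [Field L] [Algebra ℚ L] {k : Type} [Field k] {A : ValuationSubring L}
  {π : A →+* k} {M q ℓ : ℕ} [NeZero M] [NeZero q] [NeZero ℓ] [ExpChar k q]
  {w : laurentBaseChange L (modularFunctionFieldFull (M * q)) ≃ₐ[L]
      laurentBaseChange L (modularFunctionFieldFull (M * q))}
  {w' : laurentBaseChange L (modularFunctionFieldFull (M * ℓ * q)) ≃ₐ[L]
      laurentBaseChange L (modularFunctionFieldFull (M * ℓ * q))}

/-- The reduction at the component of `∞` at level `(Mq)ℓ`. -/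
def upOne (S' : Setup π w') : RedDatum L
    (laurentBaseChange L (modularFunctionFieldFull (M * q * ℓ))) k
    (modularFunctionFieldFullC k (M * ℓ)) A π :=
  comapRed (redOne S') (swapEquiv L M q ℓ).toAlgHom

/-- The reduction at the component of `0` at level `(Mq)ℓ`. -/
def upTwo (S' : Setup π w') : RedDatum L
    (laurentBaseChange L (modularFunctionFieldFull (M * q * ℓ))) k
    (modularFunctionFieldFullC k (M * ℓ)) A π :=
  comapRed (redTwo S') (swapEquiv L M q ℓ).toAlgHom

theorem upOne_red (S' : Setup π w') {f : laurentBaseChange L (modularFunctionFieldFull (M * q * ℓ))}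
    {u : modularFunctionFieldFullC k (M * ℓ)} :
    (upOne S').Red f u ↔ GRed π (f : LaurentSeries L) (u : LaurentSeries k) := by
  rw [upOne, comapRed_red, redOne_red, toAlgHom_apply', coe_swapEquiv]

theorem upTwo_red (S' : Setup π w') {f : laurentBaseChange L (modularFunctionFieldFull (M * q * ℓ))}
    {u : modularFunctionFieldFullC k (M * ℓ)} :
    (upTwo S').Red f u ↔ GRed π (w' (swapEquiv L M q ℓ f) : LaurentSeries L)
      (u : LaurentSeries k) := by
  rw [upTwo, comapRed_red, redTwo_red, toAlgHom_apply']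

theorem upOne_surj (S' : Setup π w') (v : modularFunctionFieldFullC k (M * ℓ)) :
    ∃ y, (upOne S').Red y v := by
  obtain ⟨f, hf⟩ := redOne_surjective S' v
  refine ⟨(swapEquiv L M q ℓ).symm f, ?_⟩
  rw [upOne, comapRed_red, toAlgHom_apply', AlgEquiv.apply_symm_apply]
  exact hf

theorem upTwo_surj (S' : Setup π w') (v : modularFunctionFieldFullC k (M * ℓ)) :
    ∃ y, (upTwo S').Red y v := by
  obtain ⟨f, hf⟩ := redTwo_surjective S' v
  refine ⟨(swapEquiv L M q ℓ).symm f, ?_⟩
  rw [upTwo, comapRed_red, toAlgHom_apply', AlgEquiv.apply_symm_apply]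
  exact hf

theorem along_one_alpha (S : Setup π w) (S' : Setup π w') :
    RedAlong (redOne S) (upOne S') (heckeAlphaBar L (M * q) ℓ) (alphaC k M ℓ) := by
  intro f u h
  rw [upOne_red, coe_heckeAlphaBar, coe_alphaC]
  exact h

theorem along_one_beta (S : Setup π w) (S' : Setup π w') :
    RedAlong (redOne S) (upOne S') (heckeBetaBar L (M * q) ℓ) (betaC k M ℓ) := by
  intro f u h
  rw [upOne_red, coe_heckeBetaBar, coe_betaC]
  exact GRed.qExpand h ℓ

theorem along_two_alpha (hq : q.Prime) (S : Setup π w) (S' : Setup π w') :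
    RedAlong (redTwo S) (upTwo S') (heckeAlphaBar L (M * q) ℓ) (alphaC k M ℓ) := by
  intro f u h
  rw [upTwo_red, al_alpha hq S.al S'.al, coe_swapEquiv, coe_heckeAlphaBar, coe_alphaC]
  exact h

theorem along_two_beta (hq : q.Prime) (S : Setup π w) (S' : Setup π w') :
    RedAlong (redTwo S) (upTwo S') (heckeBetaBar L (M * q) ℓ) (betaC k M ℓ) := by
  intro f u h
  rw [upTwo_red, al_beta hq S.al S'.al, coe_swapEquiv, coe_heckeBetaBar, coe_betaC]
  exact GRed.qExpand h ℓ

/-- `T_ℓ` on the component of `∞`. -/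
theorem corrRed_one (hq : q.Prime) (hqM : ¬ q ∣ M * ℓ) (h : ((M * ℓ : ℕ) : k) ≠ 0)
    (S : Setup π w) (S' : Setup π w') :
    CorrRed (redOne S) (redOne S) (upOne S') (heckeBetaBar L (M * q) ℓ)
      (heckeAlphaBar L (M * q) ℓ) (betaC k M ℓ) (alphaC k M ℓ) where
  surj := upOne_surj S'
  along_fst := along_one_beta S S'
  along_snd := along_one_alpha S S'
  fin := Fermat.Agent.Jan.DegreeWiring.finiteAlong_heckeAlphaBar' L (M * q) ℓ
  fin₁ := finiteAlong_alphaC h
  finrank := finrankAlong_alpha_eq M q ℓ hq hqM h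

/-- `T_ℓ` on the component of `0`. -/
theorem corrRed_two (hq : q.Prime) (hqM : ¬ q ∣ M * ℓ) (h : ((M * ℓ : ℕ) : k) ≠ 0)
    (S : Setup π w) (S' : Setup π w') :
    CorrRed (redTwo S) (redTwo S) (upTwo S') (heckeBetaBar L (M * q) ℓ)
      (heckeAlphaBar L (M * q) ℓ) (betaC k M ℓ) (alphaC k M ℓ) where
  surj := upTwo_surj S'
  along_fst := along_two_beta hq S S'
  along_snd := along_two_alpha hq S S'
  fin := Fermat.Agent.Jan.DegreeWiring.finiteAlong_heckeAlphaBar' L (M * q) ℓ
  fin₁ := finiteAlong_alphaC h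
  finrank := finrankAlong_alpha_eq M q ℓ hq hqM h

end Corr

end Fermat.Agent.DR.Mod
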