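import Fermat.Agent.DR.Mod.SetupExists
import Fermat.Agent.DR.SpecCorr
import Fermat.Agent.JRED.ModularFF

set_option autoImplicit false

/-!
# Hecke correspondences `T_ℓ`, `ℓ ≠ char k`, on `F̄_M = F_M(k)`

`heckeDivC k M ℓ h`, `heckeC k M ℓ h : Pic⁰ →+ Pic⁰` for `(Mℓ : k) ≠ 0`.
-/

noncomputable section

open AlgebraicCurve ModularCurve IntermediateField Fermat.FF
open Fermat.Agent.JRED Fermat.Agent.JRED.AL
open Fermat.Agent.Jan.HeckeNorm (normAlong normAlong_ne_zero nsmul_correspondence_eq_ord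
  correspondence_eq_ord)

namespace Fermat.Agent.DR.Mod

section Char

variable {k : Type} [Field k] {M ℓ : ℕ} [NeZero M] [NeZero ℓ]

theorem cast_ne_zero_left (h : ((M * ℓ : ℕ) : k) ≠ 0) : (M : k) ≠ 0 :=
  fun h0 => h (by rw [Nat.cast_mul, h0, zero_mul])

theorem cast_ne_zero_right (h : ((M * ℓ : ℕ) : k) ≠ 0) : (ℓ : k) ≠ 0 :=
  fun h0 => h (by rw [Nat.cast_mul, h0, mul_zero])

omit [NeZero ℓ] in
theorem isFF1_fullC (h : (M : k) ≠ 0) : IsFF1 k (modularFunctionFieldFullC k M) :=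
  ⟨jRed k M, transcendental_jRed k M, finite_full_jRed h⟩

omit [NeZero ℓ] in
theorem functionField_fullC (h : (M : k) ≠ 0) :
    RR.FunctionField k (modularFunctionFieldFullC k M) := by
  have := isFF1_fullC h
  exact functionField_of_isFF1 k _

omit [NeZero ℓ] in
theorem hasPrincipalDivisors_fullC (h : (M : k) ≠ 0) :
    HasPrincipalDivisors k (modularFunctionFieldFullC k M) := by
  have := isFF1_fullC h
  exact Fermat.FF.Gen.hasPrincipalDivisors

theorem finiteAlong_alphaC (h : ((M * ℓ : ℕ) : k) ≠ 0) : FiniteAlong k (alphaC k M ℓ) := by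
  have := isFF1_fullC (cast_ne_zero_left h)
  have := isFF1_fullC h
  exact Fermat.Agent.Jan.HeckeInputs.finiteAlong _

theorem finiteAlong_betaC (h : ((M * ℓ : ℕ) : k) ≠ 0) : FiniteAlong k (betaC k M ℓ) := by
  have := isFF1_fullC (cast_ne_zero_left h)
  have := isFF1_fullC h
  exact Fermat.Agent.Jan.HeckeInputs.finiteAlong _

theorem isIntegral_alphaC (h : ((M * ℓ : ℕ) : k) ≠ 0) :
    (alphaC k M ℓ).toRingHom.IsIntegral :=
  Fermat.Agent.Jan.HeckeInputs.isIntegral_of_finite _ (finiteAlong_alphaC h)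

theorem isIntegral_betaC (h : ((M * ℓ : ℕ) : k) ≠ 0) :
    (betaC k M ℓ).toRingHom.IsIntegral :=
  Fermat.Agent.Jan.HeckeInputs.isIntegral_of_finite _ (finiteAlong_betaC h)

theorem fundamentalIdentity_betaC (h : ((M * ℓ : ℕ) : k) ≠ 0) :
    haveI := hasPrincipalDivisors_fullC h
    FundamentalIdentityAlong k (betaC k M ℓ) (isIntegral_betaC h) := by
  have := hasPrincipalDivisors_fullC h
  have := isFF1_fullC (cast_ne_zero_left h)
  exact Fermat.FF.Rel.fundamentalIdentityAlong _ _ (finiteAlong_betaC h)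

theorem normFormula_alphaC (h : ((M * ℓ : ℕ) : k) ≠ 0) :
    NormFormulaAlong k (alphaC k M ℓ) (finiteAlong_alphaC h) := by
  have := isFF1_fullC (cast_ne_zero_left h)
  exact Fermat.FF.Rel.normFormulaAlong _ _

variable (k M ℓ) in
/-- `T_ℓ = α_* β^*` on divisors of `F̄_M`. -/
def heckeDivC (h : ((M * ℓ : ℕ) : k) ≠ 0) :
    Divisor k (modularFunctionFieldFullC k M) →+ Divisor k (modularFunctionFieldFullC k M) :=
  haveI := hasPrincipalDivisors_fullC h
  Divisor.correspondence (betaC k M ℓ) (alphaC k M ℓ) (isIntegral_betaC h) (isIntegral_alphaC h)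

variable (k M ℓ) in
/-- `T_ℓ = α_* β^*` on `Pic⁰ F̄_M`. -/
def heckeC (h : ((M * ℓ : ℕ) : k) ≠ 0) :
    Pic0 k (modularFunctionFieldFullC k M) →+ Pic0 k (modularFunctionFieldFullC k M) :=
  haveI := hasPrincipalDivisors_fullC h
  Pic0.correspondence (betaC k M ℓ) (alphaC k M ℓ) (isIntegral_betaC h) (isIntegral_alphaC h)
    (fundamentalIdentity_betaC h) (finiteAlong_alphaC h) (normFormula_alphaC h)

theorem heckeDivC_mem_degZero (h : ((M * ℓ : ℕ) : k) ≠ 0)
    {D : Divisor k (modularFunctionFieldFullC k M)}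
    (hD : D ∈ Divisor.degZero (K := k) (F := modularFunctionFieldFullC k M)) :
    heckeDivC k M ℓ h D ∈ Divisor.degZero (K := k) (F := modularFunctionFieldFullC k M) := by
  have := hasPrincipalDivisors_fullC h
  exact Divisor.correspondence_mem_degZero _ _ _ _ (fundamentalIdentity_betaC h) hD

theorem heckeC_mk (h : ((M * ℓ : ℕ) : k) ≠ 0)
    (D : Divisor.degZero (K := k) (F := modularFunctionFieldFullC k M)) :
    heckeC k M ℓ h (Pic0.mk D) = Pic0.mk ⟨heckeDivC k M ℓ h D, heckeDivC_mem_degZero h D.2⟩ :=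
  rfl

/-- `T_ℓ (div u) = div (N_α (β u))`. -/
theorem heckeDivC_eq_ord (h : ((M * ℓ : ℕ) : k) ≠ 0) {u : modularFunctionFieldFullC k M}
    (hu : u ≠ 0) {D : Divisor k (modularFunctionFieldFullC k M)} (hD : ∀ P, D P = P.ord u)
    (P : Place k (modularFunctionFieldFullC k M)) :
    heckeDivC k M ℓ h D P = P.ord (normAlong (alphaC k M ℓ) (betaC k M ℓ u)) := by
  have := hasPrincipalDivisors_fullC h
  exact correspondence_eq_ord _ _ _ _ (finiteAlong_alphaC h) (normFormula_alphaC h) hu hD P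

theorem nsmul_heckeDivC_eq_ord (h : ((M * ℓ : ℕ) : k) ≠ 0) {u : modularFunctionFieldFullC k M}
    (hu : u ≠ 0) {n : ℤ} {D : Divisor k (modularFunctionFieldFullC k M)}
    (hD : ∀ P, n * D P = P.ord u) (P : Place k (modularFunctionFieldFullC k M)) :
    n * heckeDivC k M ℓ h D P = P.ord (normAlong (alphaC k M ℓ) (betaC k M ℓ u)) := by
  have := hasPrincipalDivisors_fullC h
  exact nsmul_correspondence_eq_ord _ _ _ _ (finiteAlong_alphaC h) (normFormula_alphaC h) hu hD P

theorem heckeDivC_single_nonneg (h : ((M * ℓ : ℕ) : k) ≠ 0)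
    (P : Place k (modularFunctionFieldFullC k M)) :
    0 ≤ heckeDivC k M ℓ h (Finsupp.single P 1) := by
  have := hasPrincipalDivisors_fullC h
  show 0 ≤ Divisor.correspondence _ _ _ _ _
  rw [Divisor.correspondence_apply, Divisor.pullbackAlong_single, map_sum]
  refine Finset.sum_nonneg fun W _ => ?_
  rw [Divisor.pushforwardAlong_single]
  exact Finsupp.single_nonneg.mpr (by positivity)

theorem degree_heckeDivC (h : ((M * ℓ : ℕ) : k) ≠ 0)
    (D : Divisor k (modularFunctionFieldFullC k M)) :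
    Divisor.degree (heckeDivC k M ℓ h D) =
      (finrankAlong k (betaC k M ℓ) : ℤ) * Divisor.degree D := by
  have := hasPrincipalDivisors_fullC h
  exact Divisor.degree_correspondence _ _ _ _ (fundamentalIdentity_betaC h) D

end Char

section Degree

variable {L k : Type} [Field L] [Algebra ℚ L] [Field k]

/-- The degrees along `α_ℓ` at level `Mq` over `L` and at level `M` over `k` agree. -/
theorem finrankAlong_alpha_eq (M q ℓ : ℕ) [NeZero M] [NeZero q] [NeZero ℓ] (hq : q.Prime)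
    (hqM : ¬ q ∣ M * ℓ) (h : ((M * ℓ : ℕ) : k) ≠ 0) :
    finrankAlong L (heckeAlphaBar L (M * q) ℓ) = finrankAlong k (alphaC k M ℓ) := by
  have h1 := finrankAlong_heckeAlphaBar_mul L (M * q) ℓ
  have h2 := finrankAlong_alphaC_mul M ℓ h
  have hqM' : ¬ q ∣ M := fun hd => hqM (hd.mul_right ℓ)
  have h0 : dedekindPsi (M * q * ℓ) = dedekindPsi (M * ℓ * q) := by rw [mul_right_comm]
  rw [h0, Fermat.Agent.Jan.HeckeCommute.dedekindPsi_mul_prime M q (NeZero.ne M) hq, if_neg hqM',
    Fermat.Agent.Jan.HeckeCommute.dedekindPsi_mul_prime (M * ℓ) q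
      (Nat.mul_ne_zero (NeZero.ne M) (NeZero.ne ℓ)) hq, if_neg hqM, ← h2] at h1
  have h3 : 0 < dedekindPsi M * (q + 1) :=
    Nat.mul_pos (Fermat.Agent.Jan.HeckeCommute.dedekindPsi_pos M) (Nat.succ_pos q)
  refine Nat.eq_of_mul_eq_mul_left h3 ?_
  rw [h1]
  ring

end Degree

end Fermat.Agent.DR.Mod
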