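import Fermat.Agent.DR.Mod.HeckeC
import Fermat.Agent.JRED.XInt
import Fermat.Agent.S28.DegreeGen

set_option autoImplicit false

/-!
# `T_ℓ` preserves the cusps of `F̄_M`

`heckeDivC_cusp`, `heckeDivC_finite`: `T_ℓ` maps divisors supported at (away from) the poles of `j`
to divisors supported at (away from) the poles of `j`.
-/

noncomputable section

open AlgebraicCurve ModularCurve IntermediateField Polynomial
open Fermat.Agent.JRED Fermat.Agent.JRED.AL Fermat.Agent.S28

namespace Fermat.Agent.DR.Mod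

section General

variable {K E F : Type*} [Field K] [Field E] [Algebra K E] [Field F] [Algebra K F]

theorem isIntegral_adjoin_map (φ : E →ₐ[K] F) {a b : E}
    (h : IsIntegral (Algebra.adjoin K {a}) b) : IsIntegral (Algebra.adjoin K {φ a}) (φ b) := by
  obtain ⟨p, hp, hp0⟩ := h
  have hle : ∀ z : Algebra.adjoin K {a}, φ z ∈ Algebra.adjoin K {φ a} := by
    intro z
    have h1 : (Algebra.adjoin K {a}).map φ = Algebra.adjoin K {φ a} := by
      rw [AlgHom.map_adjoin, Set.image_singleton]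
    rw [← h1]
    exact ⟨z, z.2, rfl⟩
  let g : Algebra.adjoin K {a} →+* Algebra.adjoin K {φ a} :=
    { toFun := fun z => ⟨φ z, hle z⟩
      map_one' := Subtype.ext (map_one φ)
      map_mul' := fun x y => Subtype.ext (map_mul φ (x : E) (y : E))
      map_zero' := Subtype.ext (map_zero φ)
      map_add' := fun x y => Subtype.ext (map_add φ (x : E) (y : E)) }
  refine ⟨p.map g, hp.map g, ?_⟩
  rw [eval₂_map]
  have h2 : (algebraMap (Algebra.adjoin K {φ a}) F).comp g =
      (φ : E →+* F).comp (algebraMap (Algebra.adjoin K {a}) E) := rfl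
  rw [h2]
  have h3 := Polynomial.hom_eval₂ p (algebraMap (Algebra.adjoin K {a}) E) (φ : E →+* F) b
  rw [hp0, map_zero] at h3
  exact h3.symm

theorem ord_restrictAlong_nonneg_iff (φ : E →ₐ[K] F) (hφ : φ.toRingHom.IsIntegral)
    (w : Place K F) (f : E) : 0 ≤ (w.restrictAlong φ hφ).ord f ↔ 0 ≤ w.ord (φ f) := by
  rw [Place.ord_restrictAlong φ hφ w f]
  have hpos : 0 < Place.ramificationIndexAlong φ w := by
    letI := algebraAlong φ
    haveI := isScalarTower_along φ
    haveI := isIntegral_along φ hφ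
    exact w.ramificationIndex_pos (F := E)
  have hpos' : (0 : ℤ) < Place.ramificationIndexAlong φ w := by exact_mod_cast hpos
  constructor
  · intro h; exact mul_nonneg hpos'.le h
  · intro h; exact nonneg_of_mul_nonneg_right h hpos'

theorem ord_nonneg_of_isIntegral (v : Place K F) {x y : F} (hx : 0 ≤ v.ord x)
    (hy : IsIntegral (Algebra.adjoin K {x}) y) : 0 ≤ v.ord y := by
  exact Fermat.Agent.RR.ord_nonneg_of_mem v
    (IntRed.mem_of_isIntegral_adjoin v (Fermat.Agent.RR.mem_of_ord_nonneg v hx) hy)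

end General

section Support

variable {K F Z : Type*} [Field K] [Field F] [Field Z] [Algebra K F] [Algebra K Z]
  [HasPrincipalDivisors K Z]

/-- Support of a correspondence. -/
theorem exists_of_correspondence_ne_zero (φ ψ : F →ₐ[K] Z) (hφ : φ.toRingHom.IsIntegral)
    (hψ : ψ.toRingHom.IsIntegral) {D : Divisor K F} {Q : Place K F}
    (h : Divisor.correspondence φ ψ hφ hψ D Q ≠ 0) :
    ∃ w : Place K Z, w.restrictAlong ψ hψ = Q ∧ D (w.restrictAlong φ hφ) ≠ 0 := by
  classical
  by_contra hcon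
  push Not at hcon
  apply h
  have h1 : ∀ E : Divisor K Z, (∀ w : Place K Z, w.restrictAlong ψ hψ = Q → E w = 0) →
      Divisor.pushforwardAlong ψ hψ E Q = 0 := by
    intro E hE
    conv_lhs => rw [← Finsupp.sum_single E]
    rw [Finsupp.sum, map_sum, Finsupp.finsetSum_apply]
    refine Finset.sum_eq_zero fun w hw => ?_
    rw [Divisor.pushforwardAlong_single, Finsupp.single_apply]
    split_ifs with h2
    · rw [hE w h2, zero_mul]
    · rfl
  rw [Divisor.correspondence_apply]
  apply h1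
  intro w hw
  rw [Divisor.pullbackAlong_apply, hcon w hw, mul_zero]

end Support

section Modular

variable {k : Type} [Field k] {M ℓ : ℕ} [NeZero M] [NeZero ℓ]

/-- `j(q^d)` is integral over `k[j]` in `F̄_N`. -/
theorem isIntegral_jd {N : ℕ} (d : ℕ) [NeZero d] (hd : d ∣ N) :
    IsIntegral (Algebra.adjoin k {jRed k N})
      (⟨qExpand k d (jqModC k), jqModCd_mem_full k N hd⟩ : modularFunctionFieldFullC k N) :=
  isIntegral_of_j (R₀ := Algebra.adjoin k {jRed k N}) (A := modularFunctionFieldFullC k N)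
    (algebraMap (modularFunctionFieldFullC k N) (LaurentSeries k)) Subtype.val_injective
    ⟨jRed k N, Algebra.subset_adjoin rfl⟩ rfl N
    (fun d _ hd => ⟨qExpand k d (jqModC k), jqModCd_mem_full k N hd⟩) (fun _ _ _ => rfl) d ‹_› hd

/-- `j` is integral over `k[j(q^ℓ)]` in `F̄_ℓ`. -/
theorem isIntegral_j_jd [IsAlgClosed k] (h : (ℓ : k) ≠ 0) :
    IsIntegral (Algebra.adjoin k
      {(⟨qExpand k ℓ (jqModC k), jqModCd_mem_full k ℓ dvd_rfl⟩ : modularFunctionFieldFullC k ℓ)})
      (jRed k ℓ) := by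
  have h1 := isIntegral_adjoin_map (frickeC ℓ h : modularFunctionFieldFullC k ℓ →ₐ[k] modularFunctionFieldFullC k ℓ)
    (isIntegral_jd (k := k) (N := ℓ) ℓ dvd_rfl)
  have hℓ : ℓ ≠ 0 := NeZero.ne ℓ
  have e1 : (frickeC ℓ h : modularFunctionFieldFullC k ℓ →ₐ[k] modularFunctionFieldFullC k ℓ) (jRed k ℓ) =
      ⟨qExpand k ℓ (jqModC k), jqModCd_mem_full k ℓ dvd_rfl⟩ := by
    apply Subtype.ext
    have hm : jt (1 : kˣ) 1 ∈ modularFunctionFieldFullC k ℓ := by
      rw [jt_one_one]; exact jqModC_mem_full k ℓ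
    have e2 : jRed k ℓ = ⟨jt (1 : kˣ) 1, hm⟩ := Subtype.ext jt_one_one.symm
    rw [e2]
    exact (coe_frickeC_jt ℓ h 1 hm (one_dvd ℓ)).trans (by rw [Nat.div_one, jt_one_eq])
  have e3 : (frickeC ℓ h : modularFunctionFieldFullC k ℓ →ₐ[k] modularFunctionFieldFullC k ℓ)
      ⟨qExpand k ℓ (jqModC k), jqModCd_mem_full k ℓ dvd_rfl⟩ = jRed k ℓ := by
    rw [← e1]
    exact frickeC_frickeC ℓ h _
  rw [e1, e3] at h1
  exact h1

theorem betaC_jRed : betaC k M ℓ (jRed k M) =
    ⟨qExpand k ℓ (jqModC k), jqModCd_mem_full k (M * ℓ) (dvd_mul_left ℓ M)⟩ := rfl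

theorem isIntegral_beta_alpha : IsIntegral (Algebra.adjoin k {alphaC k M ℓ (jRed k M)})
    (betaC k M ℓ (jRed k M)) := by
  have h2 : alphaC k M ℓ (jRed k M) = jRed k (M * ℓ) := Subtype.ext (coe_alphaC _ _ _ _)
  rw [h2, betaC_jRed]
  exact isIntegral_jd ℓ (dvd_mul_left ℓ M)

theorem isIntegral_alpha_beta [IsAlgClosed k] (h : (ℓ : k) ≠ 0) :
    IsIntegral (Algebra.adjoin k {betaC k M ℓ (jRed k M)}) (alphaC k M ℓ (jRed k M)) := by
  let ι : modularFunctionFieldFullC k ℓ →ₐ[k] modularFunctionFieldFullC k (M * ℓ) :=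
    IntermediateField.inclusion (full_degeneracyC_le k (dvd_mul_left ℓ M))
  have h1 := isIntegral_adjoin_map ι (isIntegral_j_jd h)
  have e1 : ι ⟨qExpand k ℓ (jqModC k), jqModCd_mem_full k ℓ dvd_rfl⟩ = betaC k M ℓ (jRed k M) :=
    Subtype.ext (IntermediateField.coe_inclusion _ _)
  have e2 : ι (jRed k ℓ) = alphaC k M ℓ (jRed k M) := by
    apply Subtype.ext
    rw [coe_alphaC]
    exact IntermediateField.coe_inclusion _ _
  rw [e1, e2] at h1
  exact h1

/-- The places above a place of `F̄_M` along `α`, `β` are at finite distance simultaneously. -/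
theorem finite_iff [IsAlgClosed k] (h : ((M * ℓ : ℕ) : k) ≠ 0) (w : Place k (modularFunctionFieldFullC k (M * ℓ))) :
    0 ≤ (w.restrictAlong (alphaC k M ℓ) (isIntegral_alphaC h)).ord (jRed k M) ↔
      0 ≤ (w.restrictAlong (betaC k M ℓ) (isIntegral_betaC h)).ord (jRed k M) := by
  rw [ord_restrictAlong_nonneg_iff, ord_restrictAlong_nonneg_iff]
  exact ⟨fun h1 => ord_nonneg_of_isIntegral w h1 isIntegral_beta_alpha,
    fun h1 => ord_nonneg_of_isIntegral w h1 (isIntegral_alpha_beta (cast_ne_zero_right h))⟩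

/-- `T_ℓ` preserves divisors supported at finite distance. -/
theorem heckeDivC_finite [IsAlgClosed k] (h : ((M * ℓ : ℕ) : k) ≠ 0)
    {D : Divisor k (modularFunctionFieldFullC k M)}
    (hD : ∀ P : Place k (modularFunctionFieldFullC k M), P.ord (jRed k M) < 0 → D P = 0)
    (P : Place k (modularFunctionFieldFullC k M)) (hP : P.ord (jRed k M) < 0) :
    heckeDivC k M ℓ h D P = 0 := by
  have := hasPrincipalDivisors_fullC h
  by_contra hne
  obtain ⟨w, rfl, h2⟩ := exists_of_correspondence_ne_zero _ _ _ _ hne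
  apply h2
  apply hD
  rw [← not_le] at hP ⊢
  exact fun h3 => hP ((finite_iff h w).mpr h3)

/-- `T_ℓ` preserves divisors supported at the cusps. -/
theorem heckeDivC_cusp [IsAlgClosed k] (h : ((M * ℓ : ℕ) : k) ≠ 0)
    {D : Divisor k (modularFunctionFieldFullC k M)}
    (hD : ∀ P : Place k (modularFunctionFieldFullC k M), 0 ≤ P.ord (jRed k M) → D P = 0)
    (P : Place k (modularFunctionFieldFullC k M)) (hP : 0 ≤ P.ord (jRed k M)) :
    heckeDivC k M ℓ h D P = 0 := by
  have := hasPrincipalDivisors_fullC h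
  by_contra hne
  obtain ⟨w, rfl, h2⟩ := exists_of_correspondence_ne_zero _ _ _ _ hne
  exact h2 (hD _ ((finite_iff h w).mp hP))

end Modular

end Fermat.Agent.DR.Mod
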