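import Fermat.Agent.DR.Mod.Basic

set_option autoImplicit false
set_option linter.unusedSectionVars false
set_option linter.style.haveILetI false

/-!
# Embeddings, characteristic polynomials along a map, Gauss reduction of polynomials
-/

noncomputable section

open AlgebraicCurve ModularCurve Polynomial
open Fermat.Agent.JRED Fermat.Agent.S28 Fermat.Agent.Jan.HeckeNorm Fermat.Agent.Jan.HeckeInputs

namespace Fermat.Agent.DR.Mod

section Charpoly

variable {K E M Ω : Type*} [Field K] [Field E] [Field M] [Field Ω] [Algebra K E] [Algebra K M]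

/-- The characteristic polynomial along a `K`-algebra map of fields. -/
def charpolyAlong (ψ : E →ₐ[K] M) (hfin : FiniteAlong K ψ) (y : M) : E[X] :=
  letI := algebraAlong ψ
  haveI : Module.Finite E M := hfin
  (Algebra.lmul E M y).charpoly

theorem charpolyAlong_eval (ψ : E →ₐ[K] M) (hfin : FiniteAlong K ψ) (y : M) (t : E) :
    (charpolyAlong ψ hfin y).eval t = normAlong ψ (ψ t - y) := by
  letI := algebraAlong ψ
  haveI : Module.Finite E M := hfin
  change ((Algebra.lmul E M y).charpoly).eval t = Algebra.norm E (algebraMap E M t - y)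
  rw [LinearMap.eval_charpoly, Algebra.norm_apply]
  congr 1
  ext x
  simp [Algebra.smul_def]

theorem charpolyAlong_monic (ψ : E →ₐ[K] M) (hfin : FiniteAlong K ψ) (y : M) :
    (charpolyAlong ψ hfin y).Monic := by
  letI := algebraAlong ψ
  haveI : Module.Finite E M := hfin
  exact LinearMap.charpoly_monic _

theorem charpolyAlong_natDegree (ψ : E →ₐ[K] M) (hfin : FiniteAlong K ψ) (y : M) :
    (charpolyAlong ψ hfin y).natDegree = finrankAlong K ψ := by
  letI := algebraAlong ψ
  haveI : Module.Finite E M := hfin
  exact LinearMap.charpoly_natDegree _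

theorem charpolyAlong_aeval (ψ : E →ₐ[K] M) (hfin : FiniteAlong K ψ) (y : M) :
    (charpolyAlong ψ hfin y).eval₂ (ψ : E →+* M) y = 0 := by
  letI := algebraAlong ψ
  haveI : Module.Finite E M := hfin
  have h1 := LinearMap.aeval_self_charpoly (Algebra.lmul E M y)
  have h2 : aeval y ((Algebra.lmul E M y).charpoly) = 0 := by
    have h3 : aeval (Algebra.lmul E M y) ((Algebra.lmul E M y).charpoly) =
        Algebra.lmul E M (aeval y ((Algebra.lmul E M y).charpoly)) :=
      (Polynomial.aeval_algHom_apply (Algebra.lmul E M) y _).symm ▸ rfl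
    rw [h3] at h1
    have h4 := congrArg (fun f : M →ₗ[E] M => f 1) h1
    simpa using h4
  exact h2

/-- The trace along a map. -/
def traceAlong (ψ : E →ₐ[K] M) (y : M) : E :=
  letI := algebraAlong ψ
  Algebra.trace E M y

/-- **Characteristic polynomials are products over a complete family of embeddings.** -/
theorem map_charpolyAlong_eq_prod [CharZero K] (ψ : E →ₐ[K] M) (hfin : FiniteAlong K ψ)
    (i0 : E →+* Ω) {I : Type*} [Fintype I]
    (ι : I → (M →+* Ω)) (hι : ∀ i x, ι i (ψ x) = i0 x)
    (hinj : Function.Injective ι) (hcard : Fintype.card I = finrankAlong K ψ) (y : M) :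
    (charpolyAlong ψ hfin y).map i0 = ∏ i, (X - C (ι i y)) := by
  haveI : CharZero E := charZero_of_injective_algebraMap (algebraMap K E).injective
  haveI : Infinite E := inferInstance
  apply Polynomial.eq_of_infinite_eval_eq
  apply Set.Infinite.mono (s := Set.range i0)
  · rintro _ ⟨t, rfl⟩
    show eval (i0 t) (map i0 (charpolyAlong ψ hfin y)) = eval (i0 t) (∏ i, (X - C (ι i y)))
    rw [Polynomial.eval_map, Polynomial.eval₂_hom, charpolyAlong_eval,
      Fermat.Agent.JRED.ES.map_normAlong_eq_prod ψ hfin i0 ι hι hinj hcard, Polynomial.eval_prod]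
    refine Finset.prod_congr rfl fun i _ => ?_
    rw [map_sub, hι]
    simp
  · exact Set.infinite_range_of_injective i0.injective

theorem map_traceAlong_eq_sum [CharZero K] (ψ : E →ₐ[K] M) (hfin : FiniteAlong K ψ)
    (i0 : E →+* Ω) {I : Type*} [Fintype I]
    (ι : I → (M →+* Ω)) (hι : ∀ i x, ι i (ψ x) = i0 x)
    (hinj : Function.Injective ι) (hcard : Fintype.card I = finrankAlong K ψ) (y : M) :
    i0 (traceAlong ψ y) = ∑ i, ι i y := by
  letI := algebraAlong ψ
  haveI : FiniteDimensional E M := hfin
  haveI : CharZero E := charZero_of_injective_algebraMap (algebraMap K E).injective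
  letI : Algebra E Ω := i0.toAlgebra
  have hmap : ∀ x, algebraMap Ω (AlgebraicClosure Ω) (i0 x) = algebraMap E (AlgebraicClosure Ω) x :=
    fun x => (IsScalarTower.algebraMap_apply E Ω (AlgebraicClosure Ω) x).symm
  let κ : I → (M →ₐ[E] AlgebraicClosure Ω) := fun i =>
    { (algebraMap Ω (AlgebraicClosure Ω)).comp (ι i) with
      commutes' := fun x => by
        change algebraMap Ω (AlgebraicClosure Ω) (ι i (algebraMap E M x)) = _
        rw [show algebraMap E M x = ψ x from rfl, hι, hmap] }
  have hκ : ∀ i x, κ i x = algebraMap Ω (AlgebraicClosure Ω) (ι i x) := fun _ _ => rfl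
  have hκinj : Function.Injective κ := by
    intro i i' h
    apply hinj
    ext x
    apply (algebraMap Ω (AlgebraicClosure Ω)).injective
    rw [← hκ, ← hκ, h]
  have hbij : Function.Bijective κ := by
    rw [Fintype.bijective_iff_injective_and_card]
    refine ⟨hκinj, ?_⟩
    rw [hcard, AlgHom.card E M (AlgebraicClosure Ω)]
    rfl
  apply (algebraMap Ω (AlgebraicClosure Ω)).injective
  rw [hmap]
  change algebraMap E (AlgebraicClosure Ω) (Algebra.trace E M y) = _
  rw [trace_eq_sum_embeddings (AlgebraicClosure Ω), map_sum]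
  exact (Fintype.sum_bijective κ hbij _ _ fun i => (hκ i y).symm).symm

/-- An automorphism exchanging two maps exchanges their norms. -/
theorem normAlong_swap (α β : E →ₐ[K] M) (w : M ≃ₐ[K] M) (hw : ∀ x, w (α x) = β x) (y : M) :
    normAlong β (w y) = normAlong α y :=
  @Algebra.norm_eq_of_algEquiv E M M _ _ (algebraAlong α) _ (algebraAlong β)
    (@AlgEquiv.mk E M M _ _ _ (algebraAlong α) (algebraAlong β) w.toEquiv (map_mul w) (map_add w)
      (fun x => hw x)) y

/-- The same for characteristic polynomials. -/
theorem charpolyAlong_swap [CharZero K] (α β : E →ₐ[K] M) (hα : FiniteAlong K α)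
    (hβ : FiniteAlong K β) (w : M ≃ₐ[K] M) (hw : ∀ x, w (α x) = β x) (y : M) :
    charpolyAlong β hβ (w y) = charpolyAlong α hα y := by
  haveI : CharZero E := charZero_of_injective_algebraMap (algebraMap K E).injective
  haveI : Infinite E := inferInstance
  apply Polynomial.funext
  intro t
  rw [charpolyAlong_eval, charpolyAlong_eval, ← hw, ← map_sub, normAlong_swap α β w hw]

end Charpoly

end Fermat.Agent.DR.Mod
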