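import Fermat.Agent.DR.Mod2.Inf
import Fermat.Agent.DR.Mod.FrobFixed
import Fermat.Agent.DR.Nodes.ToNodal

set_option autoImplicit false

/-!
# Nodal data from two degeneracy maps: assembly

`DegPair.exists_nodal`: a `DegPair` (helper84) with independent surjective reductions, the degree
equality, a Frobenius-semilinear automorphism `g` with `Φ (g u) = u ^ q`, and the genus inequality
gives a `NodalDatum`.
-/

noncomputable section

open AlgebraicCurve Fermat.Agent.RR Fermat.Agent.JRED IntermediateField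
open Fermat.Agent.DR.PairDegree Fermat.Agent.DR.PairOrtho Fermat.Agent.DR.PairShift
  Fermat.Agent.DR.Nodes Fermat.Agent.DR.Mod2

namespace Fermat.Agent.DR.Mod

section Abstract

variable {k F : Type*} [Field k] [Field F] [Algebra k F]

theorem pow_mem_place_iff {P : Place k F} {x : F} {n : ℕ} (hn : n ≠ 0) :
    x ^ n ∈ P.toValuationSubring ↔ x ∈ P.toValuationSubring := by
  constructor
  · intro h
    rcases P.toValuationSubring.mem_or_inv_mem x with h1 | h1
    · exact h1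
    · obtain ⟨m, rfl⟩ := Nat.exists_eq_succ_of_ne_zero hn
      by_cases hx : x = 0
      · rw [hx]; exact zero_mem _
      have h2 := mul_mem h (pow_mem h1 m)
      have h3 : x ^ (m + 1) * x⁻¹ ^ m = x := by
        rw [pow_succ', mul_assoc, ← mul_pow, mul_inv_cancel₀ hx, one_pow, mul_one]
      rwa [Nat.succ_eq_add_one, h3] at h2
  · intro h
    exact pow_mem h n

theorem regAlg_pow {x : F} {n : ℕ} (hn : n ≠ 0) : regAlg k (x ^ n) = regAlg k x := by
  ext f
  rw [mem_regAlg, mem_regAlg]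
  constructor
  · intro h P hP
    exact h P ((pow_mem_place_iff hn).mpr hP)
  · intro h P hP
    exact h P ((pow_mem_place_iff hn).mp hP)

end Abstract

variable {K F G k Gb : Type*} [Field K] [Field F] [Algebra K F] [Field G] [Algebra K G] [Field k]
  [Field Gb] [Algebra k Gb] [FunctionField K F] [FunctionField K G]
  [FunctionField k Gb] {A : ValuationSubring K} {π : A →+* k} [IsAlgClosed K] [IsAlgClosed k]

omit [IsAlgClosed K] in
/-- The `T`-condition of helper45's `exists_nodalDatum`. -/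
theorem DegPair.frob_mem (D : DegPair K F G k Gb A π) (hπ : Function.Surjective π)
    (g : SemilinearAut k Gb) (hΦ : ∀ u, D.Φ (g • u) = u ^ D.q) {t : Gb}
    (ht : t ∈ regAlg k (D.xb ^ D.q)) (hgt : g • t = t) :
    ∃ n, ((0 : Gb), t ^ D.q ^ 2 - t) ∈ redV hπ D.R₁ D.R₂ (D.α D.x) n := by
  have hq0 : D.q ≠ 0 := by have := D.two_le; omega
  rw [regAlg_pow hq0] at ht
  obtain ⟨n, f, hf, hft, hα, hβ⟩ := D.exists_lift_regAlg ht
  have hΦt : D.Φ t = t ^ D.q := by
    have h1 := hΦ t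
    rwa [hgt] at h1
  refine ⟨n * D.q, mem_redV.mpr ⟨D.α f ^ D.q - D.β f, ?_, ?_, ?_⟩⟩
  · refine Submodule.sub_mem _ (rr_pow hα D.q) ?_
    rw [mul_comm n]
    exact hβ
  · have h1 := RedDatum.sub (RedDatum.pow (D.red₁_α hft) D.q) (D.red₁_β hft)
    rwa [hΦt, sub_self] at h1
  · have h1 := RedDatum.sub (RedDatum.pow (D.red₂_α hft) D.q) (D.red₂_β hft)
    rwa [hΦt, ← pow_mul, ← sq] at h1

/-- **Assembly.** -/
theorem DegPair.exists_nodal (D : DegPair K F G k Gb A π) (hπ : Function.Surjective π)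
    (hrk : RankOne A) (hsep : Separated D.R₁ D.R₂)
    (hs1 : ∀ u : Gb, ∃ w, D.R₁.Red w u) (hs2 : ∀ u : Gb, ∃ w, D.R₂.Red w u)
    (htr : Transcendental k D.xb) [FiniteDimensional K⟮D.α D.x⟯ F]
    (hdeg : Module.finrank K⟮D.α D.x⟯ F =
      Module.finrank k⟮D.xb⟯ Gb + Module.finrank k⟮D.xb ^ D.q⟯ Gb)
    [Fact D.q.Prime] [CharP k D.q]
    (g : SemilinearAut k Gb) (hg : ∀ c, SemilinearAut.baseAut g c = c ^ D.q)
    (hgx : g • D.xb = D.xb) (hΦ : ∀ u, D.Φ (g • u) = u ^ D.q)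
    (hper : ∀ u : Gb, ∃ n : ℕ, n ≠ 0 ∧ (fun v : Gb => g • v)^[n] u = u)
    (hgen : genusFF k Gb + genusFF k Gb < genusFF K F + 1) :
    ∃ X : NodalDatum K F k Gb Gb A π, X.R₁ = D.R₁ ∧ X.R₂ = D.R₂ ∧
      (∃ a : A, X.x = D.α D.x - algebraMap K F a ∧ X.x₁ = D.xb - algebraMap k Gb (π a) ∧
        X.x₂ = D.xb ^ D.q - algebraMap k Gb (π a)) ∧
      (X.nodes.card : ℤ) = genusFF K F + 1 - genusFF k Gb - genusFF k Gb ∧
      ∃ n₀ : ℕ, ∀ n ≥ n₀, ∀ w ∈ WW k D.xb (D.xb ^ D.q) n,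
        (∀ s ∈ X.nodes, ∃ c : k, Val s.1 w.1 c ∧ Val s.2 w.2 c) →
          w ∈ redV hπ D.R₁ D.R₂ (D.α D.x) n := by
  have hq0 : D.q ≠ 0 := by have := D.two_le; omega
  have htr2 : Transcendental k (D.xb ^ D.q) := htr.pow (Nat.pos_of_ne_zero hq0)
  have hred1 : D.R₁.Red (D.α D.x) D.xb := D.red₁_α D.red_x
  have hred2 : D.R₂.Red (D.α D.x) (D.xb ^ D.q) := by
    rw [← D.Φ_xb]; exact D.red₂_α D.red_x
  have htrx : Transcendental K (D.α D.x) := RedDatum.transcendental_of_red hπ hred1 htr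
  have hd : Divisor.degree (polesOf (K := K) (D.α D.x)) =
      Divisor.degree (polesOf (K := k) D.xb) + Divisor.degree (polesOf (K := k) (D.xb ^ D.q)) := by
    have hfin1 := Fermat.Agent.JRED.Descent.finiteDimensional_of_transcendental htr
    have hfin2 := Fermat.Agent.JRED.Descent.finiteDimensional_of_transcendental htr2
    rw [degree_polesOf htrx, degree_polesOf htr, degree_polesOf htr2, hdeg]
    push_cast
    rfl
  have hgx2 : g • (D.xb ^ D.q) = D.xb ^ D.q := by rw [smul_pow', hgx]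
  exact exists_nodalDatum hπ hrk D.R₁ D.R₂ hsep hs1 hs2 hred1 hred2 htr htr2 hd
    (D.surj₁' hπ) (D.surj₂' hπ) (D.inf₁ hπ) (D.inf₂ hπ) D.q 2 two_pos
    {t | t ∈ regAlg k (D.xb ^ D.q) ∧ g • t = t}
    (adjoin_fixed_eq_of_semilinear g hg hgx2 (fun u _ => hper u))
    (fun t ht => DegPair.frob_mem D hπ g hΦ ht.1 ht.2) hgen

end Fermat.Agent.DR.Mod
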