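import Fermat.Agent.DR.Mono.Node
import Fermat.Agent.Jan.HeckeNorm
import Fermat.Agent.JRED.RedDatum

set_option autoImplicit false

/-!
# Place pairs from the Kronecker congruence

`R₁, R₂ : F ⇝ Gb`, `R : G ⇝ Gb`, `ψ : G → F` a finite map such that the norm along `ψ` reduces to
`u₁ · φ(u₂)`.  Every place `s` of `Gb` gives a `PlacePair` `(s, φ⁻¹ s)`.
-/

noncomputable section

open AlgebraicCurve Fermat.Agent.JRED Fermat.Agent.DR.Mono Fermat.Agent.Jan.HeckeNorm
  Fermat.Agent.Jan.RelFundamental Fermat.Agent.RR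

namespace Fermat.Agent.DR.Mod

section General

variable {K F : Type*} [Field K] [Field F] [Algebra K F] [HasPrincipalDivisors K F]

open Classical in
/-- `annSum` as a value of the push-forward of the divisor. -/
theorem annSum_fiber {X : Type*} (ρ : Place K F → X) (s : X) (f : F) :
    annSum {P : Place K F | ρ P = s} f = Finsupp.mapDomain ρ (divOf (K := K) f) s := by
  unfold annSum
  rw [Finsupp.mapDomain, Finsupp.sum, Finsupp.finsetSum_apply, Finset.sum_filter]
  refine Finset.sum_congr rfl fun P _ => ?_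
  rw [Finsupp.single_apply]
  simp only [Set.mem_ofPred_eq, divOf_apply]

end General

section Norm

variable {K F G : Type*} [Field K] [Field F] [Algebra K F] [Field G] [Algebra K G]
  [IsAlgClosed K] [CharZero K] [Fermat.FF.IsFF1 K G] [HasPrincipalDivisors K F]
  (ψ : G →ₐ[K] F) (hψ : ψ.toRingHom.IsIntegral) (hfin : FiniteAlong K ψ)

include hfin in
theorem pushforwardAlong_eq_mapDomain (D : Divisor K F) :
    Divisor.pushforwardAlong ψ hψ D =
      Finsupp.mapDomain (fun P : Place K F => P.restrictAlong ψ hψ) D := by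
  have h1 : Divisor.pushforwardAlong ψ hψ =
      Finsupp.mapDomain.addMonoidHom (fun P : Place K F => P.restrictAlong ψ hψ) := by
    refine Finsupp.addHom_ext' fun P => AddMonoidHom.ext_int ?_
    simp only [AddMonoidHom.comp_apply, Finsupp.singleAddHom_apply,
      Finsupp.mapDomain.addMonoidHom_apply, Finsupp.mapDomain_single]
    rw [Divisor.pushforwardAlong_single, inertiaDegAlong_eq_one ψ hψ hfin P, Nat.cast_one, one_mul]
  rw [h1, Finsupp.mapDomain.addMonoidHom_apply]

include hfin in
/-- The divisor of the norm is the push-forward of the divisor. -/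
theorem mapDomain_restrictAlong {f : F} (hf : f ≠ 0) (v : Place K G) :
    Finsupp.mapDomain (fun P : Place K F => P.restrictAlong ψ hψ) (divOf (K := K) f) v =
      v.ord (normAlong ψ f) := by
  rw [← pushforwardAlong_eq_mapDomain ψ hψ hfin]
  exact pushforwardAlong_eq_ord ψ hψ hfin (normFormulaAlong ψ hfin) hf (divOf_apply f) v

variable {k Gb : Type*} [Field k] [Field Gb] [Algebra k Gb] {A : ValuationSubring K} {π : A →+* k}
  {R : RedDatum K G k Gb A π} {r : Place K G → Place k Gb}

include hfin in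
/-- The number of zeros of `f` on the tube over `s` is the order at `s` of the reduction of the
norm. -/
theorem annSum_tube (hπ : Function.Surjective π) (hr : PlaceRed R r) {f : F} (hf : f ≠ 0)
    (s : Place k Gb) :
    annSum {P : Place K F | r (P.restrictAlong ψ hψ) = s} f = o R s (normAlong ψ f) := by
  have hN : normAlong ψ f ≠ 0 := normAlong_ne_zero ψ hfin hf
  obtain ⟨c, hc, u, hu, hcu⟩ := R.normalize _ hN
  rw [annSum_fiber, o_eq s hπ hcu hu]
  rw [show (fun P : Place K F => r (P.restrictAlong ψ hψ)) =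
    r ∘ (fun P : Place K F => P.restrictAlong ψ hψ) from rfl, Finsupp.mapDomain_comp]
  refine hr _ u hcu hu _ (fun P => ?_) s
  rw [mapDomain_restrictAlong ψ hψ hfin hf, P.ord_mul (by simpa using hc) hN,
    Fermat.FF.ord_algebraMap, zero_add]

end Norm

section Pair

variable {K F G : Type*} [Field K] [Field F] [Algebra K F] [Field G] [Algebra K G]
  [IsAlgClosed K] [CharZero K] [Fermat.FF.IsFF1 K G] [HasPrincipalDivisors K F]
  {k Gb : Type*} [Field k] [Field Gb] [Algebra k Gb] {A : ValuationSubring K} {π : A →+* k}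
  {R₁ R₂ : RedDatum K F k Gb A π} {R : RedDatum K G k Gb A π} {r : Place K G → Place k Gb}

/-- The place pair attached to a place `s`. -/
def placePair (hπ : Function.Surjective π) (ψ : G →ₐ[K] F) (hψ : ψ.toRingHom.IsIntegral)
    (hfin : FiniteAlong K ψ) (hr : PlaceRed R r) (φ : SemilinearAut k Gb) (q : ℕ)
    (hK : ∀ (c₁ c₂ : K) (f : F) (u₁ u₂ : Gb), R₁.Red (algebraMap K F c₁ * f) u₁ →
      R₂.Red (algebraMap K F c₂ * f) u₂ →
        R.Red (algebraMap K G (c₁ * c₂ ^ q) * normAlong ψ f) (u₁ * φ • u₂))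
    (s : Place k Gb) : PlacePair R₁ R₂ where
  s₁ := s
  s₂ := φ⁻¹ • s
  Ann := {P : Place K F | r (P.restrictAlong ψ hψ) = s}
  norm f hf := by
    obtain ⟨c₁, hc₁, u₁, hu₁, h1⟩ := R₁.normalize f hf
    obtain ⟨c₂, hc₂, u₂, hu₂, h2⟩ := R₂.normalize f hf
    have h3 := hK c₁ c₂ f u₁ u₂ h1 h2
    have hφ : φ • u₂ ≠ 0 := by
      rw [SemilinearAut.smul_def]
      exact (map_ne_zero_iff _ (SemilinearAut.toRingAut φ).injective).mpr hu₂
    rw [annSum_tube ψ hψ hfin hπ hr hf s, o_eq s hπ h3 (mul_ne_zero hu₁ hφ), o_eq s hπ h1 hu₁,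
      o_eq _ hπ h2 hu₂, s.ord_mul hu₁ hφ]
    have h4 := SemilinearAut.ord_smul φ (φ⁻¹ • s) u₂
    rw [smul_inv_smul] at h4
    rw [h4]

end Pair

end Fermat.Agent.DR.Mod
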