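import Fermat.Agent.DR.S36.LRed
import Fermat.Agent.DR.L2.LiftPair

set_option autoImplicit false

/-!
# `F_N(ℚ̄)` is spanned by `F_N(L)`

* `mem_span_F0`: every modular function is a `ℚ̄`-linear combination of functions over `L`.
* `exists_lift_of_span`: reductions of pairs lift to `F₀` if `F₀` spans `F`.
-/

noncomputable section

open AlgebraicCurve ModularCurve IntermediateField Fermat.Agent.JRED Fermat.Agent.RR

namespace Fermat.Agent.DR.Mod

section General

variable {K F : Type*} [Field K] [Field F] [Algebra K F]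

/-- The compositum of `K` and a subfield `F₀` with `K` algebraic over `F₀` is spanned by `F₀`. -/
theorem span_eq_top_of_algebraic (F₀ : Subfield F)
    (halg : ∀ c : K, IsAlgebraic F₀ (algebraMap K F c))
    (hgen : Subfield.closure (Set.range (algebraMap K F) ∪ (F₀ : Set F)) = ⊤) (x : F) :
    x ∈ Submodule.span K (F₀ : Set F) := by
  -- the span is closed under multiplication
  have hmul : ∀ x ∈ Submodule.span K (F₀ : Set F), ∀ y ∈ Submodule.span K (F₀ : Set F),
      x * y ∈ Submodule.span K (F₀ : Set F) := by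
    intro x hx y hy
    induction hx using Submodule.span_induction with
    | mem a ha =>
      induction hy using Submodule.span_induction with
      | mem b hb => exact Submodule.subset_span (mul_mem ha hb)
      | zero => rw [mul_zero]; exact zero_mem _
      | add b c _ _ hb hc => rw [mul_add]; exact add_mem hb hc
      | smul c b _ hb => rw [mul_smul_comm]; exact Submodule.smul_mem _ _ hb
    | zero => rw [zero_mul]; exact zero_mem _
    | add b c _ _ hb hc => rw [add_mul]; exact add_mem hb hc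
    | smul c b _ hb => rw [smul_mul_assoc]; exact Submodule.smul_mem _ _ hb
  let B : Subalgebra F₀ F :=
    { carrier := (Submodule.span K (F₀ : Set F) : Submodule K F)
      mul_mem' := fun {x y} hx hy => hmul x hx y hy
      add_mem' := fun {x y} hx hy => (Submodule.span K (F₀ : Set F)).add_mem hx hy
      algebraMap_mem' := fun c => Submodule.subset_span c.2 }
  have hx : x ∈ Subfield.closure (Set.range (algebraMap K F) ∪ (F₀ : Set F)) := by
    rw [hgen]; exact Subfield.mem_top x
  suffices h : x ∈ B ∧ IsAlgebraic F₀ x from h.1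
  induction hx using Subfield.closure_induction with
  | mem y hy =>
    rcases hy with ⟨a, rfl⟩ | hy
    · refine ⟨?_, halg a⟩
      show algebraMap K F a ∈ Submodule.span K (F₀ : Set F)
      have h1 : algebraMap K F a = a • (1 : F) := by rw [Algebra.smul_def, mul_one]
      rw [h1]
      exact Submodule.smul_mem _ _ (Submodule.subset_span (one_mem F₀))
    · exact ⟨Submodule.subset_span hy, isAlgebraic_algebraMap (⟨y, hy⟩ : F₀)⟩
  | one => exact ⟨B.one_mem, isAlgebraic_one⟩
  | add x y _ _ hx hy => exact ⟨B.add_mem hx.1 hy.1, hx.2.add hy.2⟩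
  | neg x _ hx => exact ⟨B.neg_mem hx.1, hx.2.neg⟩
  | inv x _ hx => exact ⟨B.inv_mem_of_algebraic (x := ⟨x, hx.1⟩) hx.2, hx.2.inv⟩
  | mul x y _ _ hx hy => exact ⟨B.mul_mem hx.1 hy.1, hx.2.mul hy.2⟩

end General

section Modular

open Fermat.Agent.DR.S36.L

variable {L : Type} [Field L] [Algebra L (AlgebraicClosure ℚ)] {N : ℕ}

/-- rational functions are defined over `L` -/
theorem coeffEmb_mem_F0 {z : LaurentSeries ℚ} (hz : z ∈ modularFunctionFieldFull N) :
    (⟨coeffEmb (AlgebraicClosure ℚ) z, coeffEmb_mem_laurentBaseChange _ hz⟩ :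
      modularFunctionFieldBar N) ∈ F0 L N := by
  have := charZero_of_algebra L
  refine exists_inc_eq fun n => ⟨((z.coeff n : ℚ) : L), ?_⟩
  rw [map_ratCast]
  exact (eq_ratCast (algebraMap ℚ (AlgebraicClosure ℚ)) (z.coeff n)).symm

theorem closure_F0 : Subfield.closure (Set.range (algebraMap (AlgebraicClosure ℚ)
    (modularFunctionFieldBar N)) ∪ (F0 L N : Set (modularFunctionFieldBar N))) = ⊤ := by
  rw [eq_top_iff]
  rintro x -
  set T := Subfield.closure (Set.range (algebraMap (AlgebraicClosure ℚ)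
    (modularFunctionFieldBar N)) ∪ (F0 L N : Set (modularFunctionFieldBar N))) with hT
  have hx := mem_laurentBaseChange_iff.mp x.2
  have hle : Subfield.closure (Set.range (algebraMap (AlgebraicClosure ℚ)
      (LaurentSeries (AlgebraicClosure ℚ))) ∪ (⇑(coeffEmb (AlgebraicClosure ℚ)) ''
        (modularFunctionFieldFull N : Set (LaurentSeries ℚ)))) ≤
      T.map (algebraMap (modularFunctionFieldBar N) (LaurentSeries (AlgebraicClosure ℚ))) := by
    rw [Subfield.closure_le]
    rintro _ (⟨c, rfl⟩ | ⟨z, hz, rfl⟩)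
    · exact ⟨algebraMap _ _ c, Subfield.subset_closure (Or.inl ⟨c, rfl⟩), rfl⟩
    · exact ⟨_, Subfield.subset_closure (Or.inr (coeffEmb_mem_F0 (L := L) hz)), rfl⟩
  obtain ⟨y, hy, hyx⟩ := hle hx
  have : y = x := Subtype.ext hyx
  rwa [← this]

/-- **`F_N(L)` spans `F_N(ℚ̄)`.** -/
theorem mem_span_F0 (L : Type) [Field L] [Algebra L (AlgebraicClosure ℚ)]
    (x : modularFunctionFieldBar N) :
    x ∈ Submodule.span (AlgebraicClosure ℚ) (F0 L N : Set (modularFunctionFieldBar N)) := by
  refine span_eq_top_of_algebraic (F0 L N) (fun c => ?_) closure_F0 x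
  obtain ⟨P, hP0, hP⟩ := Algebra.IsAlgebraic.isAlgebraic (R := ℚ) c
  have h0 : ∀ r : ℚ, algebraMap (AlgebraicClosure ℚ) (modularFunctionFieldBar N)
      (algebraMap ℚ (AlgebraicClosure ℚ) r) ∈ F0 L N := by
    intro r
    have := charZero_of_algebra L
    have h1 := algebraMap_mem_F0 (L := L) (N := N) (r : L)
    rwa [map_ratCast, ← eq_ratCast (algebraMap ℚ (AlgebraicClosure ℚ)) r] at h1
  let ι : ℚ →+* F0 L N := ((algebraMap (AlgebraicClosure ℚ) (modularFunctionFieldBar N)).comp
    (algebraMap ℚ (AlgebraicClosure ℚ))).codRestrict (F0 L N) h0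
  refine ⟨P.map ι, (Polynomial.map_ne_zero_iff ι.injective).mpr hP0, ?_⟩
  rw [Polynomial.aeval_def, Polynomial.eval₂_map]
  have h1 : ((algebraMap (F0 L N) (modularFunctionFieldBar N)).comp ι) =
      (algebraMap (AlgebraicClosure ℚ) (modularFunctionFieldBar N)).comp
        (algebraMap ℚ (AlgebraicClosure ℚ)) := rfl
  rw [h1, ← Polynomial.hom_eval₂, ← Polynomial.aeval_def, hP, map_zero]

end Modular

section Lift

open Fermat.Agent.DR.L2 Fermat.Agent.DR.Mono

variable {K F k F₁ F₂ : Type*} [Field K] [Field F] [Algebra K F] [Field k] [Field F₁] [Field F₂]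
  [Algebra k F₁] [Algebra k F₂] {A : ValuationSubring K} {π : A →+* k}
  {R₁ : RedDatum K F k F₁ A π} {R₂ : RedDatum K F k F₂ A π} {F₀ : Subfield F} {ϖ : K}

/-- Reductions of pairs lift to `F₀`. -/
theorem exists_lift_of_span (hπ : Function.Surjective π) (hA : Arch π)
    (h : DiscPair R₁ R₂ F₀ ϖ) (hspan : ∀ x : F, x ∈ Submodule.span K (F₀ : Set F))
    (ho : ∀ W : Submodule K F, Module.Finite K W → HasOrthoPair R₁ R₂ W) {x : F} {u : F₁ × F₂}
    (hx : Red₂ R₁ R₂ x u) : ∃ f ∈ F₀, Red₂ R₁ R₂ f u := by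
  obtain ⟨t, htF, hxt⟩ := Submodule.mem_span_finite_of_mem_span (hspan x)
  set V : Submodule K F := Submodule.span K (t : Set F) with hV
  have hfin : FiniteDimensional K V := FiniteDimensional.span_finset K t
  have h1 := exists_lift_rat hπ hA h (V := V) (by
    conv_lhs => rw [hV]
    exact Submodule.span_mono fun y hy => ⟨Submodule.subset_span hy, htF hy⟩) (ho V hfin)
  have h2 : u ∈ redPair R₁ R₂ hπ V := ⟨x, hxt, hx⟩
  rw [h1] at h2
  obtain ⟨f, -, hf, hfu⟩ := h2
  exact ⟨f, hf, hfu⟩

end Lift

end Fermat.Agent.DR.Mod
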