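import Fermat.Agent.DR.Mono.SpecInertia
import Fermat.Agent.DR.Mono.Inert
import Fermat.Agent.DR.Mod.HeckeSpec
import Fermat.Agent.DR.Mod.HeckeCusp
import Fermat.Agent.DR.Mod.Final
import Fermat.Agent.DR.ModGal.Compat
import Fermat.Agent.JRED.Main

/-!
# Inertia-invariant torsion classes of `J₀(Mq)` specialise up to an Eisenstein factor
-/

set_option autoImplicit false
set_option linter.unusedSectionVars false

noncomputable section

open AlgebraicCurve ModularCurve IntermediateField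
open Fermat.Agent.RR Fermat.Agent.JRED Fermat.Agent.JRED.AL Fermat.Agent.DR.Mono
open Fermat.Agent.JRED.ESGalois Fermat.Agent.DR.ModGal
open Fermat.Agent.Jan.HeckeNorm (normAlong normAlong_ne_zero nsmul_correspondence_eq_ord
  correspondence_eq_ord)

namespace Fermat.Agent.DR.Mod

local notation "Qbar" => AlgebraicClosure ℚ

variable {A : ValuationSubring Qbar} {k : Type} [Field k] {π : A →+* k}
  {M q : ℕ} [NeZero M] [hq : Fact q.Prime] [CharP k q] [ExpChar k q] [IsAlgClosed k]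
  {w : laurentBaseChange Qbar (modularFunctionFieldFull (M * q)) ≃ₐ[Qbar]
      laurentBaseChange Qbar (modularFunctionFieldFull (M * q))}

/-- Inertia acting on `F_N`. -/
def inertiaGrp (A : ValuationSubring Qbar) (N : ℕ) :
    Subgroup (SemilinearAut Qbar (modularFunctionFieldBar N)) :=
  (A.inertiaSubgroupIn ℚ).map (arithmeticGalois (modularFunctionFieldFull N))

omit [CharP k q] [IsAlgClosed k] in
theorem inertiaAut_of_mem (S : Setup π w) {g : SemilinearAut Qbar (modularFunctionFieldBar (M * q))}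
    (hg : g ∈ inertiaGrp A (M * q)) : InertiaAut (redOne S) (redTwo S) g := by
  obtain ⟨σ, hσ, rfl⟩ := hg
  have hres := isResidual_one_of_inertia S.surj hσ
  refine ⟨fun c hc => ?_, fun {f u} h => ?_, fun {f u} h => ?_⟩
  · exact unit_of_smul_eq S.surj (TWP.Place.mem_inertiaSubgroupIn_iff A σ |>.mp hσ).1 hc
  · have := redOne_galois S hres h
    rwa [map_one, one_smul] at this
  · have := redTwo_galois hq.out S hres h
    rwa [map_one, one_smul] at this

variable [FunctionField Qbar (laurentBaseChange Qbar (modularFunctionFieldFull (M * q)))]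
  [FunctionField k (modularFunctionFieldFullC k M)]
  {X : NodalDatum Qbar (laurentBaseChange Qbar (modularFunctionFieldFull (M * q))) k
    (modularFunctionFieldFullC k M) (modularFunctionFieldFullC k M) A π}

/-- The Hecke operator on root divisors. -/
theorem exists_rootDiv_hecke (S : Setup π w) (h₁ : X.R₁ = redOne S)
    (h₂ : X.R₂ = redTwo S) {m : ℕ}
    {x : Pic0 Qbar (laurentBaseChange Qbar (modularFunctionFieldFull (M * q)))}
    {ℓ : ℕ} [NeZero ℓ] (hqM : ¬ q ∣ M * ℓ) (h : ((M * ℓ : ℕ) : k) ≠ 0)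
    (D : Divisor.degZero (K := Qbar)
      (F := laurentBaseChange Qbar (modularFunctionFieldFull (M * q))))
    (f : laurentBaseChange Qbar (modularFunctionFieldFull (M * q)))
    (u : modularFunctionFieldFullC k M × modularFunctionFieldFullC k M)
    (hDx : Pic0.mk D = x)
    (H : IsRootDiv X m (D : Divisor Qbar (laurentBaseChange Qbar
      (modularFunctionFieldFull (M * q)))) f u) :
    ∃ (D' : Divisor.degZero (K := Qbar)
      (F := laurentBaseChange Qbar (modularFunctionFieldFull (M * q))))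
      (f' : laurentBaseChange Qbar (modularFunctionFieldFull (M * q)))
      (u' : modularFunctionFieldFullC k M × modularFunctionFieldFullC k M),
      Pic0.mk D' = heckeOperatorAlong Qbar (M * q) ℓ x ∧
      IsRootDiv X m (D' : Divisor Qbar (laurentBaseChange Qbar
        (modularFunctionFieldFull (M * q)))) f' u' ∧
        (∀ P, P.ord u'.1 = heckeDivC k M ℓ h (divOf u.1) P) := by
  have hπ := S.surj
  obtain ⟨w', -, S'⟩ := exists_setup (k := k) S.surj (M * ℓ) q hq.out hqM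
  have i1 := hasPrincipalDivisors_fullC h
  have H₁ := corrRed_one hq.out hqM h S S'
  have H₂ := corrRed_two hq.out hqM h S S'
  rw [← h₁] at H₁
  rw [← h₂] at H₂
  obtain ⟨hα, hβ, hP, hfin, hFI, hN⟩ :=
    Fermat.Agent.Jan.DegreeWiring.heckeInputsAlong' Qbar (M * q) ℓ
  refine ⟨Pic0.degZeroCorrespondence _ _ hβ hα hFI D,
    normAlong (heckeAlphaBar Qbar (M * q) ℓ) (heckeBetaBar Qbar (M * q) ℓ f),
    (normAlong (alphaC k M ℓ) (betaC k M ℓ u.1), normAlong (alphaC k M ℓ) (betaC k M ℓ u.2)),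
    ?_, ⟨H.pos, ?_, ?_, ?_, ?_, ?_⟩, ?_⟩
  · rw [heckeOperatorAlong_eq hα hβ hFI hfin hN, ← hDx]
    rfl
  · exact normAlong_ne_zero _ hfin ((map_ne_zero _).mpr H.ne_zero)
  · exact nsmul_correspondence_eq_ord _ _ hβ hα hfin hN H.ne_zero H.div_eq
  · exact ⟨H₁.red hπ H.red.1, H₂.red hπ H.red.2⟩
  · exact normAlong_ne_zero _ H₁.fin₁ ((map_ne_zero _).mpr H.ne₁)
  · exact normAlong_ne_zero _ H₂.fin₁ ((map_ne_zero _).mpr H.ne₂)
  · intro P
    exact (heckeDivC_eq_ord h H.ne₁ (fun P => divOf_apply _ P) P).symm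

/-- **The Eisenstein step for `J₀(Mq)`**, from the monodromy relation (any `m`). -/
theorem exists_spec_modular_of_mono (S : Setup π w) (h₁ : X.R₁ = redOne S)
    (h₂ : X.R₂ = redTwo S) {m : ℕ} (hm : 0 < m)
    {x : Pic0 Qbar (laurentBaseChange Qbar (modularFunctionFieldFull (M * q)))} (hx : m • x = 0)
    {SS : Set (Place k (modularFunctionFieldFullC k M))} (hSS : ∀ P ∈ SS, 0 ≤ P.ord (jRed k M))
    (hnodes : ∀ s ∈ X.nodes, s.1 ∈ SS) {E : ℤ} {D₀ : Divisor k (modularFunctionFieldFullC k M)}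
    (wt : Place k (modularFunctionFieldFullC k M) → ℤ) (hwt : ∀ P ∈ SS, D₀ P * wt P = E)
    (hmono : ∀ (D : Divisor.degZero (K := Qbar)
      (F := laurentBaseChange Qbar (modularFunctionFieldFull (M * q))))
      (f : laurentBaseChange Qbar (modularFunctionFieldFull (M * q)))
      (u : modularFunctionFieldFullC k M × modularFunctionFieldFullC k M), Pic0.mk D = x →
      IsRootDiv X m (D : Divisor Qbar (laurentBaseChange Qbar
        (modularFunctionFieldFull (M * q)))) f u → ∀ s ∈ SS, ∀ t ∈ SS,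
        (m : ℤ) ∣ wt s * s.ord u.1 - wt t * t.ord u.1)
    (hD₀ : ∀ P, P ∉ SS → 0 ≤ P.ord (jRed k M) → D₀ P = 0)
    {ℓ : ℕ} [NeZero ℓ] (hqM : ¬ q ∣ M * ℓ) (h : ((M * ℓ : ℕ) : k) ≠ 0) {a b : ℤ}
    (hTD₀ : ∀ P : Place k (modularFunctionFieldFullC k M), 0 ≤ P.ord (jRed k M) →
      heckeDivC k M ℓ h D₀ P = b * D₀ P)
    (hTx : heckeOperatorAlong Qbar (M * q) ℓ x = a • x) :
    ∃ y₁ y₂, Spec X m ((E * (a - b)) • x) y₁ y₂ := by
  refine exists_spec_of_mono S.surj hm hx {P | ¬ 0 ≤ P.ord (jRed k M)} SS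
    (fun P hP => not_not.mpr (hSS P hP)) hnodes E D₀ wt hwt hmono
    (fun P h1 h2 => hD₀ P h1 (not_not.mp h2)) (heckeDivC k M ℓ h) ?_ (a := a) (b := b)
    (fun P hP => hTD₀ P (not_not.mp hP)) ?_
  · intro D hD P hP
    exact heckeDivC_cusp h (fun P hP => hD P (not_not.mpr hP)) P (not_not.mp hP)
  · intro D f u hDx H
    obtain ⟨D', f', u', h1, h2, h3⟩ := exists_rootDiv_hecke S h₁ h₂ hqM h D f u hDx H
    exact ⟨D', f', u', h1.trans hTx, h2, h3⟩

/-- **Inertia-invariant torsion classes of `J₀(Mq)` specialise up to an Eisenstein factor.** -/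
theorem exists_spec_modular (hA : A.LiesOverPrime q) (S : Setup π w) (h₁ : X.R₁ = redOne S)
    (h₂ : X.R₂ = redTwo S) {m : ℕ} (hmk : (m : k) ≠ 0)
    {x : Pic0 Qbar (laurentBaseChange Qbar (modularFunctionFieldFull (M * q)))} (hx : m • x = 0)
    (hfix : ∀ g ∈ inertiaGrp A (M * q), g • x = x)
    {SS : Set (Place k (modularFunctionFieldFullC k M))} (hSS : ∀ P ∈ SS, 0 ≤ P.ord (jRed k M))
    (hnodes : ∀ s ∈ X.nodes, s.1 ∈ SS) {E : ℤ} {D₀ : Divisor k (modularFunctionFieldFullC k M)}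
    (hcoord : ∀ P ∈ SS, ∃ (N : Node (redOne S) (redTwo S) q) (Y : Coord N.toPlacePair (q : Qbar)),
      N.s₁ = P ∧ (∀ g ∈ inertiaGrp A (M * q), ∀ Q ∈ N.Ann, g • Q ∈ N.Ann) ∧
        (∀ g ∈ inertiaGrp A (M * q), g • Y.y = Y.y) ∧ D₀ P * Y.w = E)
    (hD₀ : ∀ P, P ∉ SS → 0 ≤ P.ord (jRed k M) → D₀ P = 0)
    {ℓ : ℕ} [NeZero ℓ] (hqM : ¬ q ∣ M * ℓ) (h : ((M * ℓ : ℕ) : k) ≠ 0) {a b : ℤ}
    (hTD₀ : ∀ P : Place k (modularFunctionFieldFullC k M), 0 ≤ P.ord (jRed k M) →
      heckeDivC k M ℓ h D₀ P = b * D₀ P)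
    (hTx : heckeOperatorAlong Qbar (M * q) ℓ x = a • x) :
    ∃ y₁ y₂, Spec X m ((E * (a - b)) • x) y₁ y₂ := by
  have hπ := S.surj
  have hm : 0 < m := Nat.pos_of_ne_zero (by rintro rfl; simp at hmk)
  have hqA : (q : Qbar) ∈ A := natCast_mem A q
  have hq0 : π ⟨(q : Qbar), hqA⟩ = 0 := by
    have : (⟨(q : Qbar), hqA⟩ : A) = ((q : ℕ) : A) := Subtype.ext (by simp)
    rw [this, map_natCast, CharP.cast_eq_zero]
  refine exists_spec_of_inertia (q := q) hπ (arch hA hπ) hqA hq0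
    (by exact_mod_cast hq.out.ne_zero) hm
    (inertiaGrp A (M * q)) (fun g hg => ?_) ?_ hx hfix {P | ¬ 0 ≤ P.ord (jRed k M)} SS
    (fun P hP => not_not.mpr (hSS P hP)) hnodes E D₀ ?_ (fun P h1 h2 => hD₀ P h1 (not_not.mp h2))
    (heckeDivC k M ℓ h) ?_ (a := a) (b := b) (fun P hP => hTD₀ P (not_not.mp hP)) ?_
  · rw [h₁, h₂]
    exact inertiaAut_of_mem S hg
  · exact inertInput hA hπ hmk _ fun σ hσ => ⟨_, ⟨σ, hσ, rfl⟩, fun x => rfl⟩
  · rw [h₁, h₂]
    exact hcoord
  · intro D hD P hP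
    exact heckeDivC_cusp h (fun P hP => hD P (not_not.mpr hP)) P (not_not.mp hP)
  · intro D f u hDx H
    obtain ⟨D', f', u', h1, h2, h3⟩ := exists_rootDiv_hecke S h₁ h₂ hqM h D f u hDx H
    exact ⟨D', f', u', h1.trans hTx, h2, h3⟩

end Fermat.Agent.DR.Mod
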